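import Fermat.Agent.LT.Adelic.Space
import Fermat.Agent.LT.Adelic.Approx
import Fermat.Agent.LT.Aleph.LocalAdele
import Mathlib.Data.ZMod.Units

/-!
# Integral adelic lifts of `GL₂(ℤ/L)`

`ratLift L g` is an integer lift of `g` at the places dividing `L` and `1` elsewhere.
-/

set_option autoImplicit false

noncomputable section

namespace Fermat.Agent.LT.Asai

open IsDedekindDomain NumberField Matrix
open Fermat.Agent.LT.Adelic Fermat.Agent.LT.Aleph

variable {K : Type*} [Field K] [NumberField K] {L : ℕ}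

section Restrict

open scoped Classical

/-- The adele equal to `x` on `T` and to `0` elsewhere. -/
def adeleOn (T : Set (HeightOneSpectrum (𝓞 K))) (x : FiniteAdeleRing (𝓞 K) K) :
    FiniteAdeleRing (𝓞 K) K :=
  ⟨fun v => if v ∈ T then x v else 0, by
    filter_upwards [x.2] with v hv
    show Valued.v (if v ∈ T then x v else 0) ≤ 1
    split
    · exact hv
    · rw [map_zero]; exact zero_le⟩

theorem adeleOn_apply (T : Set (HeightOneSpectrum (𝓞 K))) (x : FiniteAdeleRing (𝓞 K) K)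
    (v : HeightOneSpectrum (𝓞 K)) : adeleOn T x v = if v ∈ T then x v else 0 := rfl

/-- The idele equal to `x` on `T` and to `1` elsewhere. -/
def ideleOn (T : Set (HeightOneSpectrum (𝓞 K))) (x : (FiniteAdeleRing (𝓞 K) K)ˣ) :
    (FiniteAdeleRing (𝓞 K) K)ˣ where
  val := adeleOn T x + adeleOn Tᶜ 1
  inv := adeleOn T ((x⁻¹ : (FiniteAdeleRing (𝓞 K) K)ˣ) : FiniteAdeleRing (𝓞 K) K) + adeleOn Tᶜ 1
  val_inv := FiniteAdeleRing.ext K fun v => by
    have h := congrArg (fun z : FiniteAdeleRing (𝓞 K) K => z v) x.mul_inv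
    simp only [coe_apply_mul, coe_apply_add, coe_apply_one, adeleOn_apply] at h ⊢
    by_cases hv : v ∈ T <;> simp [hv, h]
  inv_val := FiniteAdeleRing.ext K fun v => by
    have h := congrArg (fun z : FiniteAdeleRing (𝓞 K) K => z v) x.inv_mul
    simp only [coe_apply_mul, coe_apply_add, coe_apply_one, adeleOn_apply] at h ⊢
    by_cases hv : v ∈ T <;> simp [hv, h]

theorem ideleOn_apply (T : Set (HeightOneSpectrum (𝓞 K))) (x : (FiniteAdeleRing (𝓞 K) K)ˣ)
    (v : HeightOneSpectrum (𝓞 K)) :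
    (ideleOn T x : FiniteAdeleRing (𝓞 K) K) v =
      if v ∈ T then (x : FiniteAdeleRing (𝓞 K) K) v else 1 := by
  show (adeleOn T _ + adeleOn Tᶜ 1) v = _
  simp only [coe_apply_add, adeleOn_apply, coe_apply_one]
  by_cases hv : v ∈ T <;> simp [hv]

theorem ideleOn_mul_compl (T : Set (HeightOneSpectrum (𝓞 K)))
    (x : (FiniteAdeleRing (𝓞 K) K)ˣ) : ideleOn T x * ideleOn Tᶜ x = x :=
  Units.ext (FiniteAdeleRing.ext K fun v => by
    rw [Units.val_mul, coe_apply_mul, ideleOn_apply, ideleOn_apply]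
    by_cases hv : v ∈ T <;> simp [hv])

theorem ideleOn_mul (T : Set (HeightOneSpectrum (𝓞 K))) (x y : (FiniteAdeleRing (𝓞 K) K)ˣ) :
    ideleOn T (x * y) = ideleOn T x * ideleOn T y :=
  Units.ext (FiniteAdeleRing.ext K fun v => by
    simp only [Units.val_mul, coe_apply_mul, ideleOn_apply]
    by_cases hv : v ∈ T <;> simp [hv])

/-- The idele of a nonzero element of `K`. -/
def globalIdele (x : Kˣ) : (FiniteAdeleRing (𝓞 K) K)ˣ :=
  Units.map (algebraMap K (FiniteAdeleRing (𝓞 K) K)).toMonoidHom x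

theorem globalIdele_apply (x : Kˣ) (v : HeightOneSpectrum (𝓞 K)) :
    Valued.v ((globalIdele x : FiniteAdeleRing (𝓞 K) K) v) = v.valuation K (x : K) :=
  valued_algebraMap (x : K) v

end Restrict

variable (K) in
/-- The places dividing `L`. -/
def placesOf (L : ℕ) : Set (HeightOneSpectrum (𝓞 K)) := {v | (L : 𝓞 K) ∈ v.asIdeal}

omit [NumberField K] in
theorem notMem_of_isCoprime {d : ℤ} (h : IsCoprime d (L : ℤ)) {v : HeightOneSpectrum (𝓞 K)}
    (hv : v ∈ placesOf K L) : (d : 𝓞 K) ∉ v.asIdeal := fun hd => by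
  refine v.isPrime.ne_top ((Ideal.eq_top_iff_one _).2 ?_)
  obtain ⟨x, y, e⟩ := h.map (Int.castRingHom (𝓞 K))
  rw [← e]
  exact add_mem (v.asIdeal.mul_mem_left _ hd) (v.asIdeal.mul_mem_left _ (by simpa [placesOf] using hv))

theorem intCast_apply (z : ℤ) (v : HeightOneSpectrum (𝓞 K)) :
    (z : FiniteAdeleRing (𝓞 K) K) v = (z : v.adicCompletion K) := by
  exact map_intCast (evalAt K v) z

theorem valued_intCast (d : ℤ) (v : HeightOneSpectrum (𝓞 K)) :
    Valued.v ((d : v.adicCompletion K)) = v.intValuation (d : 𝓞 K) := by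
  have h := valued_algebraMap_int (K := K) (d : 𝓞 K) v
  rw [map_intCast] at h
  rw [← h, intCast_apply]

theorem valued_intCast_le (d : ℤ) (v : HeightOneSpectrum (𝓞 K)) :
    Valued.v ((d : v.adicCompletion K)) ≤ 1 := by
  rw [valued_intCast]; exact v.intValuation_le_one _

theorem intValuation_eq_one_of_notMem_placesOf {v : HeightOneSpectrum (𝓞 K)}
    (hv : v ∉ placesOf K L) : v.intValuation (L : 𝓞 K) = 1 :=
  v.intValuation_eq_one_iff.2 hv

open scoped Classical in
/-- An integer lift of `g` at a place. -/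
def localLift (g : GL (Fin 2) (ZMod L)) (v : HeightOneSpectrum (𝓞 K)) :
    GL (Fin 2) (v.adicCompletion K) :=
  if h : v ∈ placesOf K L ∧
      ((Matrix.of fun i j => (((g i j).cast : ℤ) : v.adicCompletion K))).det ≠ 0 then
    GeneralLinearGroup.mkOfDetNeZero _ h.2 else 1

/-- The integer lift. -/
def intLift (g : GL (Fin 2) (ZMod L)) : Matrix (Fin 2) (Fin 2) ℤ :=
  Matrix.of fun i j => ((g i j).cast : ℤ)

theorem intLift_map (g : GL (Fin 2) (ZMod L)) :
    (intLift g).map (fun z : ℤ => (z : ZMod L)) = (g : Matrix (Fin 2) (Fin 2) (ZMod L)) := by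
  ext i j; simp [intLift]

theorem isCoprime_det_of_lift {g : GL (Fin 2) (ZMod L)} {Z : Matrix (Fin 2) (Fin 2) ℤ}
    (hZ : Z.map (fun z : ℤ => (z : ZMod L)) = (g : Matrix (Fin 2) (Fin 2) (ZMod L))) :
    IsCoprime Z.det (L : ℤ) := by
  rw [isCoprime_comm, ← ZMod.coe_int_isUnit_iff_isCoprime, ← eq_intCast (Int.castRingHom (ZMod L)), RingHom.map_det]
  show IsUnit (Z.map (fun z : ℤ => (z : ZMod L))).det
  rw [hZ]
  exact (Matrix.isUnit_iff_isUnit_det _).1 g.isUnit

theorem valued_det_intLift (g : GL (Fin 2) (ZMod L)) {v : HeightOneSpectrum (𝓞 K)}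
    (hv : v ∈ placesOf K L) :
    Valued.v ((Matrix.of fun i j => (((g i j).cast : ℤ) : v.adicCompletion K))).det = 1 := by
  rw [show (Matrix.of fun i j => (((g i j).cast : ℤ) : v.adicCompletion K)) =
    (Int.castRingHom (v.adicCompletion K)).mapMatrix (intLift g) from rfl, ← RingHom.map_det,
    eq_intCast, valued_intCast]
  exact v.intValuation_eq_one_iff.2
    (notMem_of_isCoprime (isCoprime_det_of_lift (intLift_map g)) hv)

theorem coe_localLift (g : GL (Fin 2) (ZMod L)) {v : HeightOneSpectrum (𝓞 K)}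
    (hv : v ∈ placesOf K L) (i j : Fin 2) :
    (localLift g v : Matrix (Fin 2) (Fin 2) (v.adicCompletion K)) i j =
      ((intLift g i j : ℤ) : v.adicCompletion K) := by
  rw [localLift, dif_pos ⟨hv, fun h => by
    have := valued_det_intLift g hv; rw [h, map_zero] at this; exact zero_ne_one this⟩]
  rfl

theorem localLift_of_notMem (g : GL (Fin 2) (ZMod L)) {v : HeightOneSpectrum (𝓞 K)}
    (hv : v ∉ placesOf K L) : localLift g v = 1 := by
  rw [localLift, dif_neg fun h => hv h.1]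

theorem isIntLocal_localLift (g : GL (Fin 2) (ZMod L)) (v : HeightOneSpectrum (𝓞 K)) :
    IsIntLocal (localLift g v) := by
  by_cases hv : v ∈ placesOf K L
  swap
  · rw [localLift_of_notMem g hv]; exact isIntLocal_one
  intro i j
  refine ⟨by rw [coe_localLift g hv]; exact valued_intCast_le _ v, ?_⟩
  have hd : Valued.v (localLift g v : Matrix (Fin 2) (Fin 2) (v.adicCompletion K)).det = 1 := by
    rw [show (localLift g v : Matrix (Fin 2) (Fin 2) (v.adicCompletion K)) =
      Matrix.of fun i j => (((g i j).cast : ℤ) : v.adicCompletion K) from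
        Matrix.ext fun i j => coe_localLift g hv i j]
    exact valued_det_intLift g hv
  rw [Matrix.coe_units_inv, Matrix.inv_def, Matrix.smul_apply, smul_eq_mul, map_mul,
    Ring.inverse_eq_inv', map_inv₀, hd, inv_one, one_mul, Matrix.adjugate_fin_two]
  fin_cases i <;> fin_cases j <;>
    simp [coe_localLift g hv, valued_intCast_le, Valuation.map_neg]

variable (K) in
/-- An integral adelic lift of an element of `GL₂(ℤ/L)`. -/
def ratLift (g : GL (Fin 2) (ZMod L)) : GfK K :=
  gfOfLocal K (localLift g) (isIntLocal_localLift g)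

/-- `G` is an integral element congruent to `g` modulo `L`. -/
def IsModLift (G : GfK K) (g : GL (Fin 2) (ZMod L)) : Prop :=
  G ∈ principalLevel K (1 : 𝓞 K) ∧ ∃ Z : Matrix (Fin 2) (Fin 2) ℤ,
    Z.map (fun z : ℤ => (z : ZMod L)) = (g : Matrix (Fin 2) (Fin 2) (ZMod L)) ∧
    MatMemMul (L : 𝓞 K) ((G : Matrix (Fin 2) (Fin 2) (FiniteAdeleRing (𝓞 K) K)) -
      Z.map (fun z : ℤ => (z : FiniteAdeleRing (𝓞 K) K)))

theorem isModLift_ratLift (g : GL (Fin 2) (ZMod L)) : IsModLift (ratLift K g) g := by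
  refine ⟨gfOfLocal_mem _ _, intLift g, intLift_map g, fun i j v => ?_⟩
  rw [Matrix.sub_apply, Matrix.map_apply, coe_apply_sub, ← localGL_apply,
    ratLift, localGL_gfOfLocal, intCast_apply]
  by_cases hv : v ∈ placesOf K L
  · rw [coe_localLift g hv, sub_self, map_zero]; exact zero_le
  · rw [intValuation_eq_one_of_notMem_placesOf hv]
    exact (Valuation.map_sub _ _ _).trans
      (max_le (isIntLocal_localLift g v i j).1 (valued_intCast_le _ v))

theorem matMemMul_intCast (Z : Matrix (Fin 2) (Fin 2) ℤ) :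
    MatMemMul (1 : 𝓞 K) (Z.map fun z : ℤ => (z : FiniteAdeleRing (𝓞 K) K)) := fun i j v => by
  rw [Matrix.map_apply, intCast_apply, map_one]
  exact valued_intCast_le _ v

theorem IsModLift.mul {G G' : GfK K} {g g' : GL (Fin 2) (ZMod L)} (h : IsModLift G g)
    (h' : IsModLift G' g') : IsModLift (G * G') (g * g') := by
  obtain ⟨hG, Z, hZ, hd⟩ := h
  obtain ⟨hG', Z', hZ', hd'⟩ := h'
  refine ⟨mul_mem hG hG', Z * Z', ?_, ?_⟩
  · rw [show (fun z : ℤ => (z : ZMod L)) = ⇑(Int.castRingHom (ZMod L)) from rfl, Matrix.map_mul,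
      Units.val_mul, ← hZ, ← hZ']
    rfl
  · rw [show (fun z : ℤ => (z : FiniteAdeleRing (𝓞 K) K)) =
      ⇑(Int.castRingHom (FiniteAdeleRing (𝓞 K) K)) from rfl, Matrix.map_mul, Units.val_mul]
    set A := (G : Matrix (Fin 2) (Fin 2) (FiniteAdeleRing (𝓞 K) K))
    set A' := (G' : Matrix (Fin 2) (Fin 2) (FiniteAdeleRing (𝓞 K) K))
    rw [show A * A' - Z.map (Int.castRingHom _) * Z'.map (Int.castRingHom _) =
      (A - Z.map (Int.castRingHom _)) * A' +
        Z.map (Int.castRingHom _) * (A' - Z'.map (Int.castRingHom _)) by noncomm_ring]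
    refine MatMemMul.add ?_ ?_
    · simpa using hd.mul (mem_principalLevel_one.1 hG').1
    · simpa using (matMemMul_intCast Z).mul hd'

theorem IsModLift.inv_mul_mem {G G' : GfK K} {g : GL (Fin 2) (ZMod L)} (h : IsModLift G g)
    (h' : IsModLift G' g) : G⁻¹ * G' ∈ principalLevel K (L : 𝓞 K) := by
  obtain ⟨hG, Z, hZ, hd⟩ := h
  obtain ⟨hG', Z', hZ', hd'⟩ := h'
  refine inv_mul_mem_of_congr hG hG' ?_
  set cA := fun z : ℤ => (z : FiniteAdeleRing (𝓞 K) K)
  have hZZ : MatMemMul (L : 𝓞 K) (Z'.map cA - Z.map cA) := fun i j => by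
    have e : ((Z' i j - Z i j : ℤ) : ZMod L) = 0 := by
      have h1 : ((Z' i j : ℤ) : ZMod L) = ((Z i j : ℤ) : ZMod L) := by
        simpa using congrFun (congrFun (hZ'.trans hZ.symm) i) j
      push_cast; rw [h1, sub_self]
    obtain ⟨c, hc⟩ := (ZMod.intCast_zmod_eq_zero_iff_dvd _ _).1 e
    have := (memMul_algebraMap (K := K) (L : 𝓞 K)).mul_int
      (algebraMap_mem_intAdele (K := K) (c : 𝓞 K))
    rw [map_natCast, map_intCast] at this
    rw [Matrix.sub_apply, Matrix.map_apply, Matrix.map_apply]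
    show MemMul _ ((Z' i j : FiniteAdeleRing (𝓞 K) K) - (Z i j : FiniteAdeleRing (𝓞 K) K))
    rw [← Int.cast_sub, hc]
    push_cast
    exact this
  have := (hd'.add hZZ).sub hd
  convert this using 1
  abel

theorem isModLift_one : IsModLift (1 : GfK K) (1 : GL (Fin 2) (ZMod L)) :=
  ⟨one_mem _, 1, by simp, fun i j v => by simp [coe_apply_zero]⟩

/-- An element of `SL₂(ℤ)` in `GL₂(K)`. -/
def gammaK (γ : SpecialLinearGroup (Fin 2) ℤ) : GL (Fin 2) K :=
  SpecialLinearGroup.toGL (SpecialLinearGroup.map (Int.castRingHom K) γ)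

omit [NumberField K] in
theorem gammaK_apply (γ : SpecialLinearGroup (Fin 2) ℤ) (i j : Fin 2) :
    ((gammaK γ : GL (Fin 2) K) : Matrix (Fin 2) (Fin 2) K) i j = ((γ i j : ℤ) : K) := rfl

omit [NumberField K] in
theorem gammaK_mul (γ γ' : SpecialLinearGroup (Fin 2) ℤ) :
    (gammaK (γ * γ') : GL (Fin 2) K) = gammaK γ * gammaK γ' := by
  simp [gammaK]

theorem isModLift_toGf (γ : SpecialLinearGroup (Fin 2) ℤ) :
    IsModLift (toGf K (gammaK γ))
      (SpecialLinearGroup.toGL (SpecialLinearGroup.map (Int.castRingHom (ZMod L)) γ)) := by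
  have e : ∀ γ : SpecialLinearGroup (Fin 2) ℤ,
      (toGf K (gammaK γ) : Matrix (Fin 2) (Fin 2) (FiniteAdeleRing (𝓞 K) K)) =
        (γ : Matrix (Fin 2) (Fin 2) ℤ).map fun z : ℤ => (z : FiniteAdeleRing (𝓞 K) K) :=
    fun γ => Matrix.ext fun i j => by
      show algebraMap K _ (((gammaK γ : GL (Fin 2) K) : Matrix (Fin 2) (Fin 2) K) i j) = _
      rw [gammaK_apply, map_intCast]
      rfl
  refine ⟨mem_principalLevel_one.2 ⟨by rw [e]; exact matMemMul_intCast _, ?_⟩, γ, rfl, ?_⟩
  · have : (toGf K (gammaK γ))⁻¹ = toGf K (gammaK γ⁻¹) := by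
      rw [inv_eq_iff_mul_eq_one, ← map_mul, ← gammaK_mul, mul_inv_cancel]
      simp [gammaK]
    rw [this, e]
    exact matMemMul_intCast _
  · rw [e, sub_self]
    exact fun i j v => by simp [coe_apply_zero]

theorem natCast_ne_zero_of_coprime {n : ℕ} (hL : 1 < L) (h : n.Coprime L) : (n : K) ≠ 0 := by
  rw [Nat.cast_ne_zero]
  rintro rfl
  rw [Nat.coprime_zero_left] at h
  omega

variable (K) in
/-- `n` at the places dividing `L`, `1` elsewhere. -/
def natIdele (hL : 1 < L) {n : ℕ} (h : n.Coprime L) : (FiniteAdeleRing (𝓞 K) K)ˣ :=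
  ideleOn (placesOf K L) (globalIdele (Units.mk0 (n : K) (natCast_ne_zero_of_coprime hL h)))

theorem natIdele_apply_of_mem (hL : 1 < L) {n : ℕ} (h : n.Coprime L)
    {v : HeightOneSpectrum (𝓞 K)} (hv : v ∈ placesOf K L) :
    (natIdele K hL h : FiniteAdeleRing (𝓞 K) K) v = ((n : ℤ) : v.adicCompletion K) := by
  rw [natIdele, ideleOn_apply, if_pos hv]
  show algebraMap K (FiniteAdeleRing (𝓞 K) K) (n : K) v = _
  rw [map_natCast, ← intCast_apply, Int.cast_natCast]

theorem valued_natIdele (hL : 1 < L) {n : ℕ} (h : n.Coprime L) (v : HeightOneSpectrum (𝓞 K)) :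
    Valued.v ((natIdele K hL h : FiniteAdeleRing (𝓞 K) K) v) = 1 := by
  by_cases hv : v ∈ placesOf K L
  · rw [natIdele_apply_of_mem hL h hv, valued_intCast]
    exact v.intValuation_eq_one_iff.2 (notMem_of_isCoprime (Nat.isCoprime_iff_coprime.2 h) hv)
  · rw [natIdele, ideleOn_apply, if_neg hv, map_one]

theorem inv_idele_apply (x : (FiniteAdeleRing (𝓞 K) K)ˣ) (v : HeightOneSpectrum (𝓞 K)) :
    ((x⁻¹ : (FiniteAdeleRing (𝓞 K) K)ˣ) : FiniteAdeleRing (𝓞 K) K) v =
      ((x : FiniteAdeleRing (𝓞 K) K) v)⁻¹ := by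
  refine eq_inv_of_mul_eq_one_left ?_
  rw [← coe_apply_mul, Units.inv_mul, coe_apply_one]

/-- The diagonal and scalar lifts. -/
theorem isModLift_diag2 (hL : 1 < L) {m n : ℕ} (hm : m.Coprime L) (hn : n.Coprime L) :
    IsModLift (diag2 (natIdele K hL hm) (natIdele K hL hn))
      (diag2 (ZMod.unitOfCoprime m hm) (ZMod.unitOfCoprime n hn)) := by
  refine ⟨mem_principalLevel_one.2 ⟨fun i j v => ?_, fun i j v => ?_⟩,
    !![(m : ℤ), 0; 0, (n : ℤ)], ?_, fun i j v => ?_⟩
  · fin_cases i <;> fin_cases j <;>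
      simp [valued_natIdele, coe_apply_zero]
  · rw [show (diag2 (natIdele K hL hm) (natIdele K hL hn) : GfK K)⁻¹ =
      diag2 (natIdele K hL hm)⁻¹ (natIdele K hL hn)⁻¹ from inv_eq_of_mul_eq_one_right (by
        apply GL.ext_fin_two; ext i j; fin_cases i <;> fin_cases j <;> simp)]
    fin_cases i <;> fin_cases j <;>
      simp [valued_natIdele, inv_idele_apply, coe_apply_zero]
  · ext i j; fin_cases i <;> fin_cases j <;> simp
  · rw [Matrix.sub_apply, Matrix.map_apply, coe_apply_sub, intCast_apply]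
    by_cases hv : v ∈ placesOf K L
    · fin_cases i <;> fin_cases j <;>
        simp [natIdele_apply_of_mem, hv, coe_apply_zero]
    · rw [intValuation_eq_one_of_notMem_placesOf hv]
      refine (Valuation.map_sub _ _ _).trans (max_le ?_ (valued_intCast_le _ v))
      fin_cases i <;> fin_cases j <;> simp [valued_natIdele, coe_apply_zero]

end Fermat.Agent.LT.Asai
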