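import Fermat.Agent.LT.Asai.Coefficients
import Fermat.Agent.LT.Density.Exceptional
import Fermat.Agent.LT.Lift.Field
import Fermat.Agent.Galois.Cyclotomic

/-!
# The Asai series has the pole of the zeta function

With `a v` the traces of the octahedral lift outside a small set of places, `A (p)` is
`(tr θ)² - det θ + 1` at a Frobenius element at almost all `p`.
-/

set_option autoImplicit false

noncomputable section

namespace Fermat.Agent.LT.Asai

open NumberField IsDedekindDomain Fermat.Agent.Galois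
open Orbit (EisData)
open WeierstrassCurve (modThreeCyclotomicChar modThreeCyclotomicChar_apply)
open scoped MatrixGroups

variable {W : WeierstrassCurve ℤ} {ρ : GalQ →* GL (Fin 2) (ZMod 3)}

theorem octTrace_sq (σ : GalQ) :
    octTrace ρ (σ ^ 2) = octTrace ρ σ ^ 2 -
      2 * ((octRep (ρ σ) : GL (Fin 2) ℂ) : Matrix (Fin 2) (Fin 2) ℂ).det := by
  rw [octTrace, octTrace, map_pow, map_pow, sq, Units.val_mul]
  simp only [Matrix.trace_fin_two, Matrix.det_fin_two, Matrix.mul_apply, Fin.sum_univ_two]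
  ring

theorem octTrace_eq_of_isConj {σ τ : GalQ} (h : IsConj (ρ σ) (ρ τ)) :
    octTrace ρ σ = octTrace ρ τ := by
  obtain ⟨c, hc⟩ := isConj_iff.1 h
  rw [octTrace, octTrace, ← hc, map_mul, map_mul, map_inv, Units.val_mul, Units.val_mul,
    Matrix.trace_mul_cycle, ← Units.val_mul, inv_mul_cancel, Units.val_one, one_mul]

theorem inQuat_sq : ∀ a b c d : ZMod 3, a * d - b * c ≠ 0 → a * d - b * c ≠ 1 →
    InQuat (a * a + b * c) (a * b + b * d) (c * a + d * c) (c * b + d * d) := by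
  decide +kernel

theorem sq_mem_quatSubgroup {g : GL (Fin 2) (ZMod 3)}
    (h : Matrix.GeneralLinearGroup.det g ≠ 1) : g ^ 2 ∈ quatSubgroup := by
  rw [mem_quatSubgroup, sq]
  simp only [Units.val_mul, Matrix.mul_apply, Fin.sum_univ_two]
  exact inQuat_sq _ _ _ _ (det_entries_ne_zero g) fun h' => h ((Density.det_eq_one_iff g).1 h')

theorem modThreeCyclotomicChar_ne_one {p : ℕ} (hp : p.Prime) (h2 : p % 3 = 2)
    {A : ValuationSubring Qbar} (hA : A.LiesOverPrime p) {σ : GalQ} (hσ : A.IsFrobeniusAt σ p) :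
    modThreeCyclotomicChar σ ≠ 1 := by
  intro h1
  obtain ⟨ζ, hζ⟩ := HasEnoughRootsOfUnity.exists_primitiveRoot Qbar 3
  have hint : IsIntegral ℤ ζ := hζ.isIntegral (by norm_num)
  have h3 : ¬ p ∣ 3 := fun hd => by
    have := (Nat.prime_dvd_prime_iff_eq hp Nat.prime_three).1 hd
    omega
  have hroot : (hζ.isUnit (by norm_num)).unit ∈ rootsOfUnity 3 Qbar := by
    rw [mem_rootsOfUnity]
    exact Units.ext (by simpa using hζ.pow_eq_one)
  have hfix := modularCyclotomicCharacter.spec Qbar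
    (IsAlgClosed.card_rootsOfUnity_eq (AlgebraicClosure ℚ) 3) (σ : Qbar ≃+* Qbar) hroot
  rw [← modThreeCyclotomicChar_apply, h1] at hfix
  have hfix' : σ ζ = ζ := by simpa [show (1 : ZMod 3).val = 1 by decide] using hfix
  have hsub := isFrobeniusAt_sub_mem_nonunits hσ (place_mem_of_isIntegral A hint)
  rw [hfix'] at hsub
  have he := rootOfUnity_eq_of_sub_mem_nonunits hA hp h3 hζ.pow_eq_one
    (by rw [← pow_mul, mul_comm, pow_mul, hζ.pow_eq_one, one_pow]) hsub
  have : ζ ^ 1 = ζ ^ 2 := by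
    rw [pow_one]
    conv_lhs => rw [he]
    rw [← Nat.mod_add_div p 3, h2, pow_add, pow_mul, hζ.pow_eq_one, one_pow, mul_one]
  exact absurd (hζ.pow_inj (by norm_num) (by norm_num) this) (by norm_num)

theorem isFrobOver_sq (hρ : IsThreeRep W ρ) {p : ℕ} (hp : p.Prime) (h2 : p % 3 = 2)
    {v : HeightOneSpectrum (𝓞 fieldF)}
    (hv : ∀ u : HeightOneSpectrum (𝓞 fieldF), (p : 𝓞 fieldF) ∈ u.asIdeal ↔ u = v)
    (hN : Ideal.absNorm v.asIdeal = p ^ 2) {A : ValuationSubring Qbar}
    (hA : A.LiesOverPrime p) {σ : GalQ} (hσ : A.IsFrobeniusAt σ p) :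
    IsFrobOver fieldF v.asIdeal (σ ^ 2) ∧ ρ (σ ^ 2) ∈ quatSubgroup := by
  have hne : Matrix.GeneralLinearGroup.det (ρ σ) ≠ 1 := by
    rw [hρ.det]; exact modThreeCyclotomicChar_ne_one hp h2 hA hσ
  have hd := hσ.mem_decompositionSubgroup
  refine ⟨⟨?_, A, fun x => ?_, Subgroup.pow_mem _ hd 2, fun x hx => ?_⟩, ?_⟩
  · rw [IntermediateField.mem_fixingSubgroup_iff]
    intro x hx
    have hmem : σ ^ 2 ∈ kerOmega := MonoidHom.mem_ker.2 (by
      rw [map_pow]
      exact (by decide : ∀ u : (ZMod 3)ˣ, u ^ 2 = 1) _)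
    exact hx ⟨σ ^ 2, hmem⟩
  · have hP : (levelPlaceIdeal fieldF A) ≠ ⊥ := fun e => by
      have := natCast_mem_levelPlaceIdeal fieldF hA
      rw [e, Ideal.mem_bot, Nat.cast_eq_zero] at this
      exact hp.ne_zero this
    have := (hv ⟨levelPlaceIdeal fieldF A, inferInstance, hP⟩).1
      (natCast_mem_levelPlaceIdeal fieldF hA)
    rw [← congrArg HeightOneSpectrum.asIdeal this]
    exact mem_levelPlaceIdeal_iff fieldF
  · rw [← Submodule.cardQuot_apply, ← Ideal.absNorm_apply, hN, sq σ, AlgEquiv.mul_apply]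
    have hxσ : σ x ∈ A := decomposition_apply_mem hd hx
    have h1 := isFrobeniusAt_sub_mem_nonunits hσ hxσ
    have h2 := isFrobeniusAt_sub_mem_nonunits hσ hx
    obtain ⟨c, hc⟩ := sub_dvd_pow_sub_pow (⟨σ x, hxσ⟩ : A) ⟨x ^ p, pow_mem hx p⟩ p
    have hc' : (σ x) ^ p - (x ^ p) ^ p = (σ x - x ^ p) * (c : Qbar) := congrArg Subtype.val hc
    have h3 : (σ x) ^ p - (x ^ p) ^ p ∈ A.nonunits := by
      rw [hc']
      rw [ValuationSubring.mem_nonunits_iff] at h2 ⊢
      rw [map_mul]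
      exact mul_lt_one_of_lt_of_le h2 ((A.valuation_le_one_iff _).2 c.2)
    have := A.nonunits.add_mem h1 h3
    rwa [← pow_mul, ← sq, sub_add_sub_cancel] at this
  · rw [map_pow]
    exact sq_mem_quatSubgroup hne

/-- The lower bound for `∑_p Re A(p) p^(-s)`. -/
theorem exists_log_bound (hρ : IsThreeRep W ρ) (E : EisData (𝓞 fieldF)) {M : ℕ} (hM : M ≠ 0)
    {a : HeightOneSpectrum (𝓞 fieldF) → ℂ} {X : Set (HeightOneSpectrum (𝓞 fieldF))}
    (ha : ∀ v, PrimeTo M v → ‖a v‖ ≤ 2 ∧ (a v).im = 0) (hX : SmallPlaceSet X)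
    (hgal : ∀ v, PrimeTo M v → ∀ σ, IsFrobOver fieldF v.asIdeal σ →
      v ∉ X ∨ ρ σ ∈ quatSubgroup → a v = octTrace ρ σ) :
    ∃ C : ℝ, ∀ s : ℝ, 1 < s → s ≤ 3 / 2 →
      Summable (fun p : Nat.Primes => (asaiCoeff M a p).re * ((p : ℕ) : ℝ) ^ (-s)) ∧
      Real.log (1 / (s - 1)) - C ≤
        ∑' p : Nat.Primes, (asaiCoeff M a p).re * ((p : ℕ) : ℝ) ^ (-s) := by
  obtain ⟨S₁, hS₁, hfrob⟩ := Density.exists_finite_isFrobOver ρ hρ.factors hρ.surjective fieldF
    (Matrix.GeneralLinearGroup.det : GL (Fin 2) (ZMod 3) →* (ZMod 3)ˣ).ker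
    (Density.fixing_fieldF_iff hρ)
  obtain ⟨S₂, hS₂, hconj⟩ := Density.exists_finite_isConj_frobLift ρ hρ.factors
  set Y : Set ℕ := {p | ∃ v ∈ X, Ideal.absNorm v.asIdeal = p}
  have hY : DS.PrimeDensityLE Y 0 := by
    refine ⟨∑' v, X.indicator (fun v => (1 : ℝ) / (Ideal.absNorm v.asIdeal : ℝ)) v,
      fun s hs _ P hP => ?_⟩
    rw [zero_mul, zero_add]
    choose v hvX hvN using fun p : P => (hP p.1 p.2).2
    have hinj : Function.Injective v := fun p q h =>
      Subtype.ext (by rw [← hvN p, ← hvN q, h])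
    refine le_trans ?_ (hX.sum_le_tsum (P.attach.map ⟨v, hinj⟩)
      fun u _ => Set.indicator_nonneg (fun _ _ => by positivity) _)
    rw [Finset.sum_map, ← Finset.sum_attach]
    refine Finset.sum_le_sum fun p _ => ?_
    rw [Function.Embedding.coeFn_mk, Set.indicator_of_mem (hvX p), hvN, one_div,
      ← Real.rpow_neg_one]
    exact Real.rpow_le_rpow_of_exponent_le (mod_cast (hP p.1 p.2).1.one_le) (by linarith)
  set Z : Set ℕ := Y ∪ (S₁ ∪ S₂ ∪ {p | p ∣ 3 * M})
  have hZ : DS.PrimeDensityLE Z 0 := by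
    have := hY.union (DS.primeDensityLE_of_finite ((hS₁.union hS₂).union
      (Set.Finite.subset (Set.finite_le_nat (3 * M)) fun p hp =>
        Nat.le_of_dvd (by positivity) hp)))
    rw [add_zero] at this
    exact this
  have hbd : ∀ p : ℕ, p.Prime → |(asaiCoeff M a p).re| ≤ 4 := fun p hp => by
    have := norm_asaiCoeff_primePow_le E ha hp 1
    rw [pow_one] at this
    exact (Complex.abs_re_le_norm _).trans (this.trans (by norm_num))
  obtain ⟨C, hC⟩ := Density.exists_abs_sum_sub_le_of_eq_octSym hρ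
    (fun p => (asaiCoeff M a p).re) hbd hZ fun p hp hpZ A hA σ hσ => by
      simp only [Z, Set.mem_union, Set.mem_ofPred_eq, not_or] at hpZ
      obtain ⟨hpY, ⟨hp1, hp2⟩, hp3⟩ := hpZ
      have hpM : ¬ p ∣ M := fun h => hp3 (h.mul_left 3)
      have hcoef : asaiCoeff M a p = asaiCoeff M a (p ^ 1) := by rw [pow_one]
      suffices (asaiCoeff M a p) = (Density.octSym (ρ σ) : ℂ) by rw [this, Complex.ofReal_re]
      rw [Density.octSym_eq]
      show _ = octTrace ρ σ ^ 2 - _ + 1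
      cases splitting E hp with
      | inert v h hm ho hN =>
        obtain ⟨hover, hquat⟩ := isFrobOver_sq hρ hp h hm hN hA hσ
        rw [hcoef, asaiCoeff_of_one_place hp hpM hm, ho, mul_one, heckeSeq_one,
          hgal v (primeTo_of_mem hp hpM ((hm v).2 rfl)) _ hover (Or.inr hquat), octTrace_sq,
          (Density.octRep_trace_det (ρ σ)).2.2]
        have hne : Matrix.GeneralLinearGroup.det (ρ σ) ≠ 1 := by
          rw [hρ.det]; exact modThreeCyclotomicChar_ne_one hp h hA hσ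
        rw [Density.octSign, Density.signVal,
          if_neg fun h' => hne ((Density.det_eq_one_iff _).1 h')]
        push_cast
        ring
      | split v v' h hne hm ho ho' hN hN' =>
        obtain ⟨A₁, σ₁, hA₁, hσ₁, hover₁⟩ := hfrob v p hp hN hp1
        obtain ⟨A₂, σ₂, hA₂, hσ₂, hover₂⟩ := hfrob v' p hp hN' hp1
        have e₁ := octTrace_eq_of_isConj
          ((hconj p hp hp2 A₁ hA₁ σ₁ hσ₁).symm.trans (hconj p hp hp2 A hA σ hσ))
        have e₂ := octTrace_eq_of_isConj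
          ((hconj p hp hp2 A₂ hA₂ σ₂ hσ₂).symm.trans (hconj p hp hp2 A hA σ hσ))
        rw [hcoef, asaiCoeff_of_two_places hp hpM hne hm, ho, ho', mul_one, heckeSeq_one,
          heckeSeq_one,
          hgal v (primeTo_of_mem hp hpM ((hm v).2 (Or.inl rfl))) _ hover₁
            (Or.inl fun hvX => hpY ⟨v, hvX, hN⟩),
          hgal v' (primeTo_of_mem hp hpM ((hm v').2 (Or.inr rfl))) _ hover₂
            (Or.inl fun hvX => hpY ⟨v', hvX, hN'⟩), e₁, e₂,
          (Density.octRep_trace_det (ρ σ)).2.2]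
        have hone : Matrix.GeneralLinearGroup.det (ρ σ) = 1 := by
          obtain ⟨c, hc⟩ := isConj_iff.1
            ((hconj p hp hp2 A₁ hA₁ σ₁ hσ₁).symm.trans (hconj p hp hp2 A hA σ hσ))
          rw [← hc, map_mul, map_mul, map_inv, mul_inv_cancel_comm]
          exact MonoidHom.mem_ker.1 ((Density.fixing_fieldF_iff hρ σ₁).1 fun x =>
            (IntermediateField.mem_fixingSubgroup_iff _ _).1 hover₁.1 x x.2)
        rw [Density.octSign, Density.signVal, if_pos ((Density.det_eq_one_iff _).2 hone)]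
        push_cast
        ring
      | ramified v h hm ho hN => exact absurd (h ▸ dvd_mul_right 3 M) hp3
  refine ⟨C, fun s hs hs2 => ?_⟩
  obtain ⟨h1, h2⟩ := hC s hs (hs2.trans (by norm_num))
  exact ⟨h1, by have := (abs_le.1 h2).1; linarith⟩

end Fermat.Agent.LT.Asai
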