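import Mathlib.Analysis.SpecialFunctions.Pow.Real
import Mathlib.Analysis.SpecificLimits.Normed
import Mathlib.Analysis.Complex.Basic

/-!
# The part at `3` of the Asai series without an eigenvalue

For coefficients `lam e` along the powers of `√-3` the operator `threeOp` is the normalised Hecke
operator. The series `threeSeries lam X = ∑ lam (2k) X ^ k` satisfies
`(1 + X²) G(lam) - X (G(T T lam) - 2 G(lam)) = (1 + X) lam 0`, so two bounded products with a series
having a pole at `s = 1` force `lam 0 = 0`.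
-/

set_option autoImplicit false

noncomputable section

open scoped Topology

namespace Fermat.Agent.LT.Asai

/-- `(T lam) e = lam (e + 1) + lam (e - 1)`. -/
def threeOp (lam : ℕ → ℂ) (e : ℕ) : ℂ := lam (e + 1) + if e = 0 then 0 else lam (e - 1)

/-- `∑ lam (2k) X ^ k`. -/
def threeSeries (lam : ℕ → ℂ) (X : ℂ) : ℂ := ∑' k, lam (2 * k) * X ^ k

/-- `lam e = O(√3 ^ e)`. -/
def IsThreeBounded (lam : ℕ → ℂ) : Prop := ∃ C : ℝ, ∀ e, ‖lam e‖ ≤ C * Real.sqrt 3 ^ e

theorem IsThreeBounded.threeOp {lam : ℕ → ℂ} (h : IsThreeBounded lam) :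
    IsThreeBounded (threeOp lam) := by
  obtain ⟨C, hC⟩ := h
  have h1 : (1 : ℝ) ≤ Real.sqrt 3 := Real.one_le_sqrt.2 (by norm_num)
  have hC0 : 0 ≤ C := by
    have := (norm_nonneg _).trans (hC 0)
    simpa using this
  refine ⟨2 * Real.sqrt 3 * C, fun e => (norm_add_le _ _).trans ?_⟩
  have h2 : ‖if e = 0 then 0 else lam (e - 1)‖ ≤ Real.sqrt 3 * C * Real.sqrt 3 ^ e := by
    split_ifs with he
    · rw [norm_zero]; positivity
    · refine (hC _).trans ?_
      rw [mul_comm (Real.sqrt 3) C, mul_assoc]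
      refine mul_le_mul_of_nonneg_left ?_ hC0
      exact (pow_le_pow_right₀ h1 (Nat.sub_le e 1)).trans (le_mul_of_one_le_left (by positivity) h1)
  calc ‖lam (e + 1)‖ + ‖if e = 0 then 0 else lam (e - 1)‖
      ≤ C * Real.sqrt 3 ^ (e + 1) + Real.sqrt 3 * C * Real.sqrt 3 ^ e := add_le_add (hC _) h2
    _ = _ := by ring

theorem IsThreeBounded.iterate {lam : ℕ → ℂ} (h : IsThreeBounded lam) (j : ℕ) :
    IsThreeBounded (Asai.threeOp^[j] lam) := by
  induction j generalizing lam with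
  | zero => exact h
  | succ j ih =>
    rw [Function.iterate_succ_apply]
    exact ih h.threeOp

theorem IsThreeBounded.summable {lam : ℕ → ℂ} (h : IsThreeBounded lam) {X : ℂ}
    (hX : 3 * ‖X‖ < 1) : Summable fun k => lam (2 * k) * X ^ k := by
  obtain ⟨C, hC⟩ := h
  refine .of_norm_bounded ((summable_geometric_of_lt_one (by positivity) hX).mul_left C) fun k => ?_
  rw [norm_mul, norm_pow, mul_pow, ← mul_assoc]
  refine mul_le_mul_of_nonneg_right ((hC _).trans_eq ?_) (by positivity)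
  rw [pow_mul, Real.sq_sqrt (by norm_num)]

/-- The telescoping identity. -/
theorem threeSeries_identity {lam : ℕ → ℂ} (h : IsThreeBounded lam) {X : ℂ} (hX : 3 * ‖X‖ < 1) :
    (1 + X ^ 2) * threeSeries lam X -
      X * (threeSeries (threeOp (threeOp lam)) X - 2 * threeSeries lam X) = (1 + X) * lam 0 := by
  have hG := h.summable hX
  have hT := h.threeOp.threeOp.summable hX
  set f : ℕ → ℂ := fun k => lam (2 * k) * X ^ k with hf
  set g : ℕ → ℂ := fun k => threeOp (threeOp lam) (2 * k) * X ^ k with hg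
  have hrec : ∀ k, X * g (k + 1) - 2 * X * f (k + 1) = f (k + 2) + X ^ 2 * f k := fun k => by
    simp only [hf, hg, threeOp]
    rw [if_neg (by omega), if_neg (by omega), if_neg (by omega),
      show 2 * (k + 1) - 1 + 1 = 2 * (k + 1) by omega, show 2 * (k + 1) - 1 - 1 = 2 * k by omega,
      show 2 * (k + 1) + 1 + 1 = 2 * (k + 2) by omega, Nat.add_sub_cancel]
    ring
  have hf1 : Summable fun k => f (k + 1) := (summable_nat_add_iff 1).2 hG
  have hf2 : Summable fun k => f (k + 2) := (summable_nat_add_iff 2).2 hG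
  have hg1 : Summable fun k => g (k + 1) := (summable_nat_add_iff 1).2 hT
  have key : X * ∑' k, g (k + 1) - 2 * X * ∑' k, f (k + 1) =
      (∑' k, f (k + 2)) + X ^ 2 * ∑' k, f k := by
    rw [← tsum_mul_left, ← tsum_mul_left, ← tsum_mul_left,
      ← (hg1.mul_left X).tsum_sub (hf1.mul_left (2 * X)), ← hf2.tsum_add (hG.mul_left (X ^ 2))]
    exact tsum_congr hrec
  show (1 + X ^ 2) * ∑' k, f k - X * ((∑' k, g k) - 2 * ∑' k, f k) = (1 + X) * lam 0
  have e0 : f 0 = lam 0 := by simp [hf]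
  have e1 : f 1 = lam 2 * X := by simp [hf]
  have eg : g 0 = lam 0 + lam 2 := by simp [hg, threeOp]; ring
  rw [hT.tsum_eq_zero_add, eg]
  have s0 := hG.tsum_eq_zero_add
  have s1 := hf1.tsum_eq_zero_add
  rw [e0] at s0
  rw [show f (0 + 1) = lam 2 * X from e1] at s1
  linear_combination (1 + 2 * X) * s0 + s1 - key

/-- The first nonzero coefficient moves to `0`. -/
theorem threeOp_iterate_zero {lam : ℕ → ℂ} (j : ℕ) (h : ∀ i < j, lam i = 0) :
    Asai.threeOp^[j] lam 0 = lam j := by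
  induction j generalizing lam with
  | zero => rfl
  | succ j ih =>
    rw [Function.iterate_succ_apply, ih fun i hi => ?_]
    · rw [threeOp]
      split_ifs with hj
      · rw [add_zero]
      · rw [h (j - 1) (by omega), add_zero]
    · rw [threeOp, h (i + 1) (by omega), zero_add]
      split_ifs with h0
      · rfl
      · exact h (i - 1) (by omega)

theorem three_mul_norm_rpow_lt_one {s : ℝ} (hs : 1 < s) :
    3 * ‖(((3 : ℝ) ^ (-s) : ℝ) : ℂ)‖ < 1 := by
  rw [Complex.norm_real, Real.norm_of_nonneg (by positivity)]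
  calc 3 * (3 : ℝ) ^ (-s) < 3 * (3 : ℝ) ^ (-1 : ℝ) :=
        mul_lt_mul_of_pos_left (Real.rpow_lt_rpow_of_exponent_lt (by norm_num) (by linarith))
          (by norm_num)
    _ = 1 := by rw [Real.rpow_neg_one]; norm_num

/-- If the two products stay bounded as `s → 1+` while `D` has a pole, then `lam 0 = 0`. -/
theorem eq_zero_of_threeSeries_bounded {lam : ℕ → ℂ} (h : IsThreeBounded lam) {D : ℝ → ℂ} {c : ℝ}
    (hc : 0 < c) (hD : ∀ s : ℝ, 1 < s → s ≤ 3 / 2 → c / (s - 1) ≤ ‖D s‖)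
    (h0 : ∃ B : ℝ, ∀ s : ℝ, 1 < s → s ≤ 3 / 2 →
      ‖threeSeries lam (((3 : ℝ) ^ (-s) : ℝ) : ℂ) * D s‖ ≤ B)
    (h2 : ∃ B : ℝ, ∀ s : ℝ, 1 < s → s ≤ 3 / 2 →
      ‖threeSeries (threeOp (threeOp lam)) (((3 : ℝ) ^ (-s) : ℝ) : ℂ) * D s‖ ≤ B) :
    lam 0 = 0 := by
  by_contra hne
  obtain ⟨B₀, hB₀⟩ := h0
  obtain ⟨B₂, hB₂⟩ := h2
  have hpos : 0 < c * ‖lam 0‖ := mul_pos hc (norm_pos_iff.2 hne)
  set B := |B₂| + 4 * |B₀| + 1 with hBdef
  have hB : 0 < B := by positivity
  set δ := min (1 / 2) (c * ‖lam 0‖ / (2 * B)) with hδ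
  have hδ0 : 0 < δ := lt_min (by norm_num) (by positivity)
  set s : ℝ := 1 + δ with hs
  have hs1 : 1 < s := by linarith
  have hs2 : s ≤ 3 / 2 := by linarith [min_le_left (1 / 2 : ℝ) (c * ‖lam 0‖ / (2 * B))]
  set r : ℝ := (3 : ℝ) ^ (-s)
  have hX := three_mul_norm_rpow_lt_one hs1
  have hr0 : 0 ≤ r := by positivity
  have hr : ‖(r : ℂ)‖ = r := by rw [Complex.norm_real, Real.norm_of_nonneg hr0]
  have hr1 : r ≤ 1 := by rw [hr] at hX; linarith
  have key : (1 + (r : ℂ)) * lam 0 * D s =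
      (1 + (r : ℂ) ^ 2) * (threeSeries lam r * D s) -
        (r : ℂ) * (threeSeries (threeOp (threeOp lam)) r * D s -
          2 * (threeSeries lam r * D s)) := by
    rw [← threeSeries_identity h hX]; ring
  have hup : ‖(1 + (r : ℂ)) * lam 0 * D s‖ ≤ B := by
    rw [key]
    have a0 := (hB₀ s hs1 hs2).trans (le_abs_self B₀)
    have a2 := (hB₂ s hs1 hs2).trans (le_abs_self B₂)
    refine (norm_sub_le _ _).trans ?_
    rw [norm_mul (1 + (r : ℂ) ^ 2), norm_mul (r : ℂ), hr]
    have b1 : ‖1 + (r : ℂ) ^ 2‖ ≤ 2 := by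
      refine (norm_add_le _ _).trans ?_
      rw [norm_one, norm_pow, hr]
      nlinarith
    have b2 := norm_sub_le (threeSeries (threeOp (threeOp lam)) r * D s)
      (2 * (threeSeries lam r * D s))
    rw [norm_mul (2 : ℂ), Complex.norm_two] at b2
    calc ‖1 + (r : ℂ) ^ 2‖ * ‖threeSeries lam r * D s‖ + r *
          ‖threeSeries (threeOp (threeOp lam)) r * D s - 2 * (threeSeries lam r * D s)‖
        ≤ 2 * |B₀| + 1 * (|B₂| + 2 * |B₀|) := by
          refine add_le_add (mul_le_mul b1 a0 (norm_nonneg _) zero_le_two)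
            (mul_le_mul hr1 (b2.trans ?_) (norm_nonneg _) zero_le_one)
          linarith
      _ ≤ B := by rw [hBdef]; linarith
  have hlow : c * ‖lam 0‖ / δ ≤ ‖(1 + (r : ℂ)) * lam 0 * D s‖ := by
    rw [norm_mul, norm_mul, show (1 + (r : ℂ)) = ((1 + r : ℝ) : ℂ) by push_cast; ring,
      Complex.norm_real, Real.norm_of_nonneg (by positivity)]
    have hd := hD s hs1 hs2
    rw [show s - 1 = δ by rw [hs]; ring] at hd
    calc c * ‖lam 0‖ / δ = 1 * ‖lam 0‖ * (c / δ) := by ring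
      _ ≤ _ := mul_le_mul (mul_le_mul_of_nonneg_right (by linarith) (norm_nonneg _)) hd
          (by positivity) (by positivity)
  have h3 := hlow.trans hup
  rw [div_le_iff₀ hδ0] at h3
  have h4 : B * δ ≤ B * (c * ‖lam 0‖ / (2 * B)) :=
    mul_le_mul_of_nonneg_left (min_le_right _ _) hB.le
  have h5 : B * (c * ‖lam 0‖ / (2 * B)) = c * ‖lam 0‖ / 2 := by field_simp
  linarith

end Fermat.Agent.LT.Asai
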