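import Fermat.Agent.LT.Asai.Coefficients
import Fermat.Agent.LT.Asai.ThreePart
import Mathlib.Analysis.Normed.Module.FiniteDimension

/-!
# The Asai series with an eigenvalue at `√-3`

For `3 ∤ M` the series of level `M` is the series of level `3 M` times the factor at `3`, and the
latter does not vanish near `s = 1`: no bound on the eigenvalue is needed beyond the growth of the
coefficients.
-/

set_option autoImplicit false

noncomputable section

namespace Fermat.Agent.LT.Asai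

open IsDedekindDomain NumberField
open Orbit (EisData)

/-- The coefficients along the powers of a place are eigenvectors of `threeOp`. -/
theorem threeOp_heckeSeq (a : ℂ) : threeOp (heckeSeq a) = fun e => a * heckeSeq a e := by
  funext e
  rcases e with _ | e
  · simp [threeOp]
  · rw [threeOp, if_neg e.succ_ne_zero, Nat.add_sub_cancel, heckeSeq_add_two]
    ring

/-- The factor at `3` is bounded below. -/
theorem exists_threeSeries_heckeSeq_ge {a : ℂ} (hb : IsThreeBounded (heckeSeq a)) :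
    ∃ δ : ℝ, 0 < δ ∧ ∀ s : ℝ, 1 < s →
      δ ≤ ‖threeSeries (heckeSeq a) (((3 : ℝ) ^ (-s) : ℝ) : ℂ)‖ := by
  refine ⟨1 / (2 + ‖a ^ 2 - 2‖), by positivity, fun s hs => ?_⟩
  have hX := three_mul_norm_rpow_lt_one hs
  set r : ℝ := (3 : ℝ) ^ (-s)
  have hr0 : 0 ≤ r := by positivity
  have hr : ‖(r : ℂ)‖ = r := by rw [Complex.norm_real, Real.norm_of_nonneg hr0]
  rw [hr] at hX
  have h2 : threeSeries (threeOp (threeOp (heckeSeq a))) (r : ℂ) =
      a ^ 2 * threeSeries (heckeSeq a) r := by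
    rw [threeSeries, threeSeries, ← tsum_mul_left]
    refine tsum_congr fun k => ?_
    have hlin : threeOp (fun e => a * heckeSeq a e) = fun e => a * threeOp (heckeSeq a) e := by
      funext e
      simp only [threeOp]
      split_ifs <;> ring
    rw [threeOp_heckeSeq, hlin, threeOp_heckeSeq]
    ring
  have key := threeSeries_identity hb (X := (r : ℂ)) (by rw [hr]; exact hX)
  rw [h2, heckeSeq_zero, mul_one] at key
  set G := threeSeries (heckeSeq a) (r : ℂ)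
  have key' : ((1 + (r : ℂ) ^ 2) - r * (a ^ 2 - 2)) * G = 1 + r := by linear_combination key
  have h1 : (1 : ℝ) ≤ ‖(1 : ℂ) + r‖ := by
    rw [show (1 : ℂ) + r = ((1 + r : ℝ) : ℂ) by push_cast; ring, Complex.norm_real,
      Real.norm_of_nonneg (by linarith)]
    linarith
  rw [← key', norm_mul] at h1
  have h3 : ‖(1 + (r : ℂ) ^ 2) - r * (a ^ 2 - 2)‖ ≤ 2 + ‖a ^ 2 - 2‖ := by
    refine (norm_sub_le _ _).trans (add_le_add ((norm_add_le _ _).trans ?_) ?_)
    · rw [norm_one, norm_pow, hr]; nlinarith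
    · rw [norm_mul, hr]
      exact mul_le_of_le_one_left (norm_nonneg _) (by linarith)
  rw [div_le_iff₀ (by positivity)]
  nlinarith [norm_nonneg G]

variable {K : Type*} [Field K] [NumberField K] (E : EisData (𝓞 K)) {M : ℕ}
  {a : HeightOneSpectrum (𝓞 K) → ℂ}

include E in
theorem asaiCoeff_three_mul (h3 : ¬ 3 ∣ M) {v : HeightOneSpectrum (𝓞 K)}
    (hv : (3 : 𝓞 K) ∈ v.asIdeal) {q : ℕ} (_hq : q ≠ 0) (hq3 : ¬ 3 ∣ q) (k : ℕ) :
    asaiCoeff M a (3 ^ k * q) = heckeSeq (a v) (2 * k) * asaiCoeff (3 * M) a q := by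
  have hc : Nat.Coprime 3 q := Nat.prime_three.coprime_iff_not_dvd.2 hq3
  have hA : asaiCoeff (3 * M) a q = asaiCoeff M a q := by
    unfold asaiCoeff
    refine if_congr ?_ rfl rfl
    rw [and_congr_right_iff]
    exact fun _ => by rw [Nat.coprime_mul_iff_right]; exact and_iff_right hc.symm
  rw [asaiCoeff_mul _ _ (hc.pow_left k), hA]
  congr 1
  cases splitting E Nat.prime_three (K := K) with
  | inert v h => norm_num at h
  | split v v' h => norm_num at h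
  | ramified w h hm ho hN =>
    have hvw : v = w := (hm v).1 (by simpa using hv)
    rw [asaiCoeff_of_one_place Nat.prime_three h3 hm, ho, hvw, mul_comm]

/-- Splitting off the powers of `3` from a Dirichlet series. -/
theorem dirSum_three_split {A B : ℕ → ℂ} {l : ℕ → ℂ} {s : ℝ} (hB0 : B 0 = 0) (hA0 : A 0 = 0)
    (hA3 : ∀ q, 3 ∣ q → A q = 0)
    (hmul : ∀ k q : ℕ, q ≠ 0 → ¬ 3 ∣ q → B (3 ^ k * q) = l k * A q)
    (hl : Summable fun k => ‖l k * (((3 : ℝ) ^ (-s) : ℝ) : ℂ) ^ k‖)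
    (hA : Summable fun n : ℕ => ‖A n * (((n : ℝ) ^ (-s) : ℝ) : ℂ)‖) :
    (Summable fun n : ℕ => B n * (((n : ℝ) ^ (-s) : ℝ) : ℂ)) ∧
      dirSum B s = (∑' k, l k * (((3 : ℝ) ^ (-s) : ℝ) : ℂ) ^ k) * dirSum A s := by
  let e : ℕ × {q : ℕ // q ≠ 0 ∧ ¬ 3 ∣ q} → ℕ := fun p => 3 ^ p.1 * p.2.1
  have he : Function.Injective e := by
    intro ⟨k, q, hq0, hq3⟩ ⟨m, r, hr0, hr3⟩ h
    change 3 ^ k * q = 3 ^ m * r at h
    have hkm : k = m := by
      rcases lt_trichotomy k m with hlt | heq | hgt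
      · refine absurd ?_ hq3
        obtain ⟨d, rfl⟩ := Nat.exists_eq_add_of_lt hlt
        rw [pow_succ, pow_add, mul_assoc, mul_assoc] at h
        exact ⟨3 ^ d * r, (Nat.eq_of_mul_eq_mul_left (pow_pos three_pos k) h).trans (by ring)⟩
      · exact heq
      · refine absurd ?_ hr3
        obtain ⟨d, rfl⟩ := Nat.exists_eq_add_of_lt hgt
        rw [pow_succ, pow_add, mul_assoc, mul_assoc] at h
        exact ⟨3 ^ d * q, (Nat.eq_of_mul_eq_mul_left (pow_pos three_pos m) h).symm.trans (by ring)⟩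
    subst hkm
    obtain rfl : q = r := Nat.eq_of_mul_eq_mul_left (pow_pos three_pos k) h
    rfl
  set f : ℕ → ℂ := fun n => B n * (((n : ℝ) ^ (-s) : ℝ) : ℂ) with hf
  set g : ℕ → ℂ := fun n => A n * (((n : ℝ) ^ (-s) : ℝ) : ℂ) with hg
  set h : ℕ → ℂ := fun k => l k * (((3 : ℝ) ^ (-s) : ℝ) : ℂ) ^ k with hh
  have hfe : ∀ p, f (e p) = h p.1 * g p.2.1 := fun p => by
    simp only [hf, hg, hh, e]
    rw [hmul p.1 p.2.1 p.2.2.1 p.2.2.2, Nat.cast_mul,
      Real.mul_rpow (Nat.cast_nonneg _) (Nat.cast_nonneg _), primePow_rpow, Complex.ofReal_mul,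
      Complex.ofReal_pow, Nat.cast_ofNat]
    ring
  have hf0 : ∀ n ∉ Set.range e, f n = 0 := fun n hn => by
    have : n = 0 := by
      by_contra h0
      obtain ⟨k, q, hq, hnq⟩ := Nat.exists_eq_pow_mul_and_not_dvd h0 3 (by norm_num)
      exact hn ⟨(k, ⟨q, fun hq0 => h0 (by rw [hnq, hq0, mul_zero]), hq⟩), hnq.symm⟩
    simp [hf, this, hB0]
  have hgD : Summable fun q : {q : ℕ // q ≠ 0 ∧ ¬ 3 ∣ q} => ‖g q.1‖ :=
    hA.comp_injective Subtype.val_injective
  have hl' : Summable fun k => ‖h k‖ := hl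
  have hprod : Summable fun p : ℕ × {q : ℕ // q ≠ 0 ∧ ¬ 3 ∣ q} => h p.1 * g p.2.1 :=
    summable_mul_of_summable_norm (R := ℂ) (f := h) (g := fun q : {q : ℕ // q ≠ 0 ∧ ¬ 3 ∣ q} => g q.1)
      hl' hgD
  have hfsum : Summable f := (he.summable_iff hf0).1 (hprod.congr fun p => (hfe p).symm)
  refine ⟨hfsum, ?_⟩
  have hgtsum : ∑' q : {q : ℕ // q ≠ 0 ∧ ¬ 3 ∣ q}, g q.1 = ∑' n, g n :=
    Subtype.val_injective.tsum_eq fun n hn => by
      refine ⟨⟨n, fun h0 => hn (by simp [hg, h0, hA0]), fun h3 => hn (by simp [hg, hA3 n h3])⟩, rfl⟩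
  calc dirSum B s = ∑' p, f (e p) :=
        (he.tsum_eq fun n hn => by_contra fun h0 => hn (hf0 n h0)).symm
    _ = ∑' p : ℕ × {q : ℕ // q ≠ 0 ∧ ¬ 3 ∣ q}, h p.1 * g p.2.1 := tsum_congr hfe
    _ = (∑' k, h k) * ∑' q : {q : ℕ // q ≠ 0 ∧ ¬ 3 ∣ q}, g q.1 :=
        (tsum_mul_tsum_of_summable_norm (R := ℂ) (f := h)
          (g := fun q : {q : ℕ // q ≠ 0 ∧ ¬ 3 ∣ q} => g q.1) hl' hgD).symm
    _ = _ := by rw [hgtsum]; rfl

include E in
/-- The lower bound for the series of level `M`, `3 ∤ M`. -/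
theorem exists_lower_bound_asai_three (hM : M ≠ 0) (h3 : ¬ 3 ∣ M) {v : HeightOneSpectrum (𝓞 K)}
    (hv : (3 : 𝓞 K) ∈ v.asIdeal) (ha : ∀ u, PrimeTo (3 * M) u → ‖a u‖ ≤ 2 ∧ (a u).im = 0)
    (hb : IsThreeBounded (heckeSeq (a v)))
    (hlog : ∃ C : ℝ, ∀ s : ℝ, 1 < s → s ≤ 3 / 2 →
      Summable (fun p : Nat.Primes => (asaiCoeff (3 * M) a p).re * ((p : ℕ) : ℝ) ^ (-s)) ∧
      Real.log (1 / (s - 1)) - C ≤
        ∑' p : Nat.Primes, (asaiCoeff (3 * M) a p).re * ((p : ℕ) : ℝ) ^ (-s)) :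
    (∀ s : ℝ, 1 < s → Summable fun m : ℕ => ‖asaiCoeff M a m‖ * (m : ℝ) ^ (-s)) ∧
      ∃ c : ℝ, 0 < c ∧ ∀ s : ℝ, 1 < s → s ≤ 3 / 2 →
        c / (s - 1) ≤ ‖dirSum (asaiCoeff M a) s‖ := by
  have _ := hM
  have key : ∀ s : ℝ, 1 < s →
      (Summable fun n : ℕ => asaiCoeff M a n * (((n : ℝ) ^ (-s) : ℝ) : ℂ)) ∧
        dirSum (asaiCoeff M a) s = threeSeries (heckeSeq (a v)) (((3 : ℝ) ^ (-s) : ℝ) : ℂ) *
          dirSum (asaiCoeff (3 * M) a) s := fun s hs => by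
    have hl : Summable fun k =>
        ‖heckeSeq (a v) (2 * k) * (((3 : ℝ) ^ (-s) : ℝ) : ℂ) ^ k‖ :=
      summable_norm_iff.2 (hb.summable (three_mul_norm_rpow_lt_one hs))
    have hg : Summable fun n : ℕ => ‖asaiCoeff (3 * M) a n * (((n : ℝ) ^ (-s) : ℝ) : ℂ)‖ :=
      summable_norm_dirichlet asaiCoeff_zero asaiCoeff_one asaiCoeff_mul
        (fun p hp k => (norm_asaiCoeff_primePow_le E ha hp k).trans
          (le_mul_of_one_le_left (by positivity) (by norm_num))) hs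
    exact dirSum_three_split asaiCoeff_zero asaiCoeff_zero
      (fun q hq => if_neg fun h => Nat.prime_three.ne_one
        (Nat.Coprime.eq_one_of_dvd ((Nat.coprime_mul_iff_right.1 h.2).1.coprime_dvd_left hq) dvd_rfl))
      (fun k q hq hq3 => asaiCoeff_three_mul E h3 hv hq hq3 k) hl hg
  refine ⟨fun s hs => (summable_norm_iff.2 (key s hs).1).congr fun n => ?_, ?_⟩
  · rw [norm_mul, Complex.norm_real, Real.norm_of_nonneg (Real.rpow_nonneg (Nat.cast_nonneg _) _)]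
  obtain ⟨c, hc, hlow⟩ := exists_lower_bound_asai E ha hlog
  obtain ⟨δ, hδ, hG⟩ := exists_threeSeries_heckeSeq_ge hb
  refine ⟨δ * c, mul_pos hδ hc, fun s hs hs2 => ?_⟩
  rw [(key s hs).2, norm_mul, mul_div_assoc]
  exact mul_le_mul (hG s hs) (hlow s hs hs2) (div_nonneg hc.le (by linarith)) (norm_nonneg _)

end Fermat.Agent.LT.Asai

end
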