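import Fermat.Agent.LT.Asai.TestDefs
import Fermat.Agent.LT.Descent.SForm

/-!
# A level whose conjugates by the test translates lie in `U`
-/

set_option autoImplicit false

noncomputable section

namespace Fermat.Agent.LT.Asai

open IsDedekindDomain NumberField Matrix
open Fermat.Agent.LT.Adelic Fermat.Agent.LT.Aleph Fermat.Agent.LT.Descent
open Orbit (EisData)

variable {K : Type*} [Field K] [NumberField K]

theorem finite_placesOf' {M : ℕ} (hM : M ≠ 0) : (placesOf K M).Finite := by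
  have h0 : Ideal.span {(M : 𝓞 K)} ≠ ⊥ := by
    rw [Ne, Ideal.span_singleton_eq_bot]
    exact Nat.cast_ne_zero.2 hM
  exact (Ideal.finite_factors h0).subset fun v hv => Ideal.dvd_span_singleton.2 hv

theorem supportedIn_natCast {M : ℕ} (hM : M ≠ 0) : SupportedIn (placesOf K M) (M : 𝓞 K) :=
  ⟨Nat.cast_ne_zero.2 hM, fun _ hv => intValuation_eq_one_of_notMem_placesOf hv⟩

/-- The translation parameter costs at most one power of `M`. -/
theorem valued_tAdele_mul_le (E : EisData (𝓞 K)) {M : ℕ} (hM : M ≠ 0) (j : ℕ)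
    (v : HeightOneSpectrum (𝓞 K)) :
    Valued.v (tAdele E M j v) * v.intValuation (M : 𝓞 K) ≤ 1 := by
  classical
  rw [tAdele, adeleOn_apply]
  split_ifs with hv
  swap
  · rw [map_zero, zero_mul]; exact zero_le
  rw [valued_algebraMap, map_div₀, map_mul, HeightOneSpectrum.valuation_of_algebraMap,
    ← map_natCast (algebraMap (𝓞 K) K) j, ← map_natCast (algebraMap (𝓞 K) K) M,
    HeightOneSpectrum.valuation_of_algebraMap, HeightOneSpectrum.valuation_of_algebraMap,
    div_mul_cancel₀ _ (v.intValuation_ne_zero _ (Nat.cast_ne_zero.2 hM))]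
  exact mul_le_one' (v.intValuation_le_one _) (v.intValuation_le_one _)

theorem unipotent_inv_eq {R : Type*} [CommRing R] (t : R) : (unipotent t)⁻¹ = unipotent (-t) :=
  Units.ext rfl

/-- Conjugation by a unipotent of denominator `B` costs `B²`. -/
theorem matMemMul_unipotent_conj {m M : 𝓞 K} {t : FiniteAdeleRing (𝓞 K) K}
    (ht : ∀ v : HeightOneSpectrum (𝓞 K), Valued.v (t v) * v.intValuation M ≤ 1)
    {X : Matrix (Fin 2) (Fin 2) (FiniteAdeleRing (𝓞 K) K)}
    (hX : ∀ i j, ∀ v : HeightOneSpectrum (𝓞 K),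
      Valued.v (X i j v) ≤ v.intValuation M * v.intValuation M * v.intValuation m) :
    MatMemMul m ((unipotent (-t) : GfK K).val * X * (unipotent t : GfK K).val) := by
  intro i j v
  set B := v.intValuation M
  set Q := v.intValuation m
  have hB : B ≤ 1 := v.intValuation_le_one _
  have hBQ : ∀ k l, Valued.v (X k l v) ≤ B * Q := fun k l =>
    (hX k l v).trans (by rw [mul_assoc]; exact mul_le_of_le_one_left' hB)
  have hQ : ∀ k l, Valued.v (X k l v) ≤ Q := fun k l =>
    (hBQ k l).trans (mul_le_of_le_one_left' hB)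
  have htX : ∀ k l, Valued.v (t v * X k l v) ≤ B * Q := fun k l => by
    rw [map_mul]
    calc Valued.v (t v) * Valued.v (X k l v) ≤ Valued.v (t v) * (B * B * Q) :=
          mul_le_mul' le_rfl (hX k l v)
      _ = Valued.v (t v) * B * (B * Q) := by ac_rfl
      _ ≤ B * Q := mul_le_of_le_one_left' (ht v)
  have hcalc : (unipotent (-t) : GfK K).val * X * (unipotent t : GfK K).val =
      !![X 0 0 - t * X 1 0, (X 0 0 - t * X 1 0) * t + (X 0 1 - t * X 1 1);
        X 1 0, X 1 0 * t + X 1 1] := by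
    show !![1, -t; 0, 1] * X * !![1, t; 0, 1] = _
    ext1 a b
    fin_cases a <;> fin_cases b <;>
      simp [Matrix.mul_apply, Matrix.vecMul, dotProduct, Fin.sum_univ_two] <;> ring
  rw [hcalc]
  have h00 : Valued.v ((X 0 0 - t * X 1 0) v) ≤ B * Q := by
    rw [coe_apply_sub, coe_apply_mul]
    exact Valuation.map_sub_le _ (hBQ 0 0) (htX 1 0)
  have hBt : ∀ x : v.adicCompletion K, Valued.v x ≤ B * Q → Valued.v (x * t v) ≤ Q := fun x hx => by
    rw [map_mul]
    calc Valued.v x * Valued.v (t v) ≤ B * Q * Valued.v (t v) := mul_le_mul' hx le_rfl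
      _ = Valued.v (t v) * B * Q := by ac_rfl
      _ ≤ Q := mul_le_of_le_one_left' (ht v)
  fin_cases i <;> fin_cases j
  · exact h00.trans (mul_le_of_le_one_left' hB)
  · show Valued.v (((X 0 0 - t * X 1 0) * t + (X 0 1 - t * X 1 1)) v) ≤ Q
    rw [coe_apply_add, coe_apply_mul]
    refine Valuation.map_add_le _ (hBt _ h00) ?_
    rw [coe_apply_sub, coe_apply_mul]
    exact Valuation.map_sub_le _ (hQ 0 1) ((htX 1 1).trans (mul_le_of_le_one_left' hB))
  · exact hQ 1 0
  · show Valued.v ((X 1 0 * t + X 1 1) v) ≤ Q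
    rw [coe_apply_add, coe_apply_mul]
    exact Valuation.map_add_le _ (hBt _ (hBQ 1 0)) (hQ 1 1)

/-- Congruences survive conjugation by the unipotent, up to `M²`. -/
theorem unipotent_conj_mem_principalLevel {m M N : 𝓞 K} {t : FiniteAdeleRing (𝓞 K) K}
    (ht : ∀ v : HeightOneSpectrum (𝓞 K), Valued.v (t v) * v.intValuation M ≤ 1)
    (hN : ∀ v : HeightOneSpectrum (𝓞 K),
      v.intValuation N ≤ v.intValuation M * v.intValuation M * v.intValuation m)
    {u : GfK K} (hu : u ∈ principalLevel K N) :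
    (unipotent t : GfK K)⁻¹ * u * unipotent t ∈ principalLevel K m := by
  have key : ∀ y : GfK K,
      MatMemMul N ((y : Matrix (Fin 2) (Fin 2) (FiniteAdeleRing (𝓞 K) K)) - 1) →
      MatMemMul m ((((unipotent t : GfK K)⁻¹ * y * unipotent t : GfK K) :
        Matrix (Fin 2) (Fin 2) (FiniteAdeleRing (𝓞 K) K)) - 1) := by
    intro y hy
    have h := matMemMul_unipotent_conj ht (X := (y : Matrix (Fin 2) (Fin 2)
      (FiniteAdeleRing (𝓞 K) K)) - 1) fun i j v => (hy i j v).trans (hN v)
    rw [Matrix.mul_sub, Matrix.sub_mul, Matrix.mul_one, ← Units.val_mul, ← Units.val_mul,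
      ← unipotent_inv_eq, ← Units.val_mul, inv_mul_cancel, Units.val_one] at h
    exact h
  refine ⟨key u hu.1, ?_⟩
  have e : ((unipotent t : GfK K)⁻¹ * u * unipotent t)⁻¹ =
      (unipotent t : GfK K)⁻¹ * u⁻¹ * unipotent t := by group
  rw [e]
  exact key u⁻¹ hu.2

/-- **One level for all test translates.** -/
theorem exists_level_fixing (E : EisData (𝓞 K)) {M : ℕ} (hM : M ≠ 0)
    {e : (FiniteAdeleRing (𝓞 K) K)ˣ} (he : ∀ v ∉ placesOf K M, (e : FiniteAdeleRing (𝓞 K) K) v = 1)
    {U : Subgroup (GfK K)} (hMU : principalLevel K (M : 𝓞 K) ≤ U) :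
    ∃ k : ℕ, ∀ j : ℕ, ∀ u ∈ principalLevel K ((3 * (M ^ (k + 1)) ^ 2 : ℕ) : 𝓞 K),
      (hTest E M e j)⁻¹ * u * hTest E M e j ∈ U := by
  have hd : (diag2 e 1 : GfK K) ∈ gfSupported (placesOf K M) := fun v hv => by
    apply GL.ext_fin_two
    ext a b
    rw [localGL_apply]
    fin_cases a <;> fin_cases b <;> simp [diag2, he v hv, coe_apply_one, coe_apply_zero]
  obtain ⟨m, hm, hconj⟩ := exists_conj_le_supported (finite_placesOf' hM) (inv_mem hd)
    (supportedIn_natCast (K := K) hM)
  obtain ⟨k, hk⟩ := exists_pow_intValuation_le (n₀ := (M : 𝓞 K)) (finite_placesOf' hM)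
    (fun v hv => (HeightOneSpectrum.intValuation_lt_one_iff_mem v _).2 hv) hm.1
  refine ⟨k, fun j u hu => hMU ?_⟩
  have hN : ∀ v : HeightOneSpectrum (𝓞 K),
      v.intValuation ((3 * (M ^ (k + 1)) ^ 2 : ℕ) : 𝓞 K) ≤
        v.intValuation (M : 𝓞 K) * v.intValuation (M : 𝓞 K) * v.intValuation m := by
    intro v
    by_cases hv : v ∈ placesOf K M
    · rw [show ((3 * (M ^ (k + 1)) ^ 2 : ℕ) : 𝓞 K) =
        (M : 𝓞 K) * (M : 𝓞 K) * ((M : 𝓞 K) ^ k * (3 * (M : 𝓞 K) ^ k)) by push_cast; ring,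
        map_mul, map_mul]
      refine mul_le_mul' le_rfl ?_
      rw [map_mul]
      exact (mul_le_of_le_one_right' (v.intValuation_le_one _)).trans (hk v hv)
    · rw [intValuation_eq_one_of_notMem_placesOf hv, hm.2 v hv, one_mul, one_mul]
      exact v.intValuation_le_one _
  have h := hconj _ (unipotent_conj_mem_principalLevel (valued_tAdele_mul_le E hM j) hN hu)
  rw [inv_inv] at h
  convert h using 1
  rw [hTest]
  group

end Fermat.Agent.LT.Asai
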