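import Fermat.Agent.LT.Orbit.Eisenstein
import Mathlib.NumberTheory.NumberField.Completion.FinitePlace
import Mathlib.RingTheory.Ideal.Norm.AbsNorm
import Mathlib.RingTheory.DedekindDomain.AdicValuation

/-!
# The places of `ℚ(√-3)` over the rational primes

`ordAt v n` is the order of the natural number `n` at the place `v`; there are two places of norm
`p` over `p ≡ 1 (mod 3)`, one of norm `p²` over `p ≡ 2 (mod 3)`, and one of order two over `3`.
-/

set_option autoImplicit false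

noncomputable section

namespace Fermat.Agent.LT.Asai

open IsDedekindDomain NumberField Ideal
open Orbit (EisData)

variable {K : Type*} [Field K] [NumberField K]

/-- The order of a natural number at a place. -/
def ordAt (v : HeightOneSpectrum (𝓞 K)) (n : ℕ) : ℕ :=
  (-WithZero.log (v.intValuation (n : 𝓞 K))).toNat

theorem intValuation_natCast (v : HeightOneSpectrum (𝓞 K)) {n : ℕ} (hn : n ≠ 0) :
    v.intValuation (n : 𝓞 K) = WithZero.exp (-(ordAt v n : ℤ)) := by
  have h0 : v.intValuation (n : 𝓞 K) ≠ 0 :=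
    v.intValuation_ne_zero _ (Nat.cast_ne_zero.2 hn)
  have h1 := v.intValuation_le_one (n : 𝓞 K)
  rw [← WithZero.exp_log h0, ← WithZero.exp_zero, WithZero.exp_le_exp] at h1
  conv_lhs => rw [← WithZero.exp_log h0]
  congr 1
  unfold ordAt
  omega

theorem ordAt_mul (v : HeightOneSpectrum (𝓞 K)) {m n : ℕ} (hm : m ≠ 0) (hn : n ≠ 0) :
    ordAt v (m * n) = ordAt v m + ordAt v n := by
  have h := intValuation_natCast v (mul_ne_zero hm hn)
  rw [Nat.cast_mul, map_mul, intValuation_natCast v hm, intValuation_natCast v hn,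
    ← WithZero.exp_add, WithZero.exp_inj] at h
  omega

theorem ordAt_one (v : HeightOneSpectrum (𝓞 K)) : ordAt v 1 = 0 := by
  simp [ordAt]

theorem ordAt_pow (v : HeightOneSpectrum (𝓞 K)) {p : ℕ} (hp : p ≠ 0) (k : ℕ) :
    ordAt v (p ^ k) = k * ordAt v p := by
  induction k with
  | zero => simp [ordAt_one]
  | succ k ih => rw [pow_succ, ordAt_mul v (pow_ne_zero _ hp) hp, ih, add_mul, one_mul]

theorem ordAt_eq_zero (v : HeightOneSpectrum (𝓞 K)) {n : ℕ} (h : (n : 𝓞 K) ∉ v.asIdeal) :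
    ordAt v n = 0 := by
  simp [ordAt, (v.intValuation_eq_one_iff).2 h]

theorem ordAt_eq_of_factor (v : HeightOneSpectrum (𝓞 K)) {n e : ℕ} {J : Ideal (𝓞 K)} (hn : n ≠ 0)
    (h : span {(n : 𝓞 K)} = v.asIdeal ^ e * J) (hJ : ¬ v.asIdeal ∣ J) : ordAt v n = e := by
  have h1 : v.intValuation (n : 𝓞 K) ≤ WithZero.exp (-(e : ℤ)) :=
    (v.intValuation_le_pow_iff_dvd _ _).2 (h ▸ dvd_mul_right _ _)
  have h2 : ¬ v.intValuation (n : 𝓞 K) ≤ WithZero.exp (-((e + 1 : ℕ) : ℤ)) := fun hc => by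
    have := (v.intValuation_le_pow_iff_dvd _ _).1 hc
    rw [h, pow_succ] at this
    exact hJ ((mul_dvd_mul_iff_left (pow_ne_zero _ v.ne_bot)).1 this)
  rw [intValuation_natCast v hn, WithZero.exp_le_exp] at h1 h2
  omega

/-- Finitely many places divide a nonzero natural number. -/
theorem finite_ordAt_ne_zero {n : ℕ} (hn : n ≠ 0) :
    {v : HeightOneSpectrum (𝓞 K) | ordAt v n ≠ 0}.Finite := by
  refine (Ideal.finite_factors (I := span {(n : 𝓞 K)}) (by simpa using hn)).subset fun v hv => ?_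
  show v.asIdeal ∣ span {(n : 𝓞 K)}
  rw [dvd_span_singleton]
  by_contra h
  exact hv (ordAt_eq_zero v h)

section Eis

variable (E : EisData (𝓞 K))

include E in
theorem absNorm_span_natCast (p : ℕ) : absNorm (span {(p : 𝓞 K)}) = p ^ 2 := by
  have hli : LinearIndependent ℤ ![(1 : 𝓞 K), E.w] := by
    rw [Fintype.linearIndependent_iff]
    intro g hg
    simp only [Fin.sum_univ_two, Matrix.cons_val_zero, Matrix.cons_val_one, zsmul_eq_mul,
      mul_one] at hg
    have := E.indep _ _ hg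
    intro i
    fin_cases i <;> simp [this]
  have hsp : ⊤ ≤ Submodule.span ℤ (Set.range ![(1 : 𝓞 K), E.w]) := fun x _ => by
    obtain ⟨a, b, rfl⟩ := E.repr x
    refine add_mem ?_ ?_
    · rw [show (a : 𝓞 K) = a • (1 : 𝓞 K) by simp]
      exact Submodule.smul_mem _ _ (Submodule.subset_span ⟨0, rfl⟩)
    · rw [← zsmul_eq_mul]
      exact Submodule.smul_mem _ _ (Submodule.subset_span ⟨1, rfl⟩)
  have hrk : Module.finrank ℤ (𝓞 K) = 2 :=
    Module.finrank_eq_card_basis (Module.Basis.mk hli hsp) |>.trans (Fintype.card_fin 2)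
  rw [absNorm_span_singleton, show (p : 𝓞 K) = algebraMap ℤ (𝓞 K) (p : ℤ) by simp,
    Algebra.norm_algebraMap, hrk]
  simp [Int.natAbs_pow]

omit [NumberField K] in
/-- The homomorphism `a + bω ↦ a + br`. -/
theorem exists_hom {R : Type*} [CommRing R] (r : R) (hr : r ^ 2 + r + 1 = 0) :
    ∃ f : 𝓞 K →+* R, f E.w = r := by
  choose ca cb hc using E.repr
  have key : ∀ a b : ℤ, (ca ((a : 𝓞 K) + b * E.w) : R) + cb ((a : 𝓞 K) + b * E.w) * r
      = a + b * r := fun a b => by
    obtain ⟨h1, h2⟩ := E.ext_coords (hc ((a : 𝓞 K) + b * E.w))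
    rw [← h1, ← h2]
  refine ⟨{ toFun := fun x => (ca x : R) + cb x * r
            map_one' := by simpa using key 1 0
            map_mul' := fun x y => ?_
            map_zero' := by simpa using key 0 0
            map_add' := fun x y => ?_ }, by simpa using key 0 1⟩
  · obtain ⟨a, b, rfl⟩ := E.repr x
    obtain ⟨a', b', rfl⟩ := E.repr y
    have e : ((a : 𝓞 K) + b * E.w) * (a' + b' * E.w) =
        ((a * a' - b * b' : ℤ) : 𝓞 K) + ((a * b' + b * a' - b * b' : ℤ) : 𝓞 K) * E.w := by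
      push_cast; linear_combination (b : 𝓞 K) * b' * E.w_eq
    show (ca _ : R) + cb _ * r = _
    rw [e, key, key, key]
    push_cast
    linear_combination -((b : R) * b') * hr
  · obtain ⟨a, b, rfl⟩ := E.repr x
    obtain ⟨a', b', rfl⟩ := E.repr y
    have e : ((a : 𝓞 K) + b * E.w) + (a' + b' * E.w) =
        ((a + a' : ℤ) : 𝓞 K) + ((b + b' : ℤ) : 𝓞 K) * E.w := by push_cast; ring
    show (ca _ : R) + cb _ * r = _
    rw [e, key, key, key]
    push_cast; ring

/-- A place whose residue field is `ℤ/p`. -/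
theorem exists_place_of_hom {p : ℕ} [hp : Fact p.Prime] (f : 𝓞 K →+* ZMod p) :
    ∃ v : HeightOneSpectrum (𝓞 K), v.asIdeal = RingHom.ker f ∧
      Ideal.absNorm v.asIdeal = p ∧ (p : 𝓞 K) ∈ v.asIdeal := by
  have hs : Function.Surjective f := ZMod.ringHom_surjective f
  have hmem : (p : 𝓞 K) ∈ RingHom.ker f := by simp
  have hne : RingHom.ker f ≠ ⊥ := fun h => by
    rw [h, Ideal.mem_bot, Nat.cast_eq_zero] at hmem
    exact hp.out.ne_zero hmem
  refine ⟨⟨RingHom.ker f, RingHom.ker_isPrime f, hne⟩, rfl, ?_, hmem⟩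
  show Ideal.absNorm (RingHom.ker f) = p
  rw [absNorm_apply, Submodule.cardQuot_apply,
    Nat.card_congr (RingHom.quotientKerEquivOfSurjective hs).toEquiv, Nat.card_zmod]

include E in
theorem absNorm_cases {p : ℕ} (hp : p.Prime) {u : HeightOneSpectrum (𝓞 K)}
    (hu : (p : 𝓞 K) ∈ u.asIdeal) :
    Ideal.absNorm u.asIdeal = p ∨
      Ideal.absNorm u.asIdeal = p ^ 2 ∧ u.asIdeal = span {(p : 𝓞 K)} := by
  have hd : Ideal.absNorm u.asIdeal ∣ p ^ 2 := absNorm_span_natCast E p ▸
    absNorm_dvd_absNorm_of_le ((span_singleton_le_iff_mem _).2 hu)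
  obtain ⟨i, hi, he⟩ := (Nat.dvd_prime_pow hp).1 hd
  interval_cases i
  · rw [pow_zero, absNorm_eq_one_iff] at he
    exact absurd he u.isPrime.ne_top
  · exact Or.inl (by rw [he, pow_one])
  · refine Or.inr ⟨he, ?_⟩
    obtain ⟨J, hJ⟩ := dvd_span_singleton.2 hu
    have h2 := congrArg Ideal.absNorm hJ
    rw [map_mul, absNorm_span_natCast E, he] at h2
    have : J = ⊤ := absNorm_eq_one_iff.1
      ((mul_eq_left₀ (pow_ne_zero _ hp.ne_zero)).1 h2.symm)
    rw [hJ, this, ← Ideal.one_eq_top, mul_one]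

/-- The splitting of a rational prime. -/
inductive Splitting (p : ℕ) : Prop
  | inert (v : HeightOneSpectrum (𝓞 K)) (h : p % 3 = 2)
      (mem_iff : ∀ u : HeightOneSpectrum (𝓞 K), (p : 𝓞 K) ∈ u.asIdeal ↔ u = v)
      (ord : ordAt v p = 1) (norm : Ideal.absNorm v.asIdeal = p ^ 2)
  | split (v v' : HeightOneSpectrum (𝓞 K)) (h : p % 3 = 1) (ne : v ≠ v')
      (mem_iff : ∀ u : HeightOneSpectrum (𝓞 K), (p : 𝓞 K) ∈ u.asIdeal ↔ u = v ∨ u = v')
      (ord : ordAt v p = 1) (ord' : ordAt v' p = 1)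
      (norm : Ideal.absNorm v.asIdeal = p) (norm' : Ideal.absNorm v'.asIdeal = p)
  | ramified (v : HeightOneSpectrum (𝓞 K)) (h : p = 3)
      (mem_iff : ∀ u : HeightOneSpectrum (𝓞 K), (p : 𝓞 K) ∈ u.asIdeal ↔ u = v)
      (ord : ordAt v p = 2) (norm : Ideal.absNorm v.asIdeal = p)

theorem eq_of_le {u v : HeightOneSpectrum (𝓞 K)} (h : v.asIdeal ≤ u.asIdeal) : u = v :=
  HeightOneSpectrum.ext ((v.isPrime.isMaximal v.ne_bot).eq_of_le u.isPrime.ne_top h).symm

theorem natCast_mem_self (p : ℕ) (v : HeightOneSpectrum (𝓞 K))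
    (h : v.asIdeal ∣ span {(p : 𝓞 K)}) : (p : 𝓞 K) ∈ v.asIdeal :=
  dvd_span_singleton.1 h

theorem exists_root_mod {p : ℕ} [hp : Fact p.Prime] (h : p % 3 = 1) :
    ∃ r : ZMod p, r ^ 2 + r + 1 = 0 ∧ r ≠ 1 := by
  have hd : 3 ∣ Fintype.card (ZMod p)ˣ := by
    rw [ZMod.card_units]; have := hp.out.two_le; omega
  obtain ⟨x, hx⟩ := exists_prime_orderOf_dvd_card 3 hd
  have hne : (x : ZMod p) ≠ 1 := fun e => by
    rw [Units.val_eq_one] at e
    subst e; simp at hx
  have h3 : (x : ZMod p) ^ 3 = 1 := by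
    rw [← Units.val_pow_eq_pow_val, ← hx, pow_orderOf_eq_one, Units.val_one]
  refine ⟨(x : ZMod p), (mul_eq_zero.1 (show ((x : ZMod p) - 1) * ((x : ZMod p) ^ 2 + x + 1) = 0 by
    linear_combination h3)).resolve_left (sub_ne_zero.2 hne), hne⟩

theorem no_root_mod {p : ℕ} [hp : Fact p.Prime] (h : p % 3 = 2) (r : ZMod p) :
    r ^ 2 + r + 1 ≠ 0 := fun hr => by
  have h3 : r ^ 3 = 1 := by linear_combination (r - 1) * hr
  have hr0 : r ≠ 0 := fun e => by simp [e] at hr
  have h4 : r ^ (p - 1) = 1 := ZMod.pow_card_sub_one_eq_one hr0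
  have h5 : r = 1 := by
    obtain ⟨k, hk⟩ : ∃ k, p - 1 = 3 * k + 1 := ⟨(p - 1) / 3, by omega⟩
    rw [hk, pow_succ, pow_mul, h3, one_pow, one_mul] at h4
    exact h4
  rw [h5] at hr
  have : ((3 : ℕ) : ZMod p) = 0 := by push_cast; linear_combination hr
  rw [ZMod.natCast_eq_zero_iff] at this
  have := Nat.le_of_dvd (by norm_num) this
  interval_cases p <;> simp_all

include E in
theorem splitting {p : ℕ} (hp : p.Prime) : Splitting (K := K) p := by
  have : Fact p.Prime := ⟨hp⟩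
  rcases (by
    rcases eq_or_ne p 3 with rfl | h3
    · exact Or.inr (Or.inr rfl)
    · have : p % 3 ≠ 0 := fun h0 =>
        h3 ((Nat.prime_dvd_prime_iff_eq Nat.prime_three hp).1 (Nat.dvd_of_mod_eq_zero h0)).symm
      rcases (by omega : p % 3 = 2 ∨ p % 3 = 1) with h | h
      exacts [Or.inl h, Or.inr (Or.inl h)] : p % 3 = 2 ∨ p % 3 = 1 ∨ p = 3) with h | h | h
  · -- inert
    have hns : ∀ u : HeightOneSpectrum (𝓞 K), (p : 𝓞 K) ∈ u.asIdeal →
        u.asIdeal = span {(p : 𝓞 K)} := fun u hu => by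
      refine ((absNorm_cases E hp hu).resolve_left fun hN => ?_).2
      have : Fact (Nat.card (𝓞 K ⧸ u.asIdeal)).Prime := ⟨by
        rw [← Submodule.cardQuot_apply, ← absNorm_apply, hN]; exact hp⟩
      have hcard : Nat.card (𝓞 K ⧸ u.asIdeal) = p := by
        rw [← Submodule.cardQuot_apply, ← absNorm_apply, hN]
      have : Fintype (𝓞 K ⧸ u.asIdeal) :=
        @Fintype.ofFinite _ (Nat.finite_of_card_ne_zero (hcard ▸ hp.ne_zero))
      have e := (ZMod.ringEquivOfPrime _ hp ((Nat.card_eq_fintype_card).symm.trans hcard)).symm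
      refine no_root_mod h (e (Ideal.Quotient.mk _ E.w)) ?_
      rw [← map_pow, ← map_pow, ← map_add, ← map_add, ← map_one e, ← map_add,
        ← map_one (Ideal.Quotient.mk u.asIdeal), ← map_add, E.w_eq, map_zero, map_zero]
    obtain ⟨P, hP, hle⟩ := exists_le_maximal (span {(p : 𝓞 K)}) fun htop => by
      have := congrArg Ideal.absNorm htop
      rw [absNorm_span_natCast E, absNorm_top] at this
      exact hp.ne_one (by simpa using this)
    have hpP : (p : 𝓞 K) ∈ P := hle (mem_span_singleton_self _)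
    set v : HeightOneSpectrum (𝓞 K) := ⟨P, hP.isPrime, fun e => by
      rw [e, mem_bot, Nat.cast_eq_zero] at hpP; exact hp.ne_zero hpP⟩
    have hv : v.asIdeal = span {(p : 𝓞 K)} := hns v hpP
    refine .inert v h (fun u => ⟨fun hu => HeightOneSpectrum.ext (by rw [hns u hu, hv]),
      fun e => e ▸ hpP⟩) ?_ (by rw [hv, absNorm_span_natCast E])
    refine ordAt_eq_of_factor v hp.ne_zero (J := 1) (by rw [pow_one, mul_one, hv]) ?_
    exact fun hd => v.isPrime.ne_top (Ideal.isUnit_iff.1 (isUnit_of_dvd_one hd))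
  · -- split
    obtain ⟨r, hr, hr1⟩ := exists_root_mod h
    obtain ⟨f, hf⟩ := exists_hom E r hr
    obtain ⟨f', hf'⟩ := exists_hom E (-1 - r) (by linear_combination hr)
    obtain ⟨v, hv, hvN, hvp⟩ := exists_place_of_hom f
    obtain ⟨v', hv', hvN', hvp'⟩ := exists_place_of_hom f'
    obtain ⟨n, hn⟩ := ZMod.intCast_surjective r
    have hx : E.w - (n : 𝓞 K) ∈ v.asIdeal := by
      rw [hv, RingHom.mem_ker, map_sub, hf, map_intCast, hn, sub_self]
    have hne : v ≠ v' := fun e => by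
      rw [e, hv', RingHom.mem_ker, map_sub, hf', map_intCast, hn] at hx
      have h3 : ((3 : ℕ) : ZMod p) = 0 := by
        push_cast
        linear_combination (4 : ZMod p) * hr + (1 + 2 * r) * hx
      rw [ZMod.natCast_eq_zero_iff] at h3
      have := (Nat.prime_dvd_prime_iff_eq hp Nat.prime_three).1 h3
      omega
    have hvd : ¬ v.asIdeal ∣ v'.asIdeal := fun hd => hne (eq_of_le (Ideal.le_of_dvd hd))
    have hvd' : ¬ v'.asIdeal ∣ v.asIdeal := fun hd => hne (eq_of_le (Ideal.le_of_dvd hd)).symm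
    obtain ⟨J, hJ⟩ : v.asIdeal * v'.asIdeal ∣ span {(p : 𝓞 K)} := by
      obtain ⟨J, hJ⟩ := dvd_span_singleton.2 hvp
      have : v'.asIdeal ∣ v.asIdeal * J := hJ ▸ dvd_span_singleton.2 hvp'
      obtain ⟨J', rfl⟩ := ((v'.prime.dvd_or_dvd this).resolve_left hvd')
      exact ⟨J', by rw [hJ, mul_assoc]⟩
    have hfac : span {(p : 𝓞 K)} = v.asIdeal * v'.asIdeal := by
      have h2 := congrArg Ideal.absNorm hJ
      rw [map_mul, map_mul, absNorm_span_natCast E, hvN, hvN', sq] at h2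
      have hJ1 : J = ⊤ := absNorm_eq_one_iff.1
        ((mul_eq_left₀ (mul_ne_zero hp.ne_zero hp.ne_zero)).1 h2.symm)
      rw [hJ, hJ1, ← Ideal.one_eq_top, mul_one]
    refine .split v v' h hne (fun u => ⟨fun hu => ?_, fun e => ?_⟩)
      (ordAt_eq_of_factor v hp.ne_zero (by rw [pow_one, hfac]) hvd)
      (ordAt_eq_of_factor v' hp.ne_zero (by rw [pow_one, hfac, mul_comm]) hvd') hvN hvN'
    · rw [← span_singleton_le_iff_mem, hfac] at hu
      rcases u.isPrime.mul_le.1 hu with hle | hle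
      exacts [Or.inl (eq_of_le hle), Or.inr (eq_of_le hle)]
    · rcases e with rfl | rfl
      exacts [hvp, hvp']
  · -- ramified
    subst h
    obtain ⟨f, hf⟩ := exists_hom E (1 : ZMod 3) (by rfl)
    obtain ⟨v, hv, hvN, hvp⟩ := exists_place_of_hom f
    have hs : E.s ∈ v.asIdeal := by
      rw [hv, RingHom.mem_ker, EisData.s, map_add, map_mul, map_one, map_ofNat, hf]; rfl
    have h3 : ((3 : ℕ) : 𝓞 K) = -(E.s * E.s) := by rw [E.s_sq]; simp
    have hsn : Ideal.absNorm (span {E.s}) = 3 := by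
      have h2 := congrArg Ideal.absNorm (span_singleton_mul_span_singleton E.s E.s)
      rw [map_mul, ← span_singleton_neg (E.s * E.s), ← h3, absNorm_span_natCast E] at h2
      nlinarith
    have hvs : v.asIdeal = span {E.s} := by
      obtain ⟨J, hJ⟩ := dvd_span_singleton.2 hs
      have h2 := congrArg Ideal.absNorm hJ
      rw [map_mul, hsn, hvN] at h2
      rw [hJ, absNorm_eq_one_iff.1 (show Ideal.absNorm J = 1 by omega), ← Ideal.one_eq_top, mul_one]
    refine .ramified v rfl (fun u => ⟨fun hu => ?_, fun e => e ▸ hvp⟩) ?_ hvN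
    · refine eq_of_le ?_
      rw [hvs, span_singleton_le_iff_mem]
      rw [h3, neg_mem_iff] at hu
      exact (u.isPrime.mem_or_mem hu).elim id id
    · refine ordAt_eq_of_factor v hp.ne_zero (J := 1) ?_
        (fun hd => v.isPrime.ne_top (Ideal.isUnit_iff.1 (isUnit_of_dvd_one hd)))
      rw [mul_one, pow_two, hvs, span_singleton_mul_span_singleton, h3, span_singleton_neg]

end Eis

end Fermat.Agent.LT.Asai
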