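import Fermat.Agent.LT.Asai.Period
import Fermat.Agent.LT.Asai.LocalThree
import Fermat.Agent.LT.Asai.Galois
import Fermat.Agent.LT.Lift.EigenAtThree
import Fermat.Agent.LT.Lift.ThetaLift

/-!
# The period theorem
-/

set_option autoImplicit false

noncomputable section

namespace Fermat.Agent.LT.Asai

open IsDedekindDomain NumberField Fermat.Agent.Galois
open Fermat.Agent.LT.Adelic
open Orbit (EisData)

section

variable {K : Type*} [Field K] [NumberField K] {M : ℕ}

omit [NumberField K] in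
theorem primeTo_of_three_mul {v : HeightOneSpectrum (𝓞 K)} (h : PrimeTo (3 * M) v) : PrimeTo M v :=
  fun hM => h (by rw [Nat.cast_mul]; exact v.asIdeal.mul_mem_left _ hM)

omit [NumberField K] in
theorem primeTo_three_mul (h3 : 3 ∣ M) {v : HeightOneSpectrum (𝓞 K)} (h : PrimeTo M v) :
    PrimeTo (3 * M) v := fun hm => by
  rw [Nat.cast_mul] at hm
  rcases v.isPrime.mem_or_mem hm with h' | h'
  · obtain ⟨c, rfl⟩ := h3
    exact h (by rw [Nat.cast_mul]; exact v.asIdeal.mul_mem_right _ h')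
  · exact h h'

theorem absNorm_eq_three (E : EisData (𝓞 K)) {v : HeightOneSpectrum (𝓞 K)}
    (hv : (3 : 𝓞 K) ∈ v.asIdeal) : Ideal.absNorm v.asIdeal = 3 := by
  cases splitting E Nat.prime_three (K := K) with
  | inert v h => norm_num at h
  | split v v' h => norm_num at h
  | ramified w h hm ho hN => rw [(hm v).1 (by simpa using hv)]; exact hN

end

/-- **The period theorem.** -/
theorem stmtPeriod : Lift.StmtPeriod := by
  intro W ρ hρ Φ M U φ a X hM hMU hU1 hφ heigen hX hpin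
  obtain ⟨E, -⟩ := Lift.exists_eisData_fieldF ((Φ.emb ()).comp (algebraMap (𝓞 fieldF) fieldF))
  have ha : ∀ v, PrimeTo (3 * M) v → ‖a v‖ ≤ 2 ∧ (a v).im = 0 := fun v hv => (heigen v hv).2
  suffices hkey : ∃ (ψ : Space Φ U → ℂ) (a' : HeightOneSpectrum (𝓞 fieldF) → ℂ),
      IsCuspEigen ψ ∧ (∀ v, PrimeTo (3 * M) v → IsHeckeEigenAt ψ v (a v)) ∧
      (∀ v, PrimeTo M v → IsHeckeEigenAt ψ v (a' v)) ∧
      (∀ s : ℝ, 1 < s → Summable fun m : ℕ => ‖asaiCoeff M a' m‖ * (m : ℝ) ^ (-s)) ∧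
      ∃ c : ℝ, 0 < c ∧ ∀ s : ℝ, 1 < s → s ≤ 3 / 2 →
        c / (s - 1) ≤ ‖dirSum (asaiCoeff M a') s‖ by
    obtain ⟨ψ, a', hψ, he, he', hsum, hlow⟩ := hkey
    obtain ⟨k, h, hloc, hfix, hne⟩ :=
      exists_period_ne_zero hM hMU hU1 hψ he' E hsum hlow
    exact ⟨ψ, M ^ (k + 1), ⟨pow_ne_zero _ hM⟩, h, hψ, he, dvd_pow_self M k.succ_ne_zero,
      fun p hp hpd => hp.dvd_of_dvd_pow hpd, hloc, hfix, hne⟩
  by_cases h3 : 3 ∣ M
  · have ha' : ∀ v, PrimeTo M v → ‖a v‖ ≤ 2 ∧ (a v).im = 0 := fun v hv =>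
      ha v (primeTo_three_mul h3 hv)
    have hlog := exists_log_bound hρ E hM ha' hX fun v hv => hpin v (primeTo_three_mul h3 hv)
    refine ⟨φ, a, hφ, fun v hv => (heigen v hv).1,
      fun v hv => (heigen v (primeTo_three_mul h3 hv)).1, fun s hs => ?_,
      exists_lower_bound_asai E ha' hlog⟩
    refine (summable_norm_dirichlet asaiCoeff_zero asaiCoeff_one asaiCoeff_mul
      (fun p hp k => (norm_asaiCoeff_primePow_le E ha' hp k).trans
        (le_mul_of_one_le_left (by positivity) (by norm_num))) hs).congr fun n => ?_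
    rw [norm_mul, Complex.norm_real, Real.norm_of_nonneg (Real.rpow_nonneg (Nat.cast_nonneg _) _)]
  · obtain ⟨ψ, v, a', hv, hψ, -, he, he'⟩ :=
      Lift.exists_eigen_at_three E hM h3 hMU hU1 hφ fun w hw => (heigen w hw).1
    have ha' : ∀ w, PrimeTo (3 * M) w → ‖a' w‖ ≤ 2 ∧ (a' w).im = 0 := fun w hw => by
      rw [(he w hw).1]; exact ha w hw
    have hlog := exists_log_bound hρ E (mul_ne_zero three_ne_zero hM) ha' hX
      fun w hw σ hσ hor => by rw [(he w hw).1]; exact hpin w hw σ hσ hor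
    have hvM : PrimeTo M v := fun h =>
      not_mem_of_coprime (Nat.prime_three.coprime_iff_not_dvd.2 h3) v (by simpa using hv) h
    have hb : IsThreeBounded (heckeSeq (a' v)) := by
      obtain ⟨C, hC⟩ := exists_heckeSeq_bound hM hMU hU1 hψ he' v hvM
      exact ⟨C, fun n => by
        have := hC n
        rwa [absNorm_eq_three E hv, Nat.cast_ofNat] at this⟩
    obtain ⟨hsum, hlow⟩ := exists_lower_bound_asai_three E hM h3 hv ha' hb hlog
    exact ⟨ψ, a', hψ, fun w hw => (he w hw).2, he', hsum, hlow⟩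

/-- C3: the theta lift to weight one. -/
theorem stmtThetaLift : StmtThetaLift := Lift.stmtThetaLift_of_period stmtPeriod

end Fermat.Agent.LT.Asai
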