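import Mathlib.NumberTheory.EulerProduct.Basic
import Mathlib.NumberTheory.SumPrimeReciprocals
import Mathlib.Analysis.SpecialFunctions.Log.Basic
import Mathlib.Analysis.SpecificLimits.Normed

/-!
# A lower bound for a Dirichlet series with an Euler product near `s = 1`

If `A` is multiplicative, `A (p ^ k) = O(k²)`, the finitely many small Euler factors do not vanish
and `∑ Re A(p) p ^ (-s) ≥ log (1 / (s - 1)) - C`, then the series is at least `c / (s - 1)`.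
-/

set_option autoImplicit false

noncomputable section

namespace Fermat.Agent.LT.Asai

open Real Filter Topology Finset

/-- The local factor at `p`. -/
def localFactor (A : ℕ → ℂ) (p : ℕ) (s : ℝ) : ℂ :=
  ∑' k : ℕ, A (p ^ k) * ((((p ^ k : ℕ) : ℝ) ^ (-s) : ℝ) : ℂ)

/-- The Dirichlet series at real `s`. -/
def dirSum (A : ℕ → ℂ) (s : ℝ) : ℂ := ∑' n : ℕ, A n * ((((n : ℕ) : ℝ) ^ (-s) : ℝ) : ℂ)

theorem log_norm_one_add_ge {z : ℂ} (hz : ‖z‖ ≤ 9 / 10) :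
    z.re - 500 * ‖z‖ ^ 2 ≤ log ‖1 + z‖ := by
  set w := 2 * z.re + ‖z‖ ^ 2 with hw
  have hre := abs_le.mp (Complex.abs_re_le_norm z)
  have h0 : 0 ≤ ‖z‖ := norm_nonneg z
  have hsq : ‖1 + z‖ ^ 2 = 1 + w := by
    rw [hw, ← Complex.normSq_eq_norm_sq, ← Complex.normSq_eq_norm_sq, Complex.normSq_apply,
      Complex.normSq_apply]
    simp
    ring
  have hlow : (1 : ℝ) / 100 ≤ 1 + w := by
    rw [← hsq]
    have : 1 / 10 ≤ ‖1 + z‖ := by
      have := norm_sub_norm_le (1 : ℂ) (-z)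
      simp only [norm_one, norm_neg, sub_neg_eq_add] at this
      linarith
    nlinarith
  have hlog : log (1 + w) = 2 * log ‖1 + z‖ := by
    rw [← hsq, log_pow]
    norm_num
  have h1 := one_sub_inv_le_log_of_pos (show 0 < 1 + w by linarith)
  have hinv : 1 - (1 + w)⁻¹ = w - w ^ 2 * (1 + w)⁻¹ := by
    field_simp
    ring
  have hb : (1 + w)⁻¹ ≤ 100 := by
    rw [inv_le_iff_one_le_mul₀ (by linarith)]
    linarith
  have hw2 : w ^ 2 ≤ 9 * ‖z‖ ^ 2 := by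
    have h1 : |w| ≤ 3 * ‖z‖ := by
      rw [abs_le, hw]
      constructor <;> nlinarith
    nlinarith [abs_nonneg w, sq_abs w]
  nlinarith [mul_le_mul hw2 hb (by positivity) (by positivity)]

theorem summable_sq_half : Summable fun k : ℕ => 4 * ((k : ℝ) + 2) ^ 2 * (1 / 2) ^ k := by
  have h : ∀ j : ℕ, Summable fun k : ℕ => (k : ℝ) ^ j * (1 / 2 : ℝ) ^ k := fun j =>
    summable_pow_mul_geometric_of_norm_lt_one j (by norm_num)
  refine ((((h 2).mul_left 4).add ((h 1).mul_left 16)).add ((h 0).mul_left 16)).congr fun k => ?_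
  ring

variable {A : ℕ → ℂ}

theorem primePow_rpow (p k : ℕ) (s : ℝ) :
    (((p ^ k : ℕ) : ℝ) ^ (-s)) = ((p : ℝ) ^ (-s)) ^ k := by
  rw [Nat.cast_pow, ← rpow_natCast, ← rpow_mul (Nat.cast_nonneg _), ← rpow_natCast,
    ← rpow_mul (Nat.cast_nonneg _), mul_comm]

theorem prime_rpow_le_inv {p : ℕ} (hp : p.Prime) {s : ℝ} (hs : 1 < s) :
    0 ≤ (p : ℝ) ^ (-s) ∧ (p : ℝ) ^ (-s) ≤ (p : ℝ)⁻¹ ∧ (p : ℝ) ^ (-s) ≤ 1 / 2 := by
  have hp1 : (2 : ℝ) ≤ p := by exact_mod_cast hp.two_le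
  have h : (p : ℝ) ^ (-s) ≤ (p : ℝ)⁻¹ := by
    rw [← rpow_neg_one]
    exact rpow_le_rpow_of_exponent_le (by linarith) (by linarith)
  refine ⟨rpow_nonneg (by linarith) _, h, h.trans ?_⟩
  rw [one_div]
  exact inv_anti₀ two_pos hp1

theorem primePow_bound (hb : ∀ p : ℕ, p.Prime → ∀ k : ℕ, ‖A (p ^ k)‖ ≤ 4 * ((k : ℝ) + 1) ^ 2)
    (hA1 : A 1 = 1) {p : ℕ} (hp : p.Prime) {s : ℝ} (hs : 1 < s) :
    Summable (fun k : ℕ => ‖A (p ^ k)‖ * ((p ^ k : ℕ) : ℝ) ^ (-s)) ∧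
      ∑' k : ℕ, ‖A (p ^ k)‖ * ((p ^ k : ℕ) : ℝ) ^ (-s) ≤
        1 + (∑' k : ℕ, 4 * ((k : ℝ) + 2) ^ 2 * (1 / 2) ^ k) * (p : ℝ) ^ (-s) := by
  set X := (p : ℝ) ^ (-s)
  obtain ⟨h0, -, h2⟩ := prime_rpow_le_inv hp hs
  simp only [primePow_rpow]
  have hle : ∀ k : ℕ, ‖A (p ^ (k + 1))‖ * X ^ (k + 1) ≤
      4 * ((k : ℝ) + 2) ^ 2 * (1 / 2) ^ k * X := by
    intro k
    have h3 : X ^ (k + 1) ≤ (1 / 2) ^ k * X := by
      rw [pow_succ]
      gcongr
    refine (mul_le_mul (hb p hp (k + 1)) h3 (pow_nonneg h0 _) (by positivity)).trans (le_of_eq ?_)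
    push_cast
    ring
  have hs1 : Summable fun k : ℕ => ‖A (p ^ (k + 1))‖ * X ^ (k + 1) :=
    Summable.of_nonneg_of_le (fun k => mul_nonneg (norm_nonneg _) (pow_nonneg h0 _)) hle
      (summable_sq_half.mul_right X)
  have hsum : Summable fun k : ℕ => ‖A (p ^ k)‖ * X ^ k := (summable_nat_add_iff 1).mp hs1
  refine ⟨hsum, ?_⟩
  rw [hsum.tsum_eq_zero_add, ← tsum_mul_right]
  simp only [pow_zero, hA1, norm_one, mul_one]
  exact add_le_add le_rfl (hs1.tsum_le_tsum hle (summable_sq_half.mul_right X))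

theorem summable_norm_dirichlet (hA0 : A 0 = 0) (hA1 : A 1 = 1)
    (hmul : ∀ m n, Nat.Coprime m n → A (m * n) = A m * A n)
    (hb : ∀ p : ℕ, p.Prime → ∀ k : ℕ, ‖A (p ^ k)‖ ≤ 4 * ((k : ℝ) + 1) ^ 2) {s : ℝ} (hs : 1 < s) :
    Summable fun n : ℕ => ‖A n * (((n : ℝ) ^ (-s) : ℝ) : ℂ)‖ := by
  classical
  set f : ℕ → ℝ := fun n => ‖A n‖ * (n : ℝ) ^ (-s)
  have hf : ∀ n, ‖A n * (((n : ℝ) ^ (-s) : ℝ) : ℂ)‖ = f n := fun n => by
    rw [norm_mul, Complex.norm_real, norm_of_nonneg (rpow_nonneg (Nat.cast_nonneg _) _)]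
  simp only [hf]
  have hf0 : ∀ n, 0 ≤ f n := fun n => mul_nonneg (norm_nonneg _) (rpow_nonneg (Nat.cast_nonneg _) _)
  have hf1 : f 1 = 1 := by simp [f, hA1]
  have hfmul : ∀ {m n : ℕ}, m.Coprime n → f (m * n) = f m * f n := fun {m n} h => by
    simp only [f, hmul m n h, norm_mul, Nat.cast_mul,
      mul_rpow (Nat.cast_nonneg m) (Nat.cast_nonneg n)]
    ring
  set C := ∑' k : ℕ, 4 * ((k : ℝ) + 2) ^ 2 * (1 / 2) ^ k
  have hC : 0 ≤ C := tsum_nonneg fun k => by positivity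
  have hP : Summable fun p : Nat.Primes => ((p : ℕ) : ℝ) ^ (-s) :=
    Nat.Primes.summable_rpow.mpr (by linarith)
  refine summable_of_sum_le hf0 (c := exp (C * ∑' p : Nat.Primes, ((p : ℕ) : ℝ) ^ (-s))) fun T => ?_
  set N := T.sup id + 1
  obtain ⟨hsF, hsumF⟩ := EulerProduct.summable_and_hasSum_factoredNumbers_prod_filter_prime_tsum
    (f := f) hf1 hfmul (fun {p} hp => by
      simpa only [f, Real.norm_of_nonneg (hf0 _)] using (primePow_bound hb hA1 hp hs).1)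
    (Finset.range N)
  have h1 : ∑ n ∈ T, f n ≤ ∏ p ∈ Finset.range N with p.Prime, ∑' k, f (p ^ k) := by
    rw [← Finset.sum_filter_ne_zero (s := T)]
    have hmem : ∀ n ∈ T.filter (fun n => f n ≠ 0), n ∈ Nat.factoredNumbers (Finset.range N) := by
      intro n hn
      obtain ⟨hnT, hn0⟩ := Finset.mem_filter.mp hn
      have hne : n ≠ 0 := fun h => hn0 (by simp [f, h, hA0])
      refine ⟨hne, fun q hq => Finset.mem_range.mpr ?_⟩
      have : q ≤ n := Nat.le_of_dvd (Nat.pos_of_ne_zero hne) (Nat.dvd_of_mem_primeFactorsList hq)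
      exact Nat.lt_succ_of_le (this.trans (Finset.le_sup (f := id) hnT))
    rw [← Finset.sum_subtype_of_mem f hmem]
    exact sum_le_hasSum _ (fun m _ => hf0 m) hsumF
  refine h1.trans ?_
  refine le_trans (Finset.prod_le_prod (g := fun p : ℕ => exp (C * (p : ℝ) ^ (-s)))
    (fun p _ => tsum_nonneg fun k => hf0 (p ^ k)) fun p hp => ?_) ?_
  · refine ((primePow_bound hb hA1 (Finset.mem_filter.mp hp).2 hs).2).trans ?_
    linarith [add_one_le_exp (C * (p : ℝ) ^ (-s))]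
  · rw [← exp_sum, exp_le_exp, ← Finset.mul_sum]
    gcongr
    calc ∑ p ∈ (Finset.range N).filter Nat.Prime, (p : ℝ) ^ (-s)
        = ∑ p ∈ (Finset.range N).subtype Nat.Prime, ((p : ℕ) : ℝ) ^ (-s) :=
          (Finset.sum_subtype_eq_sum_filter _).symm
      _ ≤ _ := by
          exact Summable.sum_le_tsum (f := fun p : Nat.Primes => ((p : ℕ) : ℝ) ^ (-s)) _
            (fun p _ => rpow_nonneg (Nat.cast_nonneg _) _) hP

theorem factor_ge (hA1 : A 1 = 1)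
    (hb : ∀ p : ℕ, p.Prime → ∀ k : ℕ, ‖A (p ^ k)‖ ≤ 4 * ((k : ℝ) + 1) ^ 2)
    (hb' : ∀ p : ℕ, p.Prime → 7 ≤ p → ∀ k : ℕ, ‖A (p ^ k)‖ ≤ ((k : ℝ) + 1) ^ 2)
    {p : ℕ} (hp : p.Prime) (h7 : 7 ≤ p) {s : ℝ} (hs : 1 < s) :
    exp ((A p).re * (p : ℝ) ^ (-s) - 25000 * ((p : ℝ) ^ (-2 : ℝ))) ≤ ‖localFactor A p s‖ := by
  set X := (p : ℝ) ^ (-s) with hX
  obtain ⟨h0, hinv, -⟩ := prime_rpow_le_inv hp hs
  have hp7 : (7 : ℝ) ≤ p := by exact_mod_cast h7
  have hX7 : X ≤ 1 / 7 := hinv.trans (by rw [one_div]; exact inv_anti₀ (by norm_num) hp7)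
  set f : ℕ → ℂ := fun k => A (p ^ k) * ((X ^ k : ℝ) : ℂ)
  have hfac : localFactor A p s = ∑' k, f k := by simp only [localFactor, primePow_rpow, f, hX]
  have hn : ∀ k, ‖f k‖ = ‖A (p ^ k)‖ * X ^ k := fun k => by
    rw [norm_mul, Complex.norm_real, norm_of_nonneg (pow_nonneg h0 _)]
  have hsum : Summable f := Summable.of_norm <| by
    simp only [hn]
    simpa only [primePow_rpow] using (primePow_bound hb hA1 hp hs).1
  have htail : ‖∑' k : ℕ, f (k + 2)‖ ≤ 16 * X ^ 2 := by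
    have hgeo := (hasSum_geometric_of_lt_one (show 0 ≤ 3 * X by linarith)
      (show 3 * X < 1 by linarith)).mul_left (9 * X ^ 2)
    refine (tsum_of_norm_bounded hgeo fun k => ?_).trans ?_
    · rw [hn]
      have h3 : ((k : ℝ) + 3) ^ 2 ≤ 9 * 3 ^ k := by
        induction k with
        | zero => norm_num
        | succ m ih =>
          push_cast
          rw [pow_succ (3 : ℝ)]
          nlinarith [show (0 : ℝ) ≤ m from Nat.cast_nonneg m]
      calc ‖A (p ^ (k + 2))‖ * X ^ (k + 2) ≤ (((k + 2 : ℕ) : ℝ) + 1) ^ 2 * X ^ (k + 2) := by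
            gcongr; exact hb' p hp h7 _
        _ = ((k : ℝ) + 3) ^ 2 * (X ^ 2 * X ^ k) := by push_cast; ring
        _ ≤ 9 * 3 ^ k * (X ^ 2 * X ^ k) := by gcongr
        _ = _ := by rw [mul_pow]; ring
    · have : (1 - 3 * X)⁻¹ ≤ 7 / 4 := by
        rw [inv_le_iff_one_le_mul₀ (by linarith)]
        linarith
      nlinarith [sq_nonneg X]
  set z := f 1 + ∑' k : ℕ, f (k + 2) with hz
  have hfz : localFactor A p s = 1 + z := by
    rw [hfac, ← hsum.sum_add_tsum_nat_add 2, hz, Finset.sum_range_succ, Finset.sum_range_one]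
    simp [f, hA1, add_assoc]
  have hA : ‖A p‖ ≤ 4 := by
    simpa using (hb' p hp h7 1).trans (le_of_eq (by norm_num))
  have hf1 : ‖f 1‖ ≤ 4 * X := by
    rw [hn, pow_one, pow_one]
    gcongr
  have hz1 : ‖z‖ ≤ 7 * X := (norm_add_le _ _).trans (by nlinarith)
  have hz9 : ‖z‖ ≤ 9 / 10 := by
    refine (norm_add_le _ _).trans ?_
    nlinarith
  have hre : (A p).re * X - 16 * X ^ 2 ≤ z.re := by
    rw [hz, Complex.add_re]
    have h1 : (f 1).re = (A p).re * X := by simp [f]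
    linarith [abs_le.mp ((Complex.abs_re_le_norm (∑' k : ℕ, f (k + 2))).trans htail)]
  have hX2 : X ^ 2 ≤ (p : ℝ) ^ (-2 : ℝ) := by
    rw [rpow_neg (Nat.cast_nonneg _), rpow_two, ← inv_pow]
    exact pow_le_pow_left₀ h0 hinv 2
  have hpos : 0 < ‖1 + z‖ := by
    have := norm_sub_norm_le (1 : ℂ) (-z)
    simp only [norm_one, norm_neg, sub_neg_eq_add] at this
    linarith
  rw [hfz, ← exp_log hpos, exp_le_exp]
  have := log_norm_one_add_ge hz9
  nlinarith [mul_le_mul hz1 hz1 (norm_nonneg z) (by positivity)]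

/-- The lower bound. -/
theorem exists_lower_bound_dirichlet (hA0 : A 0 = 0) (hA1 : A 1 = 1)
    (hmul : ∀ m n, Nat.Coprime m n → A (m * n) = A m * A n)
    (hb : ∀ p : ℕ, p.Prime → ∀ k : ℕ, ‖A (p ^ k)‖ ≤ 4 * ((k : ℝ) + 1) ^ 2)
    (hb' : ∀ p : ℕ, p.Prime → 7 ≤ p → ∀ k : ℕ, ‖A (p ^ k)‖ ≤ ((k : ℝ) + 1) ^ 2)
    (hsmall : ∀ p : ℕ, p.Prime → p < 7 →
      ∃ δ : ℝ, 0 < δ ∧ ∀ s : ℝ, 1 < s → s ≤ 3 / 2 → δ ≤ ‖localFactor A p s‖)
    (hlog : ∃ C : ℝ, ∀ s : ℝ, 1 < s → s ≤ 3 / 2 →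
      Summable (fun p : Nat.Primes => (A p).re * ((p : ℕ) : ℝ) ^ (-s)) ∧
      log (1 / (s - 1)) - C ≤ ∑' p : Nat.Primes, (A p).re * ((p : ℕ) : ℝ) ^ (-s)) :
    ∃ c : ℝ, 0 < c ∧ ∀ s : ℝ, 1 < s → s ≤ 3 / 2 → c / (s - 1) ≤ ‖dirSum A s‖ := by
  classical
  obtain ⟨C, hC⟩ := hlog
  choose! δ hδ0 hδ using hsmall
  let S : Finset Nat.Primes := (Finset.range 7).subtype Nat.Prime
  have hmemS : ∀ p : Nat.Primes, p ∈ S ↔ (p : ℕ) < 7 := fun p =>
    Finset.mem_subtype.trans Finset.mem_range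
  have hsq : Summable fun p : Nat.Primes => ((p : ℕ) : ℝ) ^ (-2 : ℝ) :=
    Nat.Primes.summable_rpow.mpr (by norm_num)
  set Q := ∑' p : Nat.Primes, ((p : ℕ) : ℝ) ^ (-2 : ℝ)
  set P := ∏ p ∈ S, δ p
  have hP : 0 < P := Finset.prod_pos fun p hp => hδ0 p p.2 ((hmemS p).mp hp)
  refine ⟨P * exp (-(C + 32 + 25000 * Q)), by positivity, fun s hs hs2 => ?_⟩
  obtain ⟨hRs, hlow⟩ := hC s hs hs2
  set R : Nat.Primes → ℝ := fun p => (A p).re * ((p : ℕ) : ℝ) ^ (-s)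
  have hnorm := summable_norm_dirichlet hA0 hA1 hmul hb hs
  set f : ℕ → ℂ := fun n => A n * (((n : ℝ) ^ (-s) : ℝ) : ℂ)
  have hprod := EulerProduct.eulerProduct_hasProd (f := f) (by simp [f, hA1])
    (fun {m n} h => by
      simp only [f, hmul m n h, Nat.cast_mul,
        mul_rpow (Nat.cast_nonneg m) (Nat.cast_nonneg n), Complex.ofReal_mul]
      ring)
    hnorm (by simp [f, hA0])
  have hlim : Tendsto (fun T : Finset Nat.Primes => ‖∏ p ∈ T, localFactor A p s‖) atTop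
      (𝓝 ‖dirSum A s‖) := hprod.norm
  have hlim' : Tendsto (fun T : Finset Nat.Primes =>
      P * exp ((∑ p ∈ T, R p) - (∑ p ∈ S, R p) - 25000 * Q)) atTop
      (𝓝 (P * exp ((∑' p, R p) - (∑ p ∈ S, R p) - 25000 * Q))) :=
    (((hRs.hasSum.sub_const _).sub_const _).rexp).const_mul _
  refine le_trans ?_ (le_of_tendsto_of_tendsto hlim' hlim ?_)
  · rw [mul_div_assoc]
    gcongr
    have hS : ∑ p ∈ S, R p ≤ 32 := by
      have hterm : ∀ p ∈ S, R p ≤ 8 := fun p _ => by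
        obtain ⟨h0, hinv, h2⟩ := prime_rpow_le_inv p.2 hs
        have hA : ‖A p‖ ≤ 16 := by simpa using (hb p p.2 1).trans (le_of_eq (by norm_num))
        calc R p ≤ |(A p).re| * ((p : ℕ) : ℝ) ^ (-s) := by
              exact mul_le_mul_of_nonneg_right (le_abs_self _) h0
          _ ≤ 16 * (1 / 2) := mul_le_mul ((Complex.abs_re_le_norm _).trans hA) h2 h0 (by norm_num)
          _ ≤ 8 := by norm_num
      have : S.card ≤ 4 := by decide
      calc ∑ p ∈ S, R p ≤ S.card • (8 : ℝ) := Finset.sum_le_card_nsmul _ _ _ hterm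
        _ ≤ 32 := by rw [nsmul_eq_mul]; have : (S.card : ℝ) ≤ 4 := by exact_mod_cast this
                     linarith
    rw [div_eq_mul_inv, ← exp_log (inv_pos.mpr (sub_pos.mpr hs)), ← exp_add, exp_le_exp, ← one_div]
    linarith
  · filter_upwards [eventually_ge_atTop S] with T hT
    rw [norm_prod, ← Finset.prod_sdiff hT, mul_comm (∏ p ∈ T \ S, _), ← Finset.sum_sdiff hT,
      add_sub_cancel_right]
    refine mul_le_mul (Finset.prod_le_prod (fun p hp => (hδ0 p p.2 ((hmemS p).mp hp)).le)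
      fun p hp => hδ p p.2 ((hmemS p).mp hp) s hs hs2) ?_ (exp_pos _).le
      (Finset.prod_nonneg fun p _ => norm_nonneg _)
    calc exp ((∑ p ∈ T \ S, R p) - 25000 * Q)
        ≤ exp (∑ p ∈ T \ S, (R p - 25000 * ((p : ℕ) : ℝ) ^ (-2 : ℝ))) := by
          rw [exp_le_exp, Finset.sum_sub_distrib, ← Finset.mul_sum]
          gcongr
          exact hsq.sum_le_tsum _ fun p _ => rpow_nonneg (Nat.cast_nonneg _) _
      _ = ∏ p ∈ T \ S, exp (R p - 25000 * ((p : ℕ) : ℝ) ^ (-2 : ℝ)) := exp_sum _ _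
      _ ≤ _ := Finset.prod_le_prod (fun p _ => (exp_pos _).le) fun p hp => by
          refine factor_ge hA1 hb hb' p.2 ?_ hs
          exact not_lt.mp fun h => (Finset.mem_sdiff.mp hp).2 ((hmemS p).mpr h)

end Fermat.Agent.LT.Asai

end
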