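import Mathlib.Analysis.Normed.Ring.InfiniteSum
import Mathlib.Analysis.Complex.Basic
import Mathlib.Analysis.SpecificLimits.Normed
import Mathlib.Analysis.SpecialFunctions.Trigonometric.Inverse

/-!
# Series with a linear recursion of order two, and the Hecke recursion
-/

set_option autoImplicit false

noncomputable section

namespace Fermat.Agent.LT.Asai

/-- The generating series of a sequence with a linear recursion of order two. -/
theorem tsum_mul_recursion {g : ℕ → ℂ} {a b X : ℂ}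
    (hg : ∀ k, g (k + 2) = a * g (k + 1) - b * g k) (hs : Summable fun k => g k * X ^ k) :
    (∑' k, g k * X ^ k) * (1 - a * X + b * X ^ 2) = g 0 + (g 1 - a * g 0) * X := by
  have h1 := (summable_nat_add_iff 1).mpr hs
  have h2 := (summable_nat_add_iff 2).mpr hs
  set S := ∑' k, g k * X ^ k with hS
  set S1 := ∑' k, g (k + 1) * X ^ (k + 1) with hS1
  set S2 := ∑' k, g (k + 2) * X ^ (k + 2) with hS2
  have e1 : S = g 0 + S1 := by
    rw [hS, hS1, hs.tsum_eq_zero_add]
    simp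
  have e2 : S1 = g 1 * X + S2 := by
    rw [hS1, hS2, h1.tsum_eq_zero_add]
    simp
  have e3 : S2 = a * X * S1 - b * X ^ 2 * S := by
    rw [hS2, hS1, hS, ← tsum_mul_left, ← tsum_mul_left,
      ← (h1.mul_left (a * X)).tsum_sub (hs.mul_left (b * X ^ 2))]
    refine tsum_congr fun k => ?_
    rw [hg k]
    ring
  linear_combination (1 - a * X) * e1 + e2 + e3

/-- A lower bound for such a series. -/
theorem norm_tsum_recursion_ge {g : ℕ → ℂ} {a b X : ℂ}
    (hg : ∀ k, g (k + 2) = a * g (k + 1) - b * g k) (hs : Summable fun k => g k * X ^ k)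
    (hX : ‖X‖ ≤ 1) :
    ‖g 0 + (g 1 - a * g 0) * X‖ / (1 + ‖a‖ + ‖b‖) ≤ ‖∑' k, g k * X ^ k‖ := by
  rw [← tsum_mul_recursion hg hs, norm_mul,
    div_le_iff₀ (add_pos_of_pos_of_nonneg (add_pos_of_pos_of_nonneg one_pos (norm_nonneg _))
      (norm_nonneg _))]
  gcongr
  calc ‖1 - a * X + b * X ^ 2‖ ≤ ‖(1 : ℂ) - a * X‖ + ‖b * X ^ 2‖ := norm_add_le _ _
    _ ≤ (‖(1 : ℂ)‖ + ‖a * X‖) + ‖b * X ^ 2‖ := by gcongr; exact norm_sub_le _ _
    _ ≤ 1 + ‖a‖ + ‖b‖ := by
      rw [norm_one, norm_mul, norm_mul, norm_pow]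
      gcongr
      · exact mul_le_of_le_one_right (norm_nonneg _) hX
      · exact mul_le_of_le_one_right (norm_nonneg _) (pow_le_one₀ (norm_nonneg _) hX)

/-- The normalised Hecke eigenvalues at the powers of a place. -/
def heckeSeq (a : ℂ) : ℕ → ℂ
  | 0 => 1
  | 1 => a
  | k + 2 => a * heckeSeq a (k + 1) - heckeSeq a k

@[simp] theorem heckeSeq_zero (a : ℂ) : heckeSeq a 0 = 1 := rfl

@[simp] theorem heckeSeq_one (a : ℂ) : heckeSeq a 1 = a := rfl

theorem heckeSeq_add_two (a : ℂ) (k : ℕ) :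
    heckeSeq a (k + 2) = a * heckeSeq a (k + 1) - heckeSeq a k := by rw [heckeSeq]

theorem heckeSeq_even (a : ℂ) (k : ℕ) :
    heckeSeq a (2 * (k + 2)) =
      (a ^ 2 - 2) * heckeSeq a (2 * (k + 1)) - 1 * heckeSeq a (2 * k) := by
  rw [show 2 * (k + 2) = 2 * k + 2 + 2 by ring, show 2 * (k + 1) = 2 * k + 2 by ring,
    heckeSeq_add_two a (2 * k + 2), heckeSeq_add_two a (2 * k + 1), heckeSeq_add_two a (2 * k)]
  ring

/-- For a real eigenvalue in `[-2, 2]` the sequence grows at most linearly. -/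
theorem norm_heckeSeq_le {a : ℂ} (him : a.im = 0) (h2 : ‖a‖ ≤ 2) (k : ℕ) :
    ‖heckeSeq a k‖ ≤ k + 1 := by
  set t : ℝ := a.re / 2
  have ht : -1 ≤ t ∧ t ≤ 1 := by
    have := abs_le.mp ((Complex.abs_re_le_norm a).trans h2)
    simp only [t]
    constructor <;> linarith
  set θ := Real.arccos t
  have hc : Real.cos θ = t := Real.cos_arccos ht.1 ht.2
  have ha : a = ((2 * Real.cos θ : ℝ) : ℂ) := by
    apply Complex.ext
    · simp [hc, t]
      ring
    · simp [him]
  rw [ha]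
  generalize Real.cos θ = c at hc ⊢
  clear ha h2 him
  -- `heckeSeq (2 c) k` is real
  have hreal : ∀ j, ∃ u : ℝ, heckeSeq ((2 * c : ℝ) : ℂ) j = (u : ℂ) ∧
      Real.sin θ * u = Real.sin ((j + 1) * θ) ∧
      ∃ u' : ℝ, heckeSeq ((2 * c : ℝ) : ℂ) (j + 1) = (u' : ℂ) ∧
        u' = c * u + Real.cos ((j + 1) * θ) := by
    have hcθ : c = Real.cos θ := by rw [hc, Real.cos_arccos ht.1 ht.2]
    intro j
    induction j with
    | zero => exact ⟨1, by simp, by simp, 2 * c, by simp, by simp [← hcθ]; ring⟩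
    | succ m ih =>
      obtain ⟨u, hu, hs, u', hu', e⟩ := ih
      have hs' : Real.sin θ * u' = Real.sin (((m + 1 : ℕ) + 1 : ℝ) * θ) := by
        rw [e, show (((m + 1 : ℕ) : ℝ) + 1) * θ = ((m : ℝ) + 1) * θ + θ by push_cast; ring,
          Real.sin_add, ← hs, ← hcθ]
        ring
      refine ⟨u', hu', hs', 2 * c * u' - u, by rw [heckeSeq_add_two, hu', hu]; push_cast; ring, ?_⟩
      rw [e, show (((m + 1 : ℕ) : ℝ) + 1) * θ = ((m : ℝ) + 1) * θ + θ by push_cast; ring,
        Real.cos_add, ← hs, ← hcθ]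
      linear_combination (norm := (rw [hcθ]; ring_nf)) u * Real.sin_sq_add_cos_sq θ
  have hc1 : |c| ≤ 1 := by rw [abs_le, hc]; exact ht
  induction k with
  | zero => simp
  | succ m ih =>
    obtain ⟨u, hu, -, u', hu', e⟩ := hreal m
    rw [hu, Complex.norm_real, Real.norm_eq_abs] at ih
    rw [hu', Complex.norm_real, Real.norm_eq_abs, e]
    push_cast
    refine (abs_add_le _ _).trans ?_
    rw [abs_mul]
    have := Real.abs_cos_le_one ((↑m + 1) * θ)
    nlinarith [abs_nonneg u, abs_nonneg c]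

end Fermat.Agent.LT.Asai

end
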