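import Fermat.Agent.LT.Asai.Places
import Fermat.Agent.LT.Asai.EulerLower
import Fermat.Agent.LT.Asai.Recursion
import Fermat.Agent.LT.Boundary.Defs

/-!
# The coefficients of the Asai series

`asaiCoeff M a q = ∏_v heckeSeq (a v) (ord_v q)` for `q` prime to `M`, and `0` otherwise.
-/

set_option autoImplicit false

noncomputable section

namespace Fermat.Agent.LT.Asai

open IsDedekindDomain NumberField Function
open Orbit (EisData)

variable {K : Type*} [Field K] [NumberField K] {M : ℕ} {a : HeightOneSpectrum (𝓞 K) → ℂ}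

open scoped Classical in
/-- The coefficient of `q ^ (-s)`. -/
def asaiCoeff (M : ℕ) (a : HeightOneSpectrum (𝓞 K) → ℂ) (q : ℕ) : ℂ :=
  if q ≠ 0 ∧ q.Coprime M then ∏ᶠ v : HeightOneSpectrum (𝓞 K), heckeSeq (a v) (ordAt v q) else 0

theorem asaiCoeff_zero : asaiCoeff M a 0 = 0 := by simp [asaiCoeff]

theorem asaiCoeff_one : asaiCoeff M a 1 = 1 := by
  simp [asaiCoeff, ordAt_one]

theorem finite_mulSupport_heckeSeq {q : ℕ} (hq : q ≠ 0) :
    (mulSupport fun v : HeightOneSpectrum (𝓞 K) => heckeSeq (a v) (ordAt v q)).Finite :=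
  (finite_ordAt_ne_zero hq).subset fun v hv h0 => hv (by simp [show ordAt v q = 0 from h0])

omit [NumberField K] in
theorem not_mem_of_coprime {m n : ℕ} (h : m.Coprime n) (v : HeightOneSpectrum (𝓞 K))
    (hm : (m : 𝓞 K) ∈ v.asIdeal) : (n : 𝓞 K) ∉ v.asIdeal := fun hn => by
  refine v.isPrime.ne_top ((Ideal.eq_top_iff_one _).2 ?_)
  obtain ⟨x, y, e⟩ := (Nat.isCoprime_iff_coprime.2 h).map (Int.castRingHom (𝓞 K))
  rw [← e]
  exact add_mem (v.asIdeal.mul_mem_left _ (by simpa using hm))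
    (v.asIdeal.mul_mem_left _ (by simpa using hn))

theorem primeTo_of_ordAt_ne_zero {q : ℕ} (hq : q.Coprime M) {v : HeightOneSpectrum (𝓞 K)}
    (h : ordAt v q ≠ 0) : PrimeTo M v :=
  not_mem_of_coprime hq v (by by_contra hv; exact h (ordAt_eq_zero v hv))

theorem asaiCoeff_mul (m n : ℕ) (h : m.Coprime n) :
    asaiCoeff M a (m * n) = asaiCoeff M a m * asaiCoeff M a n := by
  by_cases hm : m ≠ 0 ∧ m.Coprime M
  swap
  · rw [asaiCoeff, asaiCoeff, if_neg hm, if_neg (fun h' => hm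
      ⟨left_ne_zero_of_mul h'.1, (Nat.coprime_mul_iff_left.1 h'.2).1⟩), zero_mul]
  by_cases hn : n ≠ 0 ∧ n.Coprime M
  swap
  · rw [asaiCoeff, if_neg (fun h' => hn ⟨right_ne_zero_of_mul h'.1,
      (Nat.coprime_mul_iff_left.1 h'.2).2⟩)]
    rw [show asaiCoeff M a n = 0 from if_neg hn, mul_zero]
  rw [asaiCoeff, if_pos ⟨mul_ne_zero hm.1 hn.1, hm.2.mul_left hn.2⟩, asaiCoeff, asaiCoeff,
    if_pos hm, if_pos hn, ← finprod_mul_distrib (finite_mulSupport_heckeSeq hm.1)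
      (finite_mulSupport_heckeSeq hn.1)]
  refine finprod_congr fun v => ?_
  rw [ordAt_mul v hm.1 hn.1]
  by_cases hv : (m : 𝓞 K) ∈ v.asIdeal
  · rw [ordAt_eq_zero v (not_mem_of_coprime h v hv), add_zero, heckeSeq_zero, mul_one]
  · rw [ordAt_eq_zero v hv, zero_add, heckeSeq_zero, one_mul]

theorem asaiCoeff_primePow {p : ℕ} (hp : p.Prime) (hpM : ¬ p ∣ M) (k : ℕ) :
    asaiCoeff M a (p ^ k) =
      ∏ᶠ v : HeightOneSpectrum (𝓞 K), heckeSeq (a v) (k * ordAt v p) := by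
  rw [asaiCoeff, if_pos ⟨pow_ne_zero _ hp.ne_zero,
    Nat.Coprime.pow_left _ (hp.coprime_iff_not_dvd.2 hpM)⟩]
  exact finprod_congr fun v => by rw [ordAt_pow v hp.ne_zero]

theorem asaiCoeff_primePow_dvd {p : ℕ} (hp : p.Prime) (hpM : p ∣ M) (k : ℕ) :
    asaiCoeff M a (p ^ k) = if k = 0 then 1 else 0 := by
  split_ifs with hk
  · rw [hk, pow_zero, asaiCoeff_one]
  · rw [asaiCoeff, if_neg fun h => ?_]
    exact hp.ne_one (Nat.Coprime.eq_one_of_dvd
      (h.2.coprime_dvd_left (dvd_pow_self p hk)) hpM)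

omit [NumberField K] in
theorem primeTo_of_mem {p : ℕ} (hp : p.Prime) (hpM : ¬ p ∣ M) {v : HeightOneSpectrum (𝓞 K)}
    (hv : (p : 𝓞 K) ∈ v.asIdeal) : PrimeTo M v :=
  not_mem_of_coprime (hp.coprime_iff_not_dvd.2 hpM) v hv

theorem asaiCoeff_of_one_place {p : ℕ} (hp : p.Prime) (hpM : ¬ p ∣ M)
    {v : HeightOneSpectrum (𝓞 K)}
    (hv : ∀ u : HeightOneSpectrum (𝓞 K), (p : 𝓞 K) ∈ u.asIdeal ↔ u = v) (k : ℕ) :
    asaiCoeff M a (p ^ k) = heckeSeq (a v) (k * ordAt v p) := by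
  rw [asaiCoeff_primePow hp hpM]
  refine finprod_eq_single _ v fun u hu => ?_
  rw [ordAt_eq_zero u fun h => hu ((hv u).1 h), mul_zero, heckeSeq_zero]

theorem asaiCoeff_of_two_places {p : ℕ} (hp : p.Prime) (hpM : ¬ p ∣ M)
    {v v' : HeightOneSpectrum (𝓞 K)} (hne : v ≠ v')
    (hv : ∀ u : HeightOneSpectrum (𝓞 K), (p : 𝓞 K) ∈ u.asIdeal ↔ u = v ∨ u = v') (k : ℕ) :
    asaiCoeff M a (p ^ k) =
      heckeSeq (a v) (k * ordAt v p) * heckeSeq (a v') (k * ordAt v' p) := by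
  classical
  rw [asaiCoeff_primePow hp hpM, finprod_eq_finsetProd_of_mulSupport_subset _
    (s := {v, v'}) ?_, Finset.prod_pair hne]
  intro u hu
  simp only [Finset.coe_insert, Finset.coe_singleton, Set.mem_insert_iff, Set.mem_singleton_iff]
  by_contra h
  exact hu (by simp [ordAt_eq_zero u fun h' => h ((hv u).1 h')])

variable (E : EisData (𝓞 K))
  (ha : ∀ v : HeightOneSpectrum (𝓞 K), PrimeTo M v → ‖a v‖ ≤ 2 ∧ (a v).im = 0)

include E ha in
theorem norm_asaiCoeff_primePow_le {p : ℕ} (hp : p.Prime) (k : ℕ) :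
    ‖asaiCoeff M a (p ^ k)‖ ≤ ((k : ℝ) + 1) ^ 2 := by
  have h1 : (1 : ℝ) ≤ ((k : ℝ) + 1) ^ 2 := one_le_pow₀ (by linarith [(Nat.cast_nonneg k : (0 : ℝ) ≤ k)])
  by_cases hpM : p ∣ M
  · rw [asaiCoeff_primePow_dvd hp hpM]
    split_ifs <;> simp [h1]
    positivity
  have hbd : ∀ v : HeightOneSpectrum (𝓞 K), (p : 𝓞 K) ∈ v.asIdeal → ∀ j : ℕ,
      ‖heckeSeq (a v) j‖ ≤ j + 1 := fun v hv j =>
    norm_heckeSeq_le (ha v (primeTo_of_mem hp hpM hv)).2 (ha v (primeTo_of_mem hp hpM hv)).1 j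
  have hk : (0 : ℝ) ≤ k := Nat.cast_nonneg k
  cases splitting E hp with
  | inert v h hm ho hN =>
    rw [asaiCoeff_of_one_place hp hpM hm, ho, mul_one]
    exact (hbd v ((hm v).2 rfl) k).trans (by nlinarith)
  | split v v' h hne hm ho ho' hN hN' =>
    rw [asaiCoeff_of_two_places hp hpM hne hm, ho, ho', mul_one, norm_mul, sq]
    exact mul_le_mul (hbd v ((hm v).2 (Or.inl rfl)) k) (hbd v' ((hm v').2 (Or.inr rfl)) k)
      (norm_nonneg _) (by linarith)
  | ramified v h hm ho hN =>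
    rw [asaiCoeff_of_one_place hp hpM hm, ho]
    refine (hbd v ((hm v).2 rfl) (k * 2)).trans ?_
    push_cast
    nlinarith

include E ha in
theorem exists_localFactor_ge {p : ℕ} (hp : p.Prime) (h7 : p < 7) :
    ∃ δ : ℝ, 0 < δ ∧ ∀ s : ℝ, 1 < s → s ≤ 3 / 2 → δ ≤ ‖localFactor (asaiCoeff M a) p s‖ := by
  by_cases hpM : p ∣ M
  · refine ⟨1, one_pos, fun s _ _ => ?_⟩
    rw [localFactor, tsum_eq_single 0 fun k hk => by
      rw [asaiCoeff_primePow_dvd hp hpM, if_neg hk, zero_mul]]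
    simp [asaiCoeff_one]
  have hX : ∀ s : ℝ, 1 < s → ‖(((p : ℝ) ^ (-s) : ℝ) : ℂ)‖ ≤ 1 / 2 := fun s hs => by
    rw [Complex.norm_real, Real.norm_of_nonneg (Real.rpow_nonneg (Nat.cast_nonneg p) _)]
    exact (prime_rpow_le_inv hp hs).2.2
  have hfac : ∀ s : ℝ, 1 < s → Summable fun k : ℕ =>
      asaiCoeff M a (p ^ k) * (((p : ℝ) ^ (-s) : ℝ) : ℂ) ^ k := fun s hs => by
    refine Summable.of_norm_bounded summable_sq_half fun k => ?_
    rw [norm_mul, norm_pow]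
    refine (mul_le_mul (norm_asaiCoeff_primePow_le E ha hp k)
      (pow_le_pow_left₀ (norm_nonneg _) (hX s hs) k) (by positivity) (by positivity)).trans ?_
    gcongr
    nlinarith [(Nat.cast_nonneg k : (0 : ℝ) ≤ k)]
  have heq : ∀ s : ℝ, localFactor (asaiCoeff M a) p s =
      ∑' k : ℕ, asaiCoeff M a (p ^ k) * (((p : ℝ) ^ (-s) : ℝ) : ℂ) ^ k := fun s =>
    tsum_congr fun k => by rw [primePow_rpow, Complex.ofReal_pow]
  cases splitting E hp with
  | inert v h hm ho hN =>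
    have hA : ∀ k, asaiCoeff M a (p ^ k) = heckeSeq (a v) k := fun k => by
      rw [asaiCoeff_of_one_place hp hpM hm, ho, mul_one]
    refine ⟨1 / (1 + ‖a v‖ + ‖(1 : ℂ)‖), by positivity, fun s hs _ => ?_⟩
    rw [heq]
    simp only [hA]
    have := norm_tsum_recursion_ge (g := heckeSeq (a v)) (a := a v) (b := 1)
      (fun k => by rw [heckeSeq_add_two, one_mul]) (by simpa only [hA] using hfac s hs)
      ((hX s hs).trans (by norm_num))
    simpa using this
  | split v v' h hne hm ho ho' hN hN' =>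
    exfalso
    interval_cases p <;> simp_all (config := { decide := true })
  | ramified v h hm ho hN =>
    have hA : ∀ k, asaiCoeff M a (p ^ k) = heckeSeq (a v) (2 * k) := fun k => by
      rw [asaiCoeff_of_one_place hp hpM hm, ho, mul_comm]
    refine ⟨1 / 2 / (1 + ‖a v ^ 2 - 2‖ + ‖(1 : ℂ)‖), by positivity, fun s hs _ => ?_⟩
    rw [heq]
    simp only [hA]
    refine le_trans ?_ (norm_tsum_recursion_ge (g := fun k => heckeSeq (a v) (2 * k))
      (a := a v ^ 2 - 2) (b := 1) (heckeSeq_even (a v)) (by simpa only [hA] using hfac s hs)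
      ((hX s hs).trans (by norm_num)))
    gcongr
    simp only [mul_zero, mul_one, heckeSeq_zero, heckeSeq_add_two, zero_add, heckeSeq_one]
    rw [show a v * a v - 1 - (a v ^ 2 - 2) = 1 by ring, one_mul]
    have := norm_sub_norm_le (1 : ℂ) (-(((p : ℝ) ^ (-s) : ℝ) : ℂ))
    rw [norm_neg, norm_one, sub_neg_eq_add] at this
    linarith [hX s hs]

include E ha in
/-- The lower bound for the Asai series. -/
theorem exists_lower_bound_asai (hlog : ∃ C : ℝ, ∀ s : ℝ, 1 < s → s ≤ 3 / 2 →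
      Summable (fun p : Nat.Primes => (asaiCoeff M a p).re * ((p : ℕ) : ℝ) ^ (-s)) ∧
      Real.log (1 / (s - 1)) - C ≤
        ∑' p : Nat.Primes, (asaiCoeff M a p).re * ((p : ℕ) : ℝ) ^ (-s)) :
    ∃ c : ℝ, 0 < c ∧ ∀ s : ℝ, 1 < s → s ≤ 3 / 2 → c / (s - 1) ≤ ‖dirSum (asaiCoeff M a) s‖ :=
  exists_lower_bound_dirichlet asaiCoeff_zero asaiCoeff_one asaiCoeff_mul
    (fun _ hp k => (norm_asaiCoeff_primePow_le E ha hp k).trans
      (le_mul_of_one_le_left (by positivity) (by norm_num)))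
    (fun _ hp _ k => norm_asaiCoeff_primePow_le E ha hp k)
    (fun _ hp h7 => exists_localFactor_ge E ha hp h7) hlog

end Fermat.Agent.LT.Asai
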