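import Fermat.Agent.LT.Asai.Lifts
import Fermat.Agent.LT.Descent.CoeffFromWhittaker
import Fermat.Agent.LT.Orbit.Eisenstein

/-!
# The inverse different of `ℚ(√-3)` and the conductor of the finite character
-/

set_option autoImplicit false

noncomputable section

namespace Fermat.Agent.LT.Asai

open IsDedekindDomain NumberField
open Fermat.Agent.LT.Adelic Fermat.Agent.LT.Descent
open Orbit (EisData)

variable {K : Type*} [Field K] [NumberField K] (E : EisData (𝓞 K))

/-- `ω` in `K`. -/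
def wK : K := algebraMap (𝓞 K) K E.w

/-- `1 / √-3`. -/
def deltaK : K := (1 + 2 * wK E)⁻¹

omit [NumberField K] in
theorem wK_sq : wK E ^ 2 + wK E + 1 = 0 := by
  rw [wK, ← map_pow, ← map_add, ← map_one (algebraMap (𝓞 K) K), ← map_add, E.w_eq, map_zero]

omit [NumberField K] in
theorem one_add_two_wK_sq : (1 + 2 * wK E) * (1 + 2 * wK E) = -3 := by
  linear_combination 4 * wK_sq E

theorem one_add_two_wK_ne_zero : (1 + 2 * wK E) ≠ 0 := fun h => by
  have := one_add_two_wK_sq E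
  rw [h, mul_zero] at this
  norm_num at this

theorem deltaK_ne_zero : deltaK E ≠ 0 := inv_ne_zero (one_add_two_wK_ne_zero E)

theorem deltaK_mul : deltaK E * (1 + 2 * wK E) = 1 :=
  inv_mul_cancel₀ (one_add_two_wK_ne_zero E)

variable (Φ : Frame K Unit)

theorem re_emb_wK : (Φ.emb () (wK E)).re = -(1 / 2) := by
  have h : Φ.emb () (wK E) ^ 2 + Φ.emb () (wK E) + 1 = 0 := by
    rw [← map_pow, ← map_add, ← map_one (Φ.emb ()), ← map_add, wK_sq, map_zero]
  set x := Φ.emb () (wK E)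
  have h1 := congrArg Complex.re h
  have h2 := congrArg Complex.im h
  simp [pow_two, Complex.mul_re, Complex.mul_im] at h1 h2
  have h3 : x.im * (2 * x.re + 1) = 0 := by linarith
  rcases mul_eq_zero.1 h3 with h0 | h0
  · rw [h0] at h1; nlinarith [sq_nonneg (x.re + 1 / 2)]
  · linarith

include Φ in
theorem trace_wK : Algebra.trace ℚ K (wK E) = -1 := by
  have h := Φ.trace_eq (wK E)
  simp only [Finset.univ_unique, Finset.sum_singleton] at h
  rw [show (Φ.emb default (wK E)).re = -(1 / 2) from re_emb_wK E Φ] at h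
  have h' : ((Algebra.trace ℚ K (wK E) : ℚ) : ℝ) = ((-1 : ℚ) : ℝ) := by rw [h]; norm_num
  exact_mod_cast h'

include Φ in
theorem trace_ratCast (c : ℚ) : Algebra.trace ℚ K (c : K) = 2 * c := by
  have h := Φ.trace_eq (c : K)
  simp only [Finset.univ_unique, Finset.sum_singleton, map_ratCast, Complex.ratCast_re] at h
  exact_mod_cast h

include Φ in
theorem trace_delta_mul (a b : ℚ) :
    Algebra.trace ℚ K (deltaK E * ((a : K) + (b : K) * wK E)) = b ∧
      Algebra.trace ℚ K (deltaK E * wK E * ((a : K) + (b : K) * wK E)) = a - b := by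
  have hd : deltaK E = ((-(1 / 3) : ℚ) : K) * 1 + ((-(2 / 3) : ℚ) : K) * wK E := by
    refine mul_right_cancel₀ (one_add_two_wK_ne_zero E) ?_
    rw [deltaK_mul]
    push_cast
    linear_combination (4 / 3 : K) * wK_sq E
  have key : ∀ c e : ℚ, Algebra.trace ℚ K ((c : K) + (e : K) * wK E) = 2 * c - e := fun c e => by
    rw [map_add, trace_ratCast Φ, show (e : K) * wK E = e • wK E by rw [Rat.smul_def],
      map_smul, trace_wK E Φ, smul_eq_mul]
    ring
  constructor
  · rw [show deltaK E * ((a : K) + (b : K) * wK E) =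
      ((-(1 / 3) * a + 2 / 3 * b : ℚ) : K) + ((-(2 / 3) * a + 1 / 3 * b : ℚ) : K) * wK E by
        rw [hd]; push_cast; linear_combination (-(2 / 3) * (b : K)) * wK_sq E, key]
    ring
  · rw [show deltaK E * wK E * ((a : K) + (b : K) * wK E) =
      ((2 / 3 * a - 1 / 3 * b : ℚ) : K) + ((1 / 3 * a + 1 / 3 * b : ℚ) : K) * wK E by
        rw [hd]; push_cast
        linear_combination (-(1 / 3) * (b : K) - 2 / 3 * a - 2 / 3 * b * (wK E - 1)) * wK_sq E, key]
    ring

omit [NumberField K] in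
theorem algebraMap_repr (a b : ℤ) :
    algebraMap (𝓞 K) K ((a : 𝓞 K) + (b : 𝓞 K) * E.w) =
      (((a : ℚ)) : K) + ((b : ℚ) : K) * wK E := by
  rw [map_add, map_mul, map_intCast, map_intCast, Rat.cast_intCast, Rat.cast_intCast, wK]

include E in
theorem exists_coords (x : K) : ∃ a b : ℚ, x = (a : K) + (b : K) * wK E := by
  obtain ⟨N, hN, hx⟩ := exists_natCast_mul_isIntegral x
  obtain ⟨a, b, hab⟩ := E.repr (⟨(N : K) * x, hx⟩ : 𝓞 K)
  refine ⟨a / N, b / N, ?_⟩
  have h : (N : K) * x = ((a : ℚ) : K) + ((b : ℚ) : K) * wK E := by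
    rw [← algebraMap_repr, ← hab]; rfl
  push_cast
  refine mul_left_cancel₀ (Nat.cast_ne_zero.2 hN : (N : K) ≠ 0) ?_
  rw [h]
  push_cast
  field_simp

include Φ in
/-- The traces against `δ` and `δω` detect the integers. -/
theorem exists_integer_of_traces {x : K}
    (h1 : ∃ m : ℤ, Algebra.trace ℚ K (deltaK E * x) = (m : ℚ))
    (h2 : ∃ m : ℤ, Algebra.trace ℚ K (deltaK E * wK E * x) = (m : ℚ)) :
    ∃ y : 𝓞 K, algebraMap (𝓞 K) K y = x := by
  obtain ⟨a, b, rfl⟩ := exists_coords E x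
  obtain ⟨t1, t2⟩ := trace_delta_mul E Φ a b
  obtain ⟨m, hm⟩ := h1
  obtain ⟨n, hn⟩ := h2
  rw [t1] at hm
  rw [t2] at hn
  refine ⟨((n + m : ℤ) : 𝓞 K) + (m : 𝓞 K) * E.w, ?_⟩
  rw [algebraMap_repr, hm, show a = ((n + m : ℤ) : ℚ) by push_cast; linarith]

include Φ in
theorem trace_delta_mul_integer (y : 𝓞 K) :
    ∃ m : ℤ, Algebra.trace ℚ K (deltaK E * algebraMap (𝓞 K) K y) = (m : ℚ) := by
  obtain ⟨a, b, rfl⟩ := E.repr y
  exact ⟨b, by rw [algebraMap_repr, (trace_delta_mul E Φ _ _).1]⟩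

include Φ in
/-- An element of trace zero is a rational multiple of `δ`. -/
theorem eq_ratCast_mul_delta_of_trace_eq_zero {α : K} (h : Algebra.trace ℚ K α = 0) :
    ∃ q : ℚ, α = (q : K) * deltaK E := by
  obtain ⟨a, b, hab⟩ := exists_coords E (α * (1 + 2 * wK E))
  have hα : α = deltaK E * ((a : K) + (b : K) * wK E) := by
    rw [← hab, mul_left_comm, deltaK_mul, mul_one]
  rw [hα, (trace_delta_mul E Φ a b).1] at h
  exact ⟨a, by rw [hα, h]; push_cast; ring⟩

theorem eC_eq_one_iff (t : ℝ) : Poisson.eC t = 1 ↔ ∃ m : ℤ, t = m := by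
  rw [Poisson.eC, Complex.exp_eq_one_iff]
  have hne : (2 : ℂ) * Real.pi * Complex.I ≠ 0 := by
    simp [Real.pi_ne_zero, Complex.I_ne_zero]
  refine exists_congr fun m => ⟨fun h => ?_, fun h => by rw [h]; push_cast; ring⟩
  have h' : (t : ℂ) = ((m : ℝ) : ℂ) := by
    refine mul_left_cancel₀ hne ?_
    rw [h]; push_cast; ring
  exact_mod_cast h'

theorem psiF_algebraMap_eq_one_iff (x : K) :
    psiF (algebraMap K (FiniteAdeleRing (𝓞 K) K) x) = 1 ↔
      ∃ m : ℤ, Algebra.trace ℚ K x = (m : ℚ) := by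
  rw [psiF_algebraMap, eC_eq_one_iff]
  constructor
  · rintro ⟨m, hm⟩
    refine ⟨-m, ?_⟩
    have : ((Algebra.trace ℚ K x : ℚ) : ℝ) = ((-m : ℤ) : ℚ) := by push_cast; linarith
    exact_mod_cast this
  · rintro ⟨m, hm⟩
    exact ⟨-m, by rw [hm]; push_cast; ring⟩

include Φ in
theorem psiF_delta_mul {x : FiniteAdeleRing (𝓞 K) K} (hx : x ∈ intAdele (𝓞 K) K) :
    psiF (algebraMap K (FiniteAdeleRing (𝓞 K) K) (deltaK E) * x) = 1 := by
  obtain ⟨k, hk⟩ := exists_memMul_sub x (n := (3 : 𝓞 K)) (by norm_num)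
  have hk1 : algebraMap K (FiniteAdeleRing (𝓞 K) K) k ∈ intAdele (𝓞 K) K := by
    have := sub_mem hx hk.mem_intAdele
    rwa [sub_sub_cancel] at this
  have hint : ∀ v : HeightOneSpectrum (𝓞 K), v.valuation K k ≤ 1 := fun v => by
    rw [← valued_algebraMap (R := 𝓞 K) k v]; exact hk1 v
  obtain ⟨y, hy⟩ := HeightOneSpectrum.mem_integers_of_valuation_le_one K k hint
  have hsplit : algebraMap K (FiniteAdeleRing (𝓞 K) K) (deltaK E) * x =
      algebraMap K (FiniteAdeleRing (𝓞 K) K) (deltaK E * k) +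
        algebraMap K (FiniteAdeleRing (𝓞 K) K) (deltaK E) *
          (x - algebraMap K (FiniteAdeleRing (𝓞 K) K) k) := by
    rw [map_mul]; ring
  rw [hsplit, AddChar.map_add_eq_mul, (psiF_algebraMap_eq_one_iff _).2
    (hy ▸ trace_delta_mul_integer E Φ y), one_mul]
  refine psiF_of_mem_intAdele fun v => ?_
  rw [coe_apply_mul, map_mul, valued_algebraMap]
  refine (mul_le_mul_right (hk v) _).trans ?_
  rw [← v.valuation_of_algebraMap (K := K), ← map_mul,
    show deltaK E * algebraMap (𝓞 K) K 3 = algebraMap (𝓞 K) K (-(1 + 2 * E.w)) by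
      rw [map_neg, map_add, map_mul, map_one, map_ofNat, map_ofNat]
      show deltaK E * 3 = -(1 + 2 * wK E)
      linear_combination (deltaK E) * one_add_two_wK_sq E - (1 + 2 * wK E) * deltaK_mul E]
  exact v.valuation_le_one _

include E Φ in
theorem exists_psiF_delta_ne_one (v : HeightOneSpectrum (𝓞 K)) :
    ∃ s : FiniteAdeleRing (𝓞 K) K, (∀ w ≠ v, s w = 0) ∧
      Valued.v (s v) ≤ WithZero.exp (1 : ℤ) ∧
        psiF (algebraMap K (FiniteAdeleRing (𝓞 K) K) (deltaK E) * s) ≠ 1 := by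
  obtain ⟨π, hπ⟩ := v.valuation_exists_uniformizer K
  obtain ⟨s, hs0, hsv⟩ := exists_single v ((π : v.adicCompletion K)⁻¹)
  have hval : Valued.v (s v) = WithZero.exp (1 : ℤ) := by
    rw [hsv, map_inv₀, HeightOneSpectrum.adicCompletion.valued_coe, hπ, ← WithZero.exp_neg,
      neg_neg]
  obtain ⟨x, hx⟩ := exists_sub_mem_intAdele s
  by_contra hno
  push Not at hno
  have hall : ∀ o : 𝓞 K, psiF (algebraMap K (FiniteAdeleRing (𝓞 K) K)
      (deltaK E * (x * algebraMap (𝓞 K) K o))) = 1 := fun o => by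
    set A := algebraMap K (FiniteAdeleRing (𝓞 K) K)
    have ho : A (algebraMap (𝓞 K) K o) ∈ intAdele (𝓞 K) K := by
      have := algebraMap_mem_intAdele (K := K) o
      show algebraMap K (FiniteAdeleRing (𝓞 K) K) _ ∈ _
      rw [← IsScalarTower.algebraMap_apply]
      exact this
    have h1 := hno (s * A (algebraMap (𝓞 K) K o))
      (fun w hw => by rw [coe_apply_mul, hs0 w hw, zero_mul])
      (by rw [coe_apply_mul, map_mul, hval]; exact mul_le_of_le_one_right' (ho v))
    rw [show s * A (algebraMap (𝓞 K) K o) = A (x * algebraMap (𝓞 K) K o) +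
        (s - A x) * A (algebraMap (𝓞 K) K o) by rw [map_mul]; ring,
      mul_add, AddChar.map_add_eq_mul, psiF_delta_mul E Φ (mul_mem hx ho), mul_one,
      ← map_mul] at h1
    exact h1
  obtain ⟨y, hy⟩ := exists_integer_of_traces E Φ (x := x)
    ((psiF_algebraMap_eq_one_iff _).1 (by simpa using hall 1))
    ((psiF_algebraMap_eq_one_iff _).1 (by
      have := hall E.w
      rwa [show deltaK E * (x * algebraMap (𝓞 K) K E.w) = deltaK E * wK E * x by
        rw [wK]; ring] at this))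
  have hxv := hx v
  rw [coe_apply_sub] at hxv
  have hle : Valued.v (algebraMap K (FiniteAdeleRing (𝓞 K) K) x v) ≤ 1 := by
    rw [valued_algebraMap, ← hy]; exact v.valuation_le_one _
  have := (Valuation.map_add Valued.v (s v - algebraMap K (FiniteAdeleRing (𝓞 K) K) x v)
    (algebraMap K (FiniteAdeleRing (𝓞 K) K) x v)).trans (max_le hxv hle)
  rw [sub_add_cancel, hval, ← WithZero.exp_zero, WithZero.exp_le_exp] at this
  omega

/-- `δ` divided by the conductor idele. -/
def deltaUnit : (FiniteAdeleRing (𝓞 K) K)ˣ :=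
  globalIdele (Units.mk0 (deltaK E) (deltaK_ne_zero E)) * (conductorIdele K)⁻¹

include Φ in
/-- `δ` generates the inverse different. -/
theorem valued_deltaUnit (v : HeightOneSpectrum (𝓞 K)) :
    Valued.v ((deltaUnit E : FiniteAdeleRing (𝓞 K) K) v) = 1 := by
  set A := algebraMap K (FiniteAdeleRing (𝓞 K) K) (deltaK E) with hA
  set c := conductorIdele K with hc
  have hu : (deltaUnit E : FiniteAdeleRing (𝓞 K) K) * (c : FiniteAdeleRing (𝓞 K) K) = A := by
    rw [← Units.val_mul, deltaUnit, ← hc, inv_mul_cancel_right]; rfl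
  obtain ⟨hint, hexact⟩ : (∀ x ∈ intAdele (𝓞 K) K,
      psiF ((c : FiniteAdeleRing (𝓞 K) K) * x) = 1) ∧
      ∀ v : HeightOneSpectrum (𝓞 K), ∃ s : FiniteAdeleRing (𝓞 K) K, (∀ w ≠ v, s w = 0) ∧
        Valued.v (s v) ≤ WithZero.exp (1 : ℤ) ∧
          psiF ((c : FiniteAdeleRing (𝓞 K) K) * s) ≠ 1 :=
    (exists_conductor_psiF K).choose_spec
  set u := deltaUnit E
  have hu0 : Valued.v ((u : FiniteAdeleRing (𝓞 K) K) v) ≠ 0 :=
    (Valuation.ne_zero_iff _).2 (idele_ne_zero u v)
  set e := WithZero.log (Valued.v ((u : FiniteAdeleRing (𝓞 K) K) v)) with he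
  have hue : Valued.v ((u : FiniteAdeleRing (𝓞 K) K) v) = WithZero.exp e :=
    (WithZero.exp_log hu0).symm
  have key : ∀ s : FiniteAdeleRing (𝓞 K) K, (∀ w ≠ v, s w = 0) → ∀ d : ℤ,
      Valued.v (s v) ≤ WithZero.exp d → d ≤ 0 → s ∈ intAdele (𝓞 K) K := fun s hs d hd hd0 w => by
    by_cases hw : w = v
    · subst hw
      exact hd.trans (by rw [← WithZero.exp_zero, WithZero.exp_le_exp]; exact hd0)
    · rw [hs w hw, map_zero]; exact zero_le
  by_contra hne
  have he0 : e ≠ 0 := fun h => hne (by rw [hue, h, WithZero.exp_zero])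
  rcases lt_or_gt_of_ne he0 with h | h
  · obtain ⟨s, hs0, hsv, hs1⟩ := exists_psiF_delta_ne_one E Φ v
    refine hs1 ?_
    rw [← hA, ← hu, mul_comm (u : FiniteAdeleRing (𝓞 K) K), mul_assoc]
    refine hint _ (key _ (fun w hw => by rw [coe_apply_mul, hs0 w hw, mul_zero]) (e + 1) ?_
      (by omega))
    rw [coe_apply_mul, map_mul, hue, WithZero.exp_add]
    exact mul_le_mul_right hsv _
  · obtain ⟨s, hs0, hsv, hs1⟩ := hexact v
    refine hs1 ?_
    have hcA : (c : FiniteAdeleRing (𝓞 K) K) * s =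
        A * (((u⁻¹ : (FiniteAdeleRing (𝓞 K) K)ˣ) : FiniteAdeleRing (𝓞 K) K) * s) := by
      rw [← hu]; rw [mul_comm (u : FiniteAdeleRing (𝓞 K) K), mul_assoc,
        Units.mul_inv_cancel_left]
    rw [hcA, hA]
    refine psiF_delta_mul E Φ (key _ (fun w hw => by rw [coe_apply_mul, hs0 w hw, mul_zero])
      (-e + 1) ?_ (by omega))
    rw [coe_apply_mul, map_mul, inv_idele_apply, map_inv₀, hue, ← WithZero.exp_neg,
      WithZero.exp_add]
    exact mul_le_mul_right hsv _

end Fermat.Agent.LT.Asai
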