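import Fermat.Agent.LT.Asai.IntTest
import Mathlib.Analysis.Complex.UpperHalfPlane.Basic
import Mathlib.Data.ZMod.Basic
import Mathlib.Analysis.SpecialFunctions.Pow.Deriv

/-!
# Eisenstein series of level `M` at real `s > 1`

`eisSum M a b s τ = ∑ (Im τ / |c τ + d|²) ^ s` over `(c, d) ≡ (a, b) mod M`, and the elementary
estimate `eisSum = π / (M² (s - 1)) + O((Im τ)²)` high in the upper half plane.
-/

set_option autoImplicit false

noncomputable section

namespace Fermat.Agent.LT.Asai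

open MeasureTheory Set Real UpperHalfPlane

variable (M : ℕ) [NeZero M]

/-- The progression of a residue class. -/
def progEquiv (a : ZMod M) : ℤ ≃ {c : ℤ // (c : ZMod M) = a} where
  toFun k := ⟨a.val + M * k, by simp⟩
  invFun c := ((c : ℤ) - a.val) / M
  left_inv k := by
    have : (M : ℤ) ≠ 0 := by exact_mod_cast NeZero.ne M
    simp [Int.mul_ediv_cancel_left _ this]
  right_inv c := by
    have h : (M : ℤ) ∣ (c : ℤ) - a.val := by
      rw [← ZMod.intCast_zmod_eq_zero_iff_dvd]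
      simp [c.2]
    apply Subtype.ext
    show (a.val : ℤ) + M * (((c : ℤ) - a.val) / M) = c
    rw [Int.mul_ediv_cancel' h]
    ring

/-- The sum of `|c| ^ (-u)` over a residue class. -/
def classSum (a : ZMod M) (u : ℝ) : ℝ := ∑' c : {c : ℤ // (c : ZMod M) = a}, |(c : ℝ)| ^ (-u)

theorem progression_rpow {e : ℝ} (he : 1 ≤ e) (heM : e ≤ M) {u : ℝ} (hu : 1 < u) :
    Summable (fun k : ℕ => (e + M * k) ^ (-u)) ∧
      |(∑' k : ℕ, (e + M * k) ^ (-u)) - 1 / (M * (u - 1))| ≤ 1 + M := by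
  have hM : (0 : ℝ) < M := by exact_mod_cast NeZero.pos M
  have he0 : (0 : ℝ) < e := by linarith
  set g : ℝ → ℝ := fun t => (e + |t|) ^ (-u)
  have hanti : AntitoneOn g (Ici 0) := fun a (ha : 0 ≤ a) b (hb : 0 ≤ b) hab => by
    simp only [g, abs_of_nonneg ha, abs_of_nonneg hb]
    exact rpow_le_rpow_of_nonpos (by linarith) (by linarith) (by linarith)
  have hI0 : IntegrableOn g (Ioi 0) ∧ ∫ t in Ioi 0, g t = e ^ (1 - u) / (u - 1) := by
    have hi := integrableOn_Ioi_rpow_of_lt (show -u < -1 by linarith) he0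
    have hv := integral_Ioi_rpow_of_lt (show -u < -1 by linarith) he0
    have hpre : (fun t : ℝ => e + t) ⁻¹' Ioi e = Ioi 0 := by simp
    have h1 := (measurePreserving_add_left volume e).integrableOn_comp_preimage
      (measurableEmbedding_addLeft e) (f := fun w : ℝ => w ^ (-u)) (s := Ioi e)
    have h2 := (measurePreserving_add_left volume e).setIntegral_preimage_emb
      (measurableEmbedding_addLeft e) (fun w : ℝ => w ^ (-u)) (Ioi e)
    rw [hpre] at h1 h2
    have heq : EqOn (fun t : ℝ => (e + t) ^ (-u)) g (Ioi 0) := fun t (ht : 0 < t) => by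
      simp [g, abs_of_pos ht]
    refine ⟨(h1.mpr hi).congr_fun heq measurableSet_Ioi, ?_⟩
    rw [← setIntegral_congr_fun measurableSet_Ioi heq, h2, hv,
      show -u + 1 = -(u - 1) by ring, show 1 - u = -(u - 1) by ring, neg_div_neg_eq]
  obtain ⟨hs, hl, hh⟩ := halfProgression hanti hI0.1 (fun t => rpow_nonneg (by positivity) _) hM
    le_rfl
  have hfun : (fun k : ℕ => g (0 + M * k)) = fun k : ℕ => (e + M * k) ^ (-u) := by
    funext k
    simp [g, abs_of_nonneg (show (0 : ℝ) ≤ (M : ℝ) * k by positivity)]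
  rw [hfun] at hs hl hh
  refine ⟨hs, ?_⟩
  rw [hI0.2] at hl hh
  have hg : g 0 ≤ 1 := by
    simpa [g] using rpow_le_one_of_one_le_of_nonpos he (show -u ≤ 0 by linarith)
  have hle1 : e ^ (1 - u) ≤ 1 := rpow_le_one_of_one_le_of_nonpos he (by linarith)
  have hge : 1 - (u - 1) * M ≤ e ^ (1 - u) := by
    rw [rpow_def_of_pos he0]
    refine le_trans ?_ (add_one_le_exp _)
    have h1 : log e ≤ M := by linarith [log_le_sub_one_of_pos he0]
    nlinarith
  have hu0 : 0 < u - 1 := by linarith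
  have hkey1 : (M : ℝ)⁻¹ * (e ^ (1 - u) / (u - 1)) ≤ 1 / (M * (u - 1)) := by
    rw [one_div, mul_inv, div_eq_mul_inv]
    gcongr
    exact mul_le_of_le_one_left (by positivity) hle1
  have hkey2 : 1 / (M * (u - 1)) - 1 ≤ (M : ℝ)⁻¹ * (e ^ (1 - u) / (u - 1)) := by
    have : (M : ℝ)⁻¹ * ((1 - (u - 1) * M) / (u - 1)) ≤ (M : ℝ)⁻¹ * (e ^ (1 - u) / (u - 1)) := by gcongr
    refine le_trans (le_of_eq ?_) this
    field_simp
  rw [abs_le]
  constructor <;> linarith [show (0 : ℝ) ≤ M from hM.le]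

theorem classSum_spec (a : ZMod M) {u : ℝ} (hu : 1 < u) :
    Summable (fun c : {c : ℤ // (c : ZMod M) = a} => |(c : ℝ)| ^ (-u)) ∧
      |classSum M a u - 2 / (M * (u - 1))| ≤ 2 * (1 + M) := by
  have hM : (1 : ℝ) ≤ M := by exact_mod_cast NeZero.one_le
  set f : ℤ → ℝ := fun k => |((a.val : ℝ) + M * k)| ^ (-u)
  have hfe : (fun c : {c : ℤ // (c : ZMod M) = a} => |(c : ℝ)| ^ (-u)) ∘ progEquiv M a = f := by
    funext k
    simp [f, progEquiv]
  have hval : (a.val : ℝ) + 1 ≤ M := by exact_mod_cast ZMod.val_lt a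
  obtain ⟨hsn, hbn⟩ := progression_rpow M (e := M - a.val) (by linarith) (sub_le_self _ (Nat.cast_nonneg _)) hu
  have hneg : (fun n : ℕ => f (-((n : ℤ) + 1))) = fun n : ℕ => ((M : ℝ) - a.val + M * n) ^ (-u) := by
    funext n
    simp only [f]
    rw [abs_of_nonpos (by push_cast; nlinarith [show (0 : ℝ) ≤ n by positivity])]
    push_cast
    ring_nf
  have hpos : Summable (fun n : ℕ => f n) ∧
      |(∑' n : ℕ, f n) - 1 / (M * (u - 1))| ≤ 1 + M := by
    rcases Nat.eq_zero_or_pos a.val with h0 | h0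
    · obtain ⟨hs, hb⟩ := progression_rpow M (e := M) hM le_rfl hu
      have hsucc : (fun n : ℕ => f (n + 1 : ℕ)) = fun n : ℕ => ((M : ℝ) + M * n) ^ (-u) := by
        funext n
        simp only [f, h0]
        push_cast
        rw [abs_of_nonneg (by positivity)]
        ring_nf
      have hs' : Summable (fun n : ℕ => f n) := (summable_nat_add_iff 1).mp (hsucc ▸ hs)
      refine ⟨hs', ?_⟩
      rw [hs'.tsum_eq_zero_add, show f (0 : ℕ) = 0 by
          simp [f, h0, zero_rpow (show -u ≠ 0 by linarith)], zero_add,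
        show (∑' n : ℕ, f (n + 1 : ℕ)) = ∑' n : ℕ, ((M : ℝ) + M * n) ^ (-u) by rw [hsucc]]
      exact hb
    · obtain ⟨hs, hb⟩ := progression_rpow M (e := a.val) (by exact_mod_cast h0) (by linarith) hu
      have heq : (fun n : ℕ => f n) = fun n : ℕ => ((a.val : ℝ) + M * n) ^ (-u) := by
        funext n
        simp only [f, Int.cast_natCast]
        rw [abs_of_nonneg (by positivity)]
      exact ⟨heq ▸ hs, by rw [heq]; exact hb⟩
  rw [← hneg] at hsn hbn
  have hsum : Summable f := Summable.of_nat_of_neg_add_one hpos.1 hsn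
  refine ⟨(progEquiv M a).summable_iff.mp (hfe ▸ hsum), ?_⟩
  have : classSum M a u = ∑' k, f k := by
    rw [classSum, ← (progEquiv M a).tsum_eq, ← hfe]
    rfl
  rw [this, tsum_of_nat_of_neg_add_one hpos.1 hsn,
    show (2 : ℝ) / (M * (u - 1)) = 1 / (M * (u - 1)) + 1 / (M * (u - 1)) by ring]
  rw [show ∀ A B q : ℝ, A + B - (q + q) = (A - q) + (B - q) from fun A B q => by ring]
  refine (abs_add_le _ _).trans ?_
  linarith [hpos.2]

omit [NeZero M] in
theorem classSum_nonneg (a : ZMod M) (u : ℝ) : 0 ≤ classSum M a u :=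
  tsum_nonneg fun _ => rpow_nonneg (abs_nonneg _) _

theorem classSum_le (a : ZMod M) {u : ℝ} (hu : 2 ≤ u) : classSum M a u ≤ 2 + 2 * (1 + M) := by
  have h := (abs_le.mp (classSum_spec M a (show 1 < u by linarith)).2).2
  have hM : (1 : ℝ) ≤ M := by exact_mod_cast NeZero.one_le
  have : 2 / ((M : ℝ) * (u - 1)) ≤ 2 := div_le_self (by norm_num) (by nlinarith)
  linarith

/-- The normalised integral `∫ (1 + t²)^(-s)`. -/
def japInt (s : ℝ) : ℝ := ∫ t : ℝ, (1 + t ^ 2) ^ (-s)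

theorem integrable_jap {s : ℝ} (hs : 1 / 2 < s) :
    Integrable fun t : ℝ => (1 + t ^ 2) ^ (-s) := by
  have := integrable_rpow_neg_one_add_norm_sq (E := ℝ) (μ := volume) (r := 2 * s)
    (by simp; linarith)
  simpa [show -(2 * s) / 2 = -s by ring] using this

theorem japInt_near : ∃ C : ℝ, 0 ≤ C ∧ ∀ s : ℝ, 1 < s → s ≤ 3 / 2 →
    |japInt s - π| ≤ C * (s - 1) := by
  refine ⟨4 * ∫ t : ℝ, (1 + t ^ 2) ^ (-(3 / 4) : ℝ),
    mul_nonneg (by norm_num) (integral_nonneg fun t => rpow_nonneg (by positivity) _),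
    fun s hs hs2 => ?_⟩
  have hpi : π = japInt 1 := by
    rw [japInt, ← integral_univ_inv_one_add_sq]
    exact integral_congr_ae (.of_forall fun t => (rpow_neg_one _).symm)
  have h1 := integrable_jap (s := 1) (by norm_num)
  have h2 := integrable_jap (s := s) (by linarith)
  rw [hpi, japInt, japInt, ← integral_sub h2 h1, ← integral_const_mul, ← integral_mul_const]
  refine (abs_integral_le_integral_abs).trans (integral_mono (h2.sub h1).abs
    (((integrable_jap (by norm_num)).const_mul 4).mul_const _) fun t => ?_)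
  set w := 1 + t ^ 2 with hw
  have hw1 : 1 ≤ w := by nlinarith
  have hw0 : 0 < w := by linarith
  have hle : w ^ (-s) ≤ w ^ (-1 : ℝ) := rpow_le_rpow_of_exponent_le hw1 (by linarith)
  rw [abs_of_nonpos (by linarith), neg_sub]
  have hfac : w ^ (-s) = w ^ (-1 : ℝ) * w ^ (-(s - 1)) := by
    rw [← rpow_add hw0]; congr 1; ring
  have hexp : 1 - (s - 1) * (4 * w ^ (1 / 4 : ℝ)) ≤ w ^ (-(s - 1)) := by
    rw [rpow_def_of_pos hw0 (-(s - 1))]
    refine le_trans ?_ (add_one_le_exp _)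
    have hl : log w ≤ 4 * w ^ (1 / 4 : ℝ) :=
      (log_le_rpow_div hw0.le (by norm_num : (0 : ℝ) < 1 / 4)).trans (le_of_eq (by ring))
    nlinarith
  have hprod : w ^ (-1 : ℝ) * w ^ (1 / 4 : ℝ) = w ^ (-(3 / 4) : ℝ) := by
    rw [← rpow_add hw0]; norm_num
  rw [hfac]
  nlinarith [mul_le_mul_of_nonneg_left hexp (rpow_nonneg hw0.le (-1 : ℝ))]

theorem row_kernel {y A : ℝ} (hy : 0 < y) (hA : 0 < A) {s : ℝ} (hs : 1 / 2 < s) :
    Integrable (fun u : ℝ => (y / (u ^ 2 + A ^ 2)) ^ s) ∧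
      ∫ u : ℝ, (y / (u ^ 2 + A ^ 2)) ^ s = y ^ s * A ^ (1 - 2 * s) * japInt s := by
  have hcomp : (fun u : ℝ => (y / (u ^ 2 + A ^ 2)) ^ s) =
      fun u => y ^ s * A ^ (-(2 * s)) * (fun t : ℝ => (1 + t ^ 2) ^ (-s)) (A⁻¹ * u) := by
    funext u
    have hA2 : A ^ (-(2 * s)) = (A ^ 2) ^ (-s) := by
      rw [← rpow_natCast, ← rpow_mul hA.le]; congr 1; push_cast; ring
    simp only
    rw [div_rpow hy.le (by positivity), hA2, mul_assoc,
      ← mul_rpow (sq_nonneg A) (by positivity), rpow_neg (by positivity), div_eq_mul_inv]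
    congr 3
    field_simp
    ring
  rw [hcomp]
  refine ⟨((integrable_jap hs).comp_mul_left' (inv_ne_zero hA.ne')).const_mul _, ?_⟩
  rw [integral_const_mul, Measure.integral_comp_inv_mul_left (fun t : ℝ => (1 + t ^ 2) ^ (-s)) A,
    abs_of_pos hA, smul_eq_mul, japInt,
    show (1 - 2 * s) = 1 + -(2 * s) by ring, rpow_add hA, rpow_one]
  ring

/-- The Eisenstein series of a residue class at real `s`. -/
def eisSum (a b : ZMod M) (s : ℝ) (τ : ℍ) : ℝ :=
  ∑' v : {c : ℤ // (c : ZMod M) = a} × {d : ℤ // (d : ZMod M) = b},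
    (τ.im / Complex.normSq ((v.1 : ℤ) * (τ : ℂ) + (v.2 : ℤ))) ^ s

theorem eis_row (b : ZMod M) (c : ℤ) {s : ℝ} (hs : 1 < s) (τ : ℍ) :
    Summable (fun d : {d : ℤ // (d : ZMod M) = b} =>
        (τ.im / Complex.normSq ((c : ℂ) * (τ : ℂ) + ((d : ℤ) : ℂ))) ^ s) ∧
      |(∑' d : {d : ℤ // (d : ZMod M) = b},
          (τ.im / Complex.normSq ((c : ℂ) * (τ : ℂ) + ((d : ℤ) : ℂ))) ^ s) -
        (M : ℝ)⁻¹ * japInt s * τ.im ^ (1 - s) * |(c : ℝ)| ^ (1 - 2 * s)| ≤
      2 * τ.im ^ (-s) * |(c : ℝ)| ^ (-(2 * s)) +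
        (if c = 0 then τ.im ^ s * classSum M b (2 * s) else 0) := by
  have hy := τ.im_pos
  have hM : (0 : ℝ) < M := by exact_mod_cast NeZero.pos M
  have hns : ∀ d : ℤ, Complex.normSq ((c : ℂ) * (τ : ℂ) + (d : ℂ)) =
      ((c : ℝ) * τ.re + d) ^ 2 + (|(c : ℝ)| * τ.im) ^ 2 := by
    intro d
    simp [Complex.normSq_apply, mul_pow, sq_abs]
    ring
  simp only [hns]
  rcases eq_or_ne c 0 with rfl | hc
  · have hterm : ∀ d : {d : ℤ // (d : ZMod M) = b},
        (τ.im / ((((0 : ℤ) : ℝ)) * τ.re + (d : ℤ)) ^ 2 + 0) ^ s = (τ.im / ((d : ℤ) : ℝ) ^ 2) ^ s := by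
      simp
    have hterm' : ∀ d : ℤ, (τ.im / (d : ℝ) ^ 2) ^ s = τ.im ^ s * |(d : ℝ)| ^ (-(2 * s)) := by
      intro d
      rw [div_rpow hy.le (sq_nonneg _), rpow_neg (abs_nonneg _), ← sq_abs, ← rpow_natCast,
        ← rpow_mul (abs_nonneg _), div_eq_mul_inv]
      norm_num
    simp only [Int.cast_zero, zero_mul, abs_zero, zero_pow two_ne_zero, zero_add, add_zero, hterm',
      if_true, zero_rpow (show 1 - 2 * s ≠ 0 by linarith),
      zero_rpow (show -(2 * s) ≠ 0 by linarith), mul_zero, sub_zero]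
    refine ⟨(classSum_spec M b (by linarith)).1.mul_left _, ?_⟩
    rw [tsum_mul_left, ← classSum, abs_of_nonneg (mul_nonneg (rpow_nonneg hy.le _)
      (classSum_nonneg M b _))]
  · have hA : 0 < |(c : ℝ)| * τ.im := mul_pos (abs_pos.mpr (by exact_mod_cast hc)) hy
    set A := |(c : ℝ)| * τ.im with hAdef
    obtain ⟨hint, hval⟩ := row_kernel hy hA (show 1 / 2 < s by linarith)
    obtain ⟨hsum, hb⟩ := fullProgression (g := fun u : ℝ => (τ.im / (u ^ 2 + A ^ 2)) ^ s)
      (fun p (hp : 0 ≤ p) q (hq : 0 ≤ q) hpq => by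
        apply rpow_le_rpow (by positivity) ?_ (by linarith)
        gcongr)
      hint.integrableOn (fun t => rpow_nonneg (by positivity) _) (fun t => by simp) hM
      ((c : ℝ) * τ.re + b.val)
    have hfe : (fun d : {d : ℤ // (d : ZMod M) = b} =>
        (τ.im / (((c : ℝ) * τ.re + (d : ℤ)) ^ 2 + A ^ 2)) ^ s) ∘ progEquiv M b =
        fun k : ℤ => (τ.im / (((c : ℝ) * τ.re + b.val + M * k) ^ 2 + A ^ 2)) ^ s := by
      funext k
      simp [progEquiv, add_assoc]
    refine ⟨(progEquiv M b).summable_iff.mp (hfe ▸ hsum), ?_⟩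
    rw [if_neg hc, add_zero, ← (progEquiv M b).tsum_eq]
    rw [show (∑' k, (τ.im / (((c : ℝ) * τ.re + ((progEquiv M b k : ℤ) : ℝ)) ^ 2 + A ^ 2)) ^ s) =
      ∑' k : ℤ, (τ.im / (((c : ℝ) * τ.re + b.val + M * k) ^ 2 + A ^ 2)) ^ s from
        congrArg tsum hfe]
    have hmain : (M : ℝ)⁻¹ * ∫ t, (τ.im / (t ^ 2 + A ^ 2)) ^ s =
        (M : ℝ)⁻¹ * japInt s * τ.im ^ (1 - s) * |(c : ℝ)| ^ (1 - 2 * s) := by
      rw [hval, hAdef, mul_rpow (abs_nonneg _) hy.le,
        show τ.im ^ (1 - s) = τ.im ^ s * τ.im ^ (1 - 2 * s) by rw [← rpow_add hy]; congr 1; ring]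
      ring
    have hzero : 2 * (τ.im / ((0 : ℝ) ^ 2 + A ^ 2)) ^ s =
        2 * τ.im ^ (-s) * |(c : ℝ)| ^ (-(2 * s)) := by
      rw [zero_pow two_ne_zero, zero_add, div_rpow hy.le (sq_nonneg _), ← rpow_natCast A 2,
        ← rpow_mul hA.le, div_eq_mul_inv, ← rpow_neg hA.le, hAdef, mul_rpow (abs_nonneg _) hy.le,
        show τ.im ^ (-s) = τ.im ^ s * τ.im ^ (-(2 * s)) by rw [← rpow_add hy]; congr 1; ring]
      push_cast
      ring
    rw [← hmain, ← hzero]
    exact hb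

theorem rpow_one_sub_near {y s : ℝ} (hy : 4 / 5 ≤ y) (hs : 1 < s) (hs2 : s ≤ 3 / 2) :
    |y ^ (1 - s) - 1| ≤ (s - 1) * (2 * y) := by
  have hy0 : 0 < y := by linarith
  rw [rpow_def_of_pos hy0]
  rcases le_total 1 y with h | h
  · have hl : 0 ≤ log y := log_nonneg h
    have hl' : log y ≤ y := by linarith [log_le_sub_one_of_pos hy0]
    have hexp : exp (log y * (1 - s)) ≤ 1 := exp_le_one_iff.mpr (by nlinarith)
    rw [abs_of_nonpos (by linarith)]
    nlinarith [add_one_le_exp (log y * (1 - s))]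
  · have hl : log y ≤ 0 := log_nonpos hy0.le h
    have hl' : -log y ≤ 1 / 4 := by
      have h1 := log_le_sub_one_of_pos (inv_pos.mpr hy0)
      rw [log_inv] at h1
      have : y⁻¹ ≤ 5 / 4 := by rw [inv_le_comm₀ hy0 (by norm_num)]; linarith
      linarith
    have hx : |log y * (1 - s)| ≤ 1 := by
      rw [abs_of_nonneg (by nlinarith)]; nlinarith
    refine (abs_exp_sub_one_le hx).trans ?_
    rw [abs_of_nonneg (by nlinarith)]
    nlinarith

theorem main_bound {CJ L N J p Z y x : ℝ} (hN : 1 ≤ N) (hx : 0 < x) (hx2 : x ≤ 1 / 2)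
    (hy : 4 / 5 ≤ y) (hCJ0 : 0 ≤ CJ) (hL0 : 0 ≤ L) (hJ : |J - π| ≤ CJ * x) (hp0 : 0 ≤ p)
    (hp : |p - 1| ≤ x * (2 * y)) (hη : |Z - 2 / (N * (2 * x))| ≤ L) :
    |N⁻¹ * J * p * Z - π / (N ^ 2 * x)| ≤ (4 * (CJ + 4 * π) + (π + CJ) * 4 * L) * y ^ 2 := by
  have hπ : 0 < π := pi_pos
  have hN0 : 0 < N := by linarith
  have hdec : N⁻¹ * J * p * Z - π / (N ^ 2 * x) =
      (N ^ 2 * x)⁻¹ * (J * p - π) + N⁻¹ * (J * p) * (Z - 2 / (N * (2 * x))) := by
    field_simp
    ring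
  have hy1 : p ≤ 4 * y ^ 2 := by nlinarith [abs_le.mp hp]
  have hJp : |J * p - π| ≤ x * (4 * (CJ + 4 * π) * y ^ 2) := by
    rw [show J * p - π = (J - π) * p + π * (p - 1) by ring]
    refine (abs_add_le _ _).trans ?_
    rw [abs_mul, abs_mul, abs_of_pos hπ, abs_of_nonneg hp0]
    have h5 := mul_le_mul hJ hy1 hp0 (by positivity)
    have h6 := mul_le_mul_of_nonneg_left hp hπ.le
    have h7 : 0 ≤ π * x := by positivity
    nlinarith [mul_le_mul_of_nonneg_left (show y ≤ 2 * y ^ 2 by nlinarith) h7]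
  have hJabs : |J * p| ≤ (π + CJ) * 4 * y ^ 2 := by
    rw [abs_mul, abs_of_nonneg hp0]
    have hj : |J| ≤ π + CJ := by
      have h1 := abs_sub_abs_le_abs_sub J π
      rw [abs_of_pos hπ] at h1
      have h2 : CJ * x ≤ CJ * 1 := mul_le_mul_of_nonneg_left (by linarith) hCJ0
      linarith
    have := mul_le_mul hj hy1 hp0 (by positivity)
    linarith
  rw [hdec]
  refine (abs_add_le _ _).trans ?_
  rw [abs_mul, abs_mul, abs_mul N⁻¹, abs_of_nonneg (show 0 ≤ N⁻¹ by positivity),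
    abs_of_nonneg (show 0 ≤ (N ^ 2 * x)⁻¹ by positivity)]
  have e1 : (N ^ 2 * x)⁻¹ * |J * p - π| ≤ 4 * (CJ + 4 * π) * y ^ 2 := by
    rw [inv_mul_le_iff₀ (by positivity)]
    refine hJp.trans ?_
    rw [mul_assoc (N ^ 2)]
    exact le_mul_of_one_le_left (by positivity) (by nlinarith)
  have e2 : N⁻¹ * |J * p| * |Z - 2 / (N * (2 * x))| ≤ (π + CJ) * 4 * y ^ 2 * L :=
    mul_le_mul ((mul_le_of_le_one_left (abs_nonneg _) (inv_le_one_of_one_le₀ hN)).trans hJabs) hη
      (abs_nonneg _) (by positivity)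
  linarith

/-- The elementary estimate for the Eisenstein series of a residue class. -/
theorem eisSum_estimate : ∃ C : ℝ, 0 ≤ C ∧ ∀ (a b : ZMod M) (s : ℝ) (τ : ℍ),
    1 < s → s ≤ 3 / 2 → 4 / 5 ≤ τ.im →
      Summable (fun v : {c : ℤ // (c : ZMod M) = a} × {d : ℤ // (d : ZMod M) = b} =>
        (τ.im / Complex.normSq ((v.1 : ℤ) * (τ : ℂ) + (v.2 : ℤ))) ^ s) ∧
      |eisSum M a b s τ - π / (M ^ 2 * (s - 1))| ≤ C * τ.im ^ 2 := by
  classical
  obtain ⟨CJ, hCJ0, hCJ⟩ := japInt_near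
  set L : ℝ := 2 * (1 + M) with hL
  have hM : (1 : ℝ) ≤ M := by exact_mod_cast NeZero.one_le
  have hπ : 0 < π := pi_pos
  refine ⟨2 * (2 + L) * 3 + 2 * (2 + L) + 4 * (CJ + 4 * π) + (π + CJ) * 4 * L, by positivity,
    fun a b s τ hs hs2 hy => ?_⟩
  set y := τ.im
  have hy0 : 0 < y := by linarith
  set F : {c : ℤ // (c : ZMod M) = a} × {d : ℤ // (d : ZMod M) = b} → ℝ := fun v =>
    (τ.im / Complex.normSq ((v.1 : ℤ) * (τ : ℂ) + (v.2 : ℤ))) ^ s with hF
  set main : {c : ℤ // (c : ZMod M) = a} → ℝ := fun c =>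
    (M : ℝ)⁻¹ * japInt s * y ^ (1 - s) * |((c : ℤ) : ℝ)| ^ (1 - 2 * s) with hmain
  set err : {c : ℤ // (c : ZMod M) = a} → ℝ := fun c =>
    2 * y ^ (-s) * |((c : ℤ) : ℝ)| ^ (-(2 * s)) +
      (if (c : ℤ) = 0 then y ^ s * classSum M b (2 * s) else 0) with herr
  have hrow : ∀ c, Summable (fun d => F (c, d)) ∧ |(∑' d, F (c, d)) - main c| ≤ err c :=
    fun c => eis_row M b c hs τ
  have hspec1 := classSum_spec M a (show 1 < 2 * s - 1 by linarith)
  have hspec2 := classSum_spec M a (show 1 < 2 * s by linarith)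
  have hmain_sum : Summable main := by
    refine (hspec1.1.mul_left ((M : ℝ)⁻¹ * japInt s * y ^ (1 - s))).congr fun c => ?_
    simp only [hmain, neg_sub]
  have hif : Summable (fun c : {c : ℤ // (c : ZMod M) = a} =>
      if (c : ℤ) = 0 then y ^ s * classSum M b (2 * s) else 0) ∧
      (∑' c : {c : ℤ // (c : ZMod M) = a},
        if (c : ℤ) = 0 then y ^ s * classSum M b (2 * s) else 0) ≤ y ^ s * classSum M b (2 * s) := by
    have hsub : {c : {c : ℤ // (c : ZMod M) = a} | (c : ℤ) = 0}.Subsingleton :=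
      fun p hp q hq => Subtype.ext (hp.trans hq.symm)
    by_cases h : ∃ c : {c : ℤ // (c : ZMod M) = a}, (c : ℤ) = 0
    · obtain ⟨c₀, hc₀⟩ := h
      have hne : ∀ c, c ≠ c₀ → (if (c : ℤ) = 0 then y ^ s * classSum M b (2 * s) else 0) = 0 :=
        fun c hc => if_neg fun h0 => hc (hsub h0 hc₀)
      exact ⟨summable_of_ne_finset_zero (s := {c₀}) fun c hc => hne c (by simpa using hc),
        le_of_eq ((tsum_eq_single c₀ hne).trans (if_pos hc₀))⟩
    · push Not at h
      simp only [h, if_false, tsum_zero, summable_zero, true_and]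
      exact mul_nonneg (rpow_nonneg hy0.le _) (classSum_nonneg M b _)
  have herr_sum : Summable err := (hspec2.1.mul_left _).add hif.1
  have hF0 : 0 ≤ F := fun v => rpow_nonneg (div_nonneg hy0.le (Complex.normSq_nonneg _)) _
  have hR : Summable fun c => ∑' d, F (c, d) := by
    refine Summable.of_norm_bounded (hmain_sum.abs.add herr_sum) fun c => ?_
    rw [Real.norm_eq_abs]
    linarith [abs_sub_abs_le_abs_sub (∑' d, F (c, d)) (main c), (hrow c).2]
  have hFs : Summable F := (summable_prod_of_nonneg hF0).mpr ⟨fun c => (hrow c).1, hR⟩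
  refine ⟨hFs, ?_⟩
  have hdiff : |eisSum M a b s τ - ∑' c, main c| ≤ ∑' c, err c := by
    show |(∑' v, F v) - _| ≤ _
    rw [hFs.tsum_prod' fun c => (hrow c).1, ← hR.tsum_sub hmain_sum, ← Real.norm_eq_abs]
    exact tsum_of_norm_bounded herr_sum.hasSum fun c => (hrow c).2
  have hys : y ^ s ≤ 2 * y ^ 2 := by
    rcases le_total 1 y with h | h
    · calc y ^ s ≤ y ^ (2 : ℝ) := rpow_le_rpow_of_exponent_le h (by linarith)
        _ ≤ 2 * y ^ 2 := by rw [rpow_two]; nlinarith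
    · exact (rpow_le_one hy0.le h (by linarith)).trans (by nlinarith)
  have hyneg : y ^ (-s) ≤ 3 * y ^ 2 := by
    rcases le_total 1 y with h | h
    · exact (rpow_le_one_of_one_le_of_nonpos h (by linarith)).trans (by nlinarith)
    · calc y ^ (-s) ≤ y ^ (-2 : ℝ) := rpow_le_rpow_of_exponent_ge hy0 h (by linarith)
        _ ≤ 3 * y ^ 2 := by
          rw [rpow_neg hy0.le, rpow_two, inv_le_iff_one_le_mul₀ (by positivity)]
          nlinarith [sq_nonneg (y - 4 / 5), show (0.64 : ℝ) ≤ y ^ 2 by nlinarith]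
  have herr_le : ∑' c, err c ≤ (2 * (2 + L) * 3 + 2 * (2 + L)) * y ^ 2 := by
    have hsum2 : ∑' c : {c : ℤ // (c : ZMod M) = a}, 2 * y ^ (-s) * |((c : ℤ) : ℝ)| ^ (-(2 * s)) =
        2 * y ^ (-s) * classSum M a (2 * s) := tsum_mul_left
    rw [herr, Summable.tsum_add (hspec2.1.mul_left _) hif.1, hsum2]
    have h1 := classSum_le M a (show 2 ≤ 2 * s by linarith)
    have h2 := classSum_le M b (show 2 ≤ 2 * s by linarith)
    have h3 := mul_le_mul hyneg h1 (classSum_nonneg M a _) (by positivity)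
    have h4 := mul_le_mul hys h2 (classSum_nonneg M b _) (by positivity)
    nlinarith [hif.2]
  have hmain_le : |(∑' c, main c) - π / (M ^ 2 * (s - 1))| ≤
      (4 * (CJ + 4 * π) + (π + CJ) * 4 * L) * y ^ 2 := by
    have : ∑' c, main c = (M : ℝ)⁻¹ * japInt s * y ^ (1 - s) * classSum M a (2 * s - 1) := by
      rw [classSum, ← tsum_mul_left]
      refine tsum_congr fun c => ?_
      simp only [hmain, neg_sub]
    rw [this]
    refine main_bound hM (by linarith) (by linarith) hy hCJ0 (by positivity) (hCJ s hs hs2)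
      (rpow_nonneg hy0.le _) (rpow_one_sub_near hy hs hs2) ?_
    rw [show 2 * (s - 1) = 2 * s - 1 - 1 by ring]
    exact hspec1.2
  calc |eisSum M a b s τ - π / (M ^ 2 * (s - 1))|
      ≤ |eisSum M a b s τ - ∑' c, main c| + |(∑' c, main c) - π / (M ^ 2 * (s - 1))| :=
        abs_sub_le _ _ _
    _ ≤ _ := by linarith

end Fermat.Agent.LT.Asai

end
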