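import Fermat.Agent.LT.Theta.Bessel
import Mathlib.Analysis.SpecialFunctions.Gamma.Basic
import Mathlib.MeasureTheory.Integral.DominatedConvergence
import Mathlib.MeasureTheory.Integral.IntegralEqImproper
import Mathlib.MeasureTheory.Constructions.BorelSpace.Order

/-!
# The Mellin transform of a series of `K₀`
-/

set_option autoImplicit false

noncomputable section

namespace Fermat.Agent.LT.Asai

open MeasureTheory Set Real
open Theta (besselK0 besselK0_le besselK0_nonneg antitoneOn_besselK0 besselK0_pos)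
open scoped ENNReal

/-- `∫ t ^ (s-1) K₀(t)`. -/
def kappa (s : ℝ) : ℝ := ∫ t in Ioi (0 : ℝ), t ^ (s - 1) * besselK0 t

theorem aestronglyMeasurable_besselK0 :
    AEStronglyMeasurable besselK0 (volume.restrict (Ioi (0 : ℝ))) :=
  (aemeasurable_restrict_of_antitoneOn measurableSet_Ioi antitoneOn_besselK0).aestronglyMeasurable

theorem integrableOn_kappa {s : ℝ} (hs : 1 / 2 < s) :
    IntegrableOn (fun t : ℝ => t ^ (s - 1) * besselK0 t) (Ioi 0) := by
  have hdom : IntegrableOn (fun t : ℝ => √(π / 2) * (exp (-t) * t ^ (s - 1 / 2 - 1))) (Ioi 0) :=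
    (GammaIntegral_convergent (s := s - 1 / 2) (by linarith)).const_mul _
  refine hdom.mono' ((measurable_id.pow_const _).aestronglyMeasurable.mul
    aestronglyMeasurable_besselK0) ?_
  filter_upwards [ae_restrict_mem measurableSet_Ioi] with t (ht : 0 < t)
  rw [norm_of_nonneg (mul_nonneg (rpow_nonneg ht.le _) (besselK0_nonneg _))]
  refine (mul_le_mul_of_nonneg_left (besselK0_le ht) (rpow_nonneg ht.le _)).trans (le_of_eq ?_)
  rw [show π / (2 * t) = π / 2 / t by field_simp, Real.sqrt_div' _ ht.le, Real.sqrt_eq_rpow t,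
    show s - 1 / 2 - 1 = (s - 1) + -(1 / 2 : ℝ) by ring, rpow_add ht, rpow_neg ht.le]
  ring

theorem besselK0_two_le_kappa {s : ℝ} (hs : 1 ≤ s) : besselK0 2 ≤ kappa s := by
  have hint := integrableOn_kappa (show 1 / 2 < s by linarith)
  refine le_trans ?_ (setIntegral_mono_set hint ?_
    (Ioc_subset_Ioi_self.trans (Ioi_subset_Ioi zero_le_one)).eventuallyLE (s := Ioc 1 2))
  · calc besselK0 2 = ∫ _ in Ioc (1 : ℝ) 2, besselK0 2 := by norm_num
      _ ≤ _ := by
        refine setIntegral_mono_on (integrableOn_const (by simp))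
          (hint.mono_set (Ioc_subset_Ioi_self.trans (Ioi_subset_Ioi zero_le_one))) measurableSet_Ioc
          fun t ht => ?_
        calc besselK0 2 ≤ besselK0 t :=
              antitoneOn_besselK0 (show (0 : ℝ) < t by linarith [ht.1]) (show (0 : ℝ) < 2 by norm_num)
                ht.2
          _ ≤ t ^ (s - 1) * besselK0 t := le_mul_of_one_le_left (besselK0_nonneg _)
              (one_le_rpow ht.1.le (by linarith))
  · filter_upwards [ae_restrict_mem measurableSet_Ioi] with t (ht : 0 < t)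
    exact mul_nonneg (rpow_nonneg ht.le _) (besselK0_nonneg _)

theorem kappa_term {s a : ℝ} (hs : 1 / 2 < s) (ha : 0 < a) :
    IntegrableOn (fun y : ℝ => y ^ (s - 1) * besselK0 (a * y)) (Ioi 0) ∧
      ∫ y in Ioi (0 : ℝ), y ^ (s - 1) * besselK0 (a * y) = a ^ (-s) * kappa s := by
  have he : EqOn (fun y : ℝ => a ^ (1 - s) * ((fun t => t ^ (s - 1) * besselK0 t) (a * y)))
      (fun y : ℝ => y ^ (s - 1) * besselK0 (a * y)) (Ioi 0) := fun y (hy : 0 < y) => by
    simp only
    rw [mul_rpow ha.le hy.le, show 1 - s = -(s - 1) by ring, rpow_neg ha.le]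
    field_simp [(rpow_pos_of_pos ha (s - 1)).ne']
  have hi := (integrableOn_Ioi_comp_mul_left_iff (fun t => t ^ (s - 1) * besselK0 t) 0 ha).mpr
    (by simpa using integrableOn_kappa hs)
  refine ⟨IntegrableOn.congr_fun (Integrable.const_mul hi (a ^ (1 - s))) he measurableSet_Ioi, ?_⟩
  rw [← setIntegral_congr_fun measurableSet_Ioi he, integral_const_mul,
    integral_comp_mul_left_Ioi (fun t => t ^ (s - 1) * besselK0 t) 0 ha, mul_zero, smul_eq_mul,
    kappa, ← mul_assoc, show -s = (1 - s) + -1 by ring, rpow_add ha, rpow_neg_one]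

theorem mellin_besselSeries {a s : ℝ} (ha : 0 < a) (hs : 1 ≤ s) {c : ℕ → ℂ} (hc0 : c 0 = 0)
    (hc : Summable fun m : ℕ => ‖c m‖ * (m : ℝ) ^ (-s)) :
    ∫ y in Ioi (0 : ℝ), ∑' m : ℕ, c m * ((y ^ (s - 1) * besselK0 (a * m * y) : ℝ) : ℂ) =
      ((a ^ (-s) * kappa s : ℝ) : ℂ) * ∑' m : ℕ, c m * (((m : ℝ) ^ (-s) : ℝ) : ℂ) := by
  set F : ℕ → ℝ → ℂ := fun m y => c m * ((y ^ (s - 1) * besselK0 (a * m * y) : ℝ) : ℂ) with hF
  have hterm : ∀ m : ℕ, Integrable (F m) (volume.restrict (Ioi 0)) ∧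
      ∫ y in Ioi (0 : ℝ), F m y = ((a ^ (-s) * kappa s : ℝ) : ℂ) * (c m * (((m : ℝ) ^ (-s) : ℝ) : ℂ)) ∧
      ∫ y in Ioi (0 : ℝ), ‖F m y‖ = (a ^ (-s) * kappa s) * (‖c m‖ * (m : ℝ) ^ (-s)) := by
    intro m
    rcases Nat.eq_zero_or_pos m with rfl | hm
    · simp [hF, hc0]
    have ham : 0 < a * m := mul_pos ha (by exact_mod_cast hm)
    obtain ⟨hi, hv⟩ := kappa_term (show 1 / 2 < s by linarith) ham
    rw [mul_rpow ha.le (Nat.cast_nonneg _)] at hv
    refine ⟨Integrable.const_mul (Integrable.ofReal hi) (c m), ?_, ?_⟩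
    · rw [hF, integral_const_mul, integral_complex_ofReal, hv]
      push_cast
      ring
    · rw [show (∫ y in Ioi (0 : ℝ), ‖F m y‖) =
          ∫ y in Ioi (0 : ℝ), ‖c m‖ * (y ^ (s - 1) * besselK0 (a * m * y)) from
        setIntegral_congr_fun measurableSet_Ioi fun y (hy : 0 < y) => by
          rw [hF, norm_mul, Complex.norm_real,
            norm_of_nonneg (mul_nonneg (rpow_nonneg hy.le _) (besselK0_nonneg _))],
        integral_const_mul, hv]
      ring
  rw [← tsum_mul_left, ← tsum_congr fun m => (hterm m).2.1]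
  refine (integral_tsum_of_summable_integral_norm (fun m => (hterm m).1) ?_).symm
  exact (hc.mul_left (a ^ (-s) * kappa s)).congr fun m => ((hterm m).2.2).symm

end Fermat.Agent.LT.Asai

end
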