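import Fermat.Agent.LT.Asai.PlanePeriod
import Fermat.Agent.LT.Asai.Mellin
import Fermat.Agent.LT.Whittaker.Defs
import Fermat.Agent.LT.Whittaker.Lattice

/-!
# Whittaker expansions on the real plane

Decay at the cusp and the horizontal mean: only the frequencies of trace `0` survive.
-/

set_option autoImplicit false

noncomputable section

namespace Fermat.Agent.LT.Asai

open MeasureTheory Set NumberField UpperHalfPlane
open Fermat.Agent.LT.Adelic
open Theta (besselK0)
open scoped Real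

variable {K : Type*} [Field K] [NumberField K] (Φ : Frame K Unit) {f : HSpace → ℂ} {c : K → ℂ}

/-- `f` has the expansion `c`, whose frequencies are bounded below by `ε`. -/
structure HasPlaneExpansion (f : HSpace → ℂ) (c : K → ℂ) : Prop where
  hasSum : ∀ p : HSpace, HasSum (fun α => c α * whit Φ α fun _ => p) (f p)
  lower : ∃ ε : ℝ, 0 < ε ∧ ∀ α, c α ≠ 0 → ε ≤ ‖Φ.emb () α‖

theorem whit_plane (α : K) (x y : ℝ) (hy : 0 < y) :
    whit Φ α (fun _ => (⟨(x : ℂ), y, hy⟩ : HSpace)) =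
      ((y * besselK0 (4 * π * ‖Φ.emb () α‖ * y) : ℝ) : ℂ) *
        Poisson.eC (((Algebra.trace ℚ K α : ℚ) : ℝ) * x) := by
  rw [whit, whitHeight, whitPhase, Φ.trace_eq α]
  simp only [Finset.univ_unique, Finset.prod_singleton, Finset.sum_singleton, Complex.mul_re,
    Complex.ofReal_re, Complex.ofReal_im, mul_zero, sub_zero]
  rw [mul_assoc (2 : ℝ)]

variable {Φ}

theorem HasPlaneExpansion.summable (h : HasPlaneExpansion Φ f c) {y : ℝ} (hy : 0 < y) :
    Summable fun α => ‖c α‖ * (y * besselK0 (4 * π * ‖Φ.emb () α‖ * y)) := by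
  have hs := (h.hasSum ⟨((0 : ℝ) : ℂ), y, hy⟩).summable.norm
  refine hs.congr fun α => ?_
  rw [norm_mul, whit_plane Φ α 0 y hy, norm_mul, norm_eC, mul_one, Complex.norm_real,
    Real.norm_of_nonneg (mul_nonneg hy.le (Theta.besselK0_nonneg _))]

theorem besselK0_mul_le {A y : ℝ} (hA : 0 < A) (hy : 1 ≤ y) :
    besselK0 (A * y) ≤ Real.exp (-(A * (y - 1))) * besselK0 A := by
  rw [besselK0, besselK0, ← integral_const_mul]
  refine setIntegral_mono_on (Theta.integrable_exp_neg_mul_cosh (by positivity)).integrableOn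
    ((Theta.integrable_exp_neg_mul_cosh hA).const_mul _).integrableOn measurableSet_Ioi
    fun t _ => ?_
  rw [← Real.exp_add]
  gcongr
  nlinarith [mul_le_mul_of_nonneg_left (Real.one_le_cosh t)
    (mul_nonneg hA.le (sub_nonneg.2 hy))]

/-- The expansion forces decay at the cusp. -/
theorem HasPlaneExpansion.exists_decay (h : HasPlaneExpansion Φ f c) :
    ∃ C : ℝ, ∀ τ : ℍ, 1 ≤ τ.im → ‖f (planePoint τ)‖ * τ.im ^ 2 ≤ C := by
  obtain ⟨ε, hε, hlow⟩ := h.lower
  set a := 4 * π * ε with ha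
  have ha0 : 0 < a := by positivity
  refine ⟨(6 / a ^ 3 * Real.exp a) * ∑' α, ‖c α‖ * besselK0 (4 * π * ‖Φ.emb () α‖), fun τ hy => ?_⟩
  set y := τ.im
  have hy0 : 0 < y := τ.im_pos
  have hs := h.summable hy0
  have hterm : ∀ α, ‖c α * whit Φ α fun _ => planePoint τ‖ =
      ‖c α‖ * (y * besselK0 (4 * π * ‖Φ.emb () α‖ * y)) := fun α => by
    rw [norm_mul, planePoint, whit_plane Φ α τ.re y τ.im_pos, norm_mul, norm_eC, mul_one,
      Complex.norm_real, Real.norm_of_nonneg (mul_nonneg hy0.le (Theta.besselK0_nonneg _))]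
  have h1 : ‖f (planePoint τ)‖ ≤ ∑' α, ‖c α‖ * (y * besselK0 (4 * π * ‖Φ.emb () α‖ * y)) := by
    rw [← (h.hasSum (planePoint τ)).tsum_eq]
    refine (norm_tsum_le_tsum_norm ?_).trans (le_of_eq (tsum_congr hterm))
    exact hs.congr fun α => (hterm α).symm
  have hs1 : Summable fun α => ‖c α‖ * besselK0 (4 * π * ‖Φ.emb () α‖) := by
    simpa using h.summable one_pos
  refine (mul_le_mul_of_nonneg_right h1 (sq_nonneg y)).trans ?_
  rw [← tsum_mul_right, ← tsum_mul_left]
  refine (hs.mul_right _).tsum_le_tsum (fun α => ?_) (hs1.mul_left _)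
  rcases eq_or_ne (c α) 0 with h0 | h0
  · simp [h0]
  set A := 4 * π * ‖Φ.emb () α‖ with hA
  have hAa : a ≤ A := by
    rw [ha, hA]; gcongr; exact hlow α h0
  have hk := besselK0_mul_le (ha0.trans_le hAa) hy
  have hexp : y ^ 3 * Real.exp (-(A * (y - 1))) ≤ 6 / a ^ 3 * Real.exp a := by
    have h2 : Real.exp (-(A * (y - 1))) ≤ Real.exp a * Real.exp (-(a * y)) := by
      rw [← Real.exp_add]
      gcongr
      nlinarith [mul_le_mul_of_nonneg_right hAa (sub_nonneg.2 hy)]
    have h3 : (a * y) ^ 3 / 6 ≤ Real.exp (a * y) := by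
      simpa [Nat.factorial] using Real.pow_div_factorial_le_exp (x := a * y) (by positivity) 3
    refine (mul_le_mul_of_nonneg_left h2 (by positivity)).trans ?_
    rw [Real.exp_neg, div_mul_eq_mul_div, le_div_iff₀ (by positivity)]
    rw [show y ^ 3 * (Real.exp a * (Real.exp (a * y))⁻¹) * a ^ 3 =
      Real.exp a * ((a * y) ^ 3 / Real.exp (a * y)) by ring, mul_comm (6 : ℝ)]
    gcongr
    rw [div_le_iff₀ (Real.exp_pos _)]
    linarith
  calc ‖c α‖ * (y * besselK0 (A * y)) * y ^ 2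
      ≤ ‖c α‖ * (y * (Real.exp (-(A * (y - 1))) * besselK0 A)) * y ^ 2 := by gcongr
    _ = y ^ 3 * Real.exp (-(A * (y - 1))) * (‖c α‖ * besselK0 A) := by ring
    _ ≤ 6 / a ^ 3 * Real.exp a * (‖c α‖ * besselK0 A) :=
      mul_le_mul_of_nonneg_right hexp (mul_nonneg (norm_nonneg _) (Theta.besselK0_nonneg _))

theorem integral_eC_Ico {L : ℕ} {t : ℝ} {m : ℤ} (hm : (L : ℝ) * t = m) :
    ∫ x in Ico (0 : ℝ) L, Poisson.eC (t * x) = if t = 0 then (L : ℂ) else 0 := by
  split_ifs with ht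
  · simp [ht, Poisson.eC_zero, Measure.real]
  · rw [integral_Ico_eq_integral_Ioc, ← intervalIntegral.integral_of_le (Nat.cast_nonneg L)]
    have hc : (2 : ℂ) * π * Complex.I * t ≠ 0 := by
      simp [Real.pi_ne_zero, Complex.I_ne_zero, ht]
    simp only [Poisson.eC, Complex.ofReal_mul, ← mul_assoc]
    rw [integral_exp_mul_complex hc]
    have h1 : Complex.exp (2 * π * Complex.I * t * ((L : ℝ) : ℂ)) = 1 := by
      rw [Complex.exp_eq_one_iff]
      refine ⟨m, ?_⟩
      have : ((L : ℝ) : ℂ) * (t : ℂ) = ((m : ℝ) : ℂ) := by exact_mod_cast congrArg Complex.ofReal hm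
      push_cast at this ⊢
      linear_combination (2 * (π : ℂ) * Complex.I) * this
    rw [h1, Complex.ofReal_zero, mul_zero, Complex.exp_zero, sub_self, zero_div]

open scoped Classical in
/-- The horizontal mean. -/
theorem HasPlaneExpansion.integral_horizontal (h : HasPlaneExpansion Φ f c) {L : ℕ}
    (htr : ∀ α, c α ≠ 0 → ∃ m : ℤ, (L : ℚ) * Algebra.trace ℚ K α = m) {y : ℝ} (hy : 0 < y) :
    ∫ x in Ico (0 : ℝ) L, planeFn f ⟨x, y⟩ =
      (L : ℂ) * ∑' α : K, if Algebra.trace ℚ K α = 0 then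
        c α * ((y * besselK0 (4 * π * ‖Φ.emb () α‖ * y) : ℝ) : ℂ) else 0 := by
  have : Countable K := (Module.finBasis ℚ K).equivFun.injective.countable
  set g : K → ℝ → ℂ := fun α x => c α * (((y * besselK0 (4 * π * ‖Φ.emb () α‖ * y) : ℝ) : ℂ) *
    Poisson.eC (((Algebra.trace ℚ K α : ℚ) : ℝ) * x)) with hg
  have hfn : ∀ x : ℝ, planeFn f ⟨x, y⟩ = ∑' α, g α x := fun x => by
    rw [planeFn, dif_pos (show (0 : ℝ) < (⟨x, y⟩ : ℂ).im from hy), ← (h.hasSum _).tsum_eq]
    exact tsum_congr fun α => by rw [hg]; simp only; rw [← whit_plane Φ α x y hy]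
  have hcont : ∀ α, Continuous (g α) := fun α => by
    simp only [hg, Poisson.eC]; fun_prop
  have hnorm : ∀ α x, ‖g α x‖ = ‖c α‖ * (y * besselK0 (4 * π * ‖Φ.emb () α‖ * y)) := fun α x => by
    rw [hg, norm_mul, norm_mul, norm_eC, mul_one, Complex.norm_real,
      Real.norm_of_nonneg (mul_nonneg hy.le (Theta.besselK0_nonneg _))]
  have : IsFiniteMeasure (volume.restrict (Ico (0 : ℝ) L)) := ⟨by
    rw [Measure.restrict_apply_univ, Real.volume_Ico]; exact ENNReal.ofReal_lt_top⟩
  rw [integral_congr_ae (Filter.Eventually.of_forall hfn)]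
  rw [← integral_tsum_of_summable_integral_norm
    (fun α => Integrable.of_bound (hcont α).aestronglyMeasurable _
      (Filter.Eventually.of_forall fun x => (hnorm α x).le)) ?_]
  · rw [← tsum_mul_left]
    refine tsum_congr fun α => ?_
    rcases eq_or_ne (c α) 0 with h0 | h0
    · simp [hg, h0]
    obtain ⟨m, hm⟩ := htr α h0
    have hm' : (L : ℝ) * ((Algebra.trace ℚ K α : ℚ) : ℝ) = m := by
      have := congrArg (fun q : ℚ => (q : ℝ)) hm
      push_cast at this
      exact this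
    rw [hg]
    simp only [integral_const_mul]
    rw [integral_eC_Ico hm']
    by_cases ht : Algebra.trace ℚ K α = 0
    · rw [if_pos ht, if_pos (by exact_mod_cast ht)]; ring
    · rw [if_neg ht, if_neg (by exact_mod_cast ht)]; ring
  · simp only [hnorm, integral_const, smul_eq_mul]
    exact (h.summable hy).mul_left _

end Fermat.Agent.LT.Asai
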