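import Fermat.Agent.LT.Geom.Unfold
import Mathlib.Analysis.Complex.UpperHalfPlane.Measure
import Mathlib.MeasureTheory.Measure.Lebesgue.EqHaar
import Mathlib.MeasureTheory.Measure.Lebesgue.Complex
import Mathlib.NumberTheory.Modular
import Mathlib.MeasureTheory.Integral.Bochner.Set
import Mathlib.Analysis.SpecialFunctions.ImproperIntegrals

/-!
# The fundamental domain of `SL₂(ℤ)` as a weight; unfolding to a strip
-/

set_option autoImplicit false

noncomputable section

namespace Fermat.Agent.LT.Asai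

open MeasureTheory UpperHalfPlane ModularGroup Matrix SpecialLinearGroup
open scoped MatrixGroups Modular ENNReal Real

instance : Countable SL(2, ℤ) :=
  haveI : Countable (Matrix (Fin 2) (Fin 2) ℤ) := inferInstanceAs (Countable (Fin 2 → Fin 2 → ℤ))
  Subtype.countable

instance : MeasurableConstSMul SL(2, ℤ) ℍ :=
  ⟨fun g => by
    simp only [ModularGroup.sl_moeb]
    exact (continuous_const_smul _).measurable⟩

instance : SMulInvariantMeasure SL(2, ℤ) ℍ (volume : Measure ℍ) :=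
  ⟨fun g s hs => by
    simp only [ModularGroup.sl_moeb]
    exact MeasureTheory.measure_preimage_smul (volume : Measure ℍ) _ s⟩

theorem continuous_normSq_coe : Continuous fun z : ℍ => Complex.normSq (z : ℂ) :=
  Complex.continuous_normSq.comp continuous_coe

theorem isClosed_fd : IsClosed (𝒟 : Set ℍ) :=
  (isClosed_le continuous_const continuous_normSq_coe).inter
    (isClosed_le (continuous_abs.comp UpperHalfPlane.continuous_re) continuous_const)

theorem volume_eq_zero_of_coe_image {s : Set ℍ}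
    (h : volume (UpperHalfPlane.coe '' s) = 0) : (volume : Measure ℍ) s = 0 := by
  rw [UpperHalfPlane.volume_eq_lintegral]
  exact setLIntegral_measure_zero _ _ h

theorem volume_re_eq (c : ℝ) : (volume : Measure ℂ) {z : ℂ | z.re = c} = 0 := by
  have : {z : ℂ | z.re = c} = Complex.measurableEquivRealProd ⁻¹' ({c} ×ˢ Set.univ) := by
    ext z; simp [Complex.measurableEquivRealProd]
  rw [this, Complex.volume_preserving_equiv_real_prod.measure_preimage
    ((measurableSet_singleton c).prod MeasurableSet.univ).nullMeasurableSet, Measure.volume_eq_prod,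
    Measure.prod_prod]
  simp

theorem volume_fd_boundary : (volume : Measure ℍ) (𝒟 \ 𝒟ᵒ) = 0 := by
  refine volume_eq_zero_of_coe_image (measure_mono_null (t := {z : ℂ | z.re = 1 / 2} ∪
    {z : ℂ | z.re = -(1 / 2)} ∪ Metric.sphere 0 1) ?_ ?_)
  · rintro _ ⟨z, ⟨⟨h1, h2⟩, h3⟩, rfl⟩
    by_cases h4 : Complex.normSq (z : ℂ) = 1
    · right
      simp [Complex.norm_def, h4]
    · left
      have h5 : |z.re| = 1 / 2 :=
        le_antisymm h2 (not_lt.mp fun h => h3 ⟨lt_of_le_of_ne h1 (Ne.symm h4), h⟩)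
      rcases (abs_eq (by norm_num)).mp h5 with h | h
      · exact Or.inl h
      · exact Or.inr h
  · refine measure_union_null (measure_union_null (volume_re_eq _) (volume_re_eq _)) ?_
    exact Measure.addHaar_sphere _ _ _

theorem eq_one_or_neg_one_of_mem_fdo {z : ℍ} {g : SL(2, ℤ)} (hz : z ∈ 𝒟ᵒ) (hg : g • z ∈ 𝒟) :
    g = 1 ∨ g = -1 := by
  have hre : z.re ≠ 1 / 2 ∧ z.re ≠ -1 / 2 := by
    obtain ⟨-, h⟩ := hz
    rw [abs_lt] at h
    constructor <;> intro e <;> rw [e] at h <;> norm_num at h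
  have hn : ‖(z : ℂ)‖ ≠ 1 := fun h => by
    have h1 := hz.1
    rw [Complex.normSq_eq_norm_sq, h, one_pow] at h1
    exact lt_irrefl _ h1
  have hρ : z ≠ ρ := fun h => hre.2 (by rw [h]; norm_num [ρ])
  have hρ' : z ≠ (1 : ℝ) +ᵥ ρ := fun h => hre.1 (by rw [h]; norm_num [ρ])
  rcases cases_of_mem_fd_smul_mem_fd (fdo_subset_fd hz) hg with h | ⟨-, h⟩ | ⟨-, h⟩ | ⟨-, h⟩ |
    ⟨-, h⟩ | ⟨-, h⟩ | ⟨-, h⟩ | ⟨-, h⟩ | ⟨-, h⟩ | ⟨-, h⟩
  exacts [h, absurd h hre.2, absurd h hre.1, absurd h hn, absurd h hρ', absurd h hρ',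
    absurd h hρ', absurd h hρ, absurd h hρ, absurd h hρ]

theorem sl_one_ne_neg_one : (1 : SL(2, ℤ)) ≠ -1 := fun h => by
  have := congrArg (fun g : SL(2, ℤ) => (g : Matrix (Fin 2) (Fin 2) ℤ) 0 0) h
  simp at this

/-- Half of the indicator of the fundamental domain. -/
def fdWeight : ℍ → ℝ≥0∞ := (𝒟 : Set ℍ).indicator fun _ => 2⁻¹

theorem isWeight_fdWeight : Geom.IsWeight SL(2, ℤ) (volume : Measure ℍ) fdWeight := by
  refine ⟨measurable_const.indicator isClosed_fd.measurableSet, ?_⟩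
  have h0 : ∀ᵐ x ∂(volume : Measure ℍ), x ∉ 𝒟 \ 𝒟ᵒ :=
    compl_mem_ae_iff.mpr volume_fd_boundary
  filter_upwards [Geom.ae_smul (G := SL(2, ℤ)) h0] with x hx
  obtain ⟨g₀, hg₀⟩ := exists_smul_mem_fd x
  have hfdo : g₀ • x ∈ 𝒟ᵒ := by
    by_contra h
    exact hx g₀ ⟨hg₀, h⟩
  classical
  have hiff : ∀ g : SL(2, ℤ), g • x ∈ 𝒟 ↔ g = g₀ ∨ g = -g₀ := by
    intro g
    constructor
    · intro h
      have h' : (g * g₀⁻¹) • g₀ • x ∈ 𝒟 := by rwa [smul_smul, inv_mul_cancel_right]
      rcases eq_one_or_neg_one_of_mem_fdo hfdo h' with e | e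
      · exact Or.inl (mul_inv_eq_one.mp e)
      · right
        rw [mul_inv_eq_iff_eq_mul] at e
        simpa using e
    · rintro (rfl | rfl)
      · exact hg₀
      · rwa [SL_neg_smul]
  have hne : g₀ ≠ -g₀ := fun h => sl_one_ne_neg_one (mul_right_cancel (b := g₀) (by simpa using h))
  simp only [fdWeight]
  rw [tsum_eq_sum (s := {g₀, -g₀}) (fun g hg => Set.indicator_of_notMem (fun hmem => hg (by
      simpa using (hiff g).mp hmem)) _),
    Finset.sum_pair hne, Set.indicator_of_mem ((hiff g₀).mpr (Or.inl rfl)),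
    Set.indicator_of_mem ((hiff (-g₀)).mpr (Or.inr rfl)), ← two_mul]
  exact ENNReal.mul_inv_cancel two_ne_zero ENNReal.ofNat_ne_top

theorem four_fifths_le_im {z : ℍ} (hz : z ∈ 𝒟) : 4 / 5 ≤ z.im := by
  nlinarith [three_le_four_mul_im_sq_of_mem_fd hz, z.im_pos]

theorem integrableOn_sq_inv : IntegrableOn (fun y : ℝ => (y ^ 2)⁻¹) (Set.Ioi (1 / 2 : ℝ)) :=
  (integrableOn_Ioi_rpow_of_lt (show (-2 : ℝ) < -1 by norm_num)
    (show (0 : ℝ) < 1 / 2 by norm_num)).congr_fun
    (fun y (hy : 1 / 2 < y) => by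
      show y ^ (-2 : ℝ) = _
      rw [Real.rpow_neg (by linarith), Real.rpow_two])
    measurableSet_Ioi

theorem volume_fd_lt_top : (volume : Measure ℍ) 𝒟 < ∞ := by
  rw [UpperHalfPlane.volume_eq_lintegral]
  set B : Set (ℝ × ℝ) := Set.Icc (-1 / 2 : ℝ) (1 / 2) ×ˢ Set.Ioi (1 / 2 : ℝ)
  have hsub : UpperHalfPlane.coe '' 𝒟 ⊆ Complex.measurableEquivRealProd ⁻¹' B := by
    rintro _ ⟨z, hz, rfl⟩
    have hpair : Complex.measurableEquivRealProd (z : ℂ) = ((z : ℂ).re, (z : ℂ).im) := rfl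
    rw [Set.mem_preimage, hpair]
    refine ⟨⟨?_, ?_⟩, ?_⟩
    · show -1 / 2 ≤ (z : ℂ).re
      linarith [(abs_le.mp hz.2).1, show ((z : ℂ)).re = z.re from rfl]
    · show (z : ℂ).re ≤ 1 / 2
      linarith [(abs_le.mp hz.2).2, show ((z : ℂ)).re = z.re from rfl]
    · show 1 / 2 < (z : ℂ).im
      linarith [four_fifths_le_im hz, show ((z : ℂ)).im = z.im from rfl]
  refine lt_of_le_of_lt (lintegral_mono_set hsub) ?_
  have hconv : ∫⁻ z in Complex.measurableEquivRealProd ⁻¹' B,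
      (((1 / ‖z.im‖₊) ^ 2 : NNReal) : ℝ≥0∞) =
      ∫⁻ p in B, (((1 / ‖p.2‖₊) ^ 2 : NNReal) : ℝ≥0∞) :=
    Complex.volume_preserving_equiv_real_prod.setLIntegral_comp_preimage_emb
      Complex.measurableEquivRealProd.measurableEmbedding
      (fun p : ℝ × ℝ => (((1 / ‖p.2‖₊) ^ 2 : NNReal) : ℝ≥0∞)) B
  rw [hconv, Measure.volume_eq_prod, ← Measure.prod_restrict, lintegral_prod _ (by fun_prop)]
  simp only [lintegral_const]
  refine ENNReal.mul_lt_top ?_ (by simp)
  refine lt_of_le_of_lt (lintegral_mono_ae ?_) integrableOn_sq_inv.hasFiniteIntegral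
  filter_upwards [ae_restrict_mem measurableSet_Ioi] with y (hy : 1 / 2 < y)
  rw [Real.enorm_of_nonneg (by positivity), ← ENNReal.ofReal_coe_nnreal]
  refine ENNReal.ofReal_le_ofReal (le_of_eq ?_)
  simp [abs_of_pos (show 0 < y by linarith)]

/-- The subgroup generated by `T ^ M`. -/
def shiftGroup (M : ℕ) : Subgroup SL(2, ℤ) := Subgroup.zpowers (ModularGroup.T ^ M)

/-- The strip `0 ≤ re < M`. -/
def strip (M : ℕ) : Set ℍ := {z | 0 ≤ z.re ∧ z.re < M}

theorem measurableSet_strip (M : ℕ) : MeasurableSet (strip M) :=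
  (measurableSet_le measurable_const UpperHalfPlane.continuous_re.measurable).inter
    (measurableSet_lt UpperHalfPlane.continuous_re.measurable measurable_const)

theorem re_shift_smul {M : ℕ} (k : ℤ) (z : ℍ) :
    ((ModularGroup.T ^ M) ^ k • z).re = z.re + M * k := by
  rw [← zpow_natCast, ← zpow_mul, re_T_zpow_smul]
  push_cast
  ring

instance (M : ℕ) : Countable (shiftGroup M) :=
  Subtype.countable

theorem isWeight_strip (M : ℕ) [NeZero M] :
    Geom.IsWeight (shiftGroup M) (volume : Measure ℍ) ((strip M).indicator 1) := by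
  refine Geom.isWeight_indicator (measurableSet_strip M) (Filter.Eventually.of_forall fun z => ?_)
  have hM : (0 : ℝ) < M := by exact_mod_cast NeZero.pos M
  set k : ℤ := -⌊z.re / M⌋
  have h1 : (⌊z.re / M⌋ : ℝ) * M ≤ z.re := (le_div_iff₀ hM).mp (Int.floor_le _)
  have h2 : z.re < ((⌊z.re / M⌋ : ℝ) + 1) * M := (div_lt_iff₀ hM).mp (Int.lt_floor_add_one _)
  refine ⟨⟨(ModularGroup.T ^ M) ^ k, k, rfl⟩, ?_, ?_⟩
  · show ((ModularGroup.T ^ M) ^ k • z) ∈ strip M
    constructor <;> rw [re_shift_smul] <;> simp only [k, Int.cast_neg] <;> linarith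
  · rintro ⟨g, j, rfl⟩ hj
    apply Subtype.ext
    show (ModularGroup.T ^ M) ^ j = (ModularGroup.T ^ M) ^ k
    obtain ⟨h3, h4⟩ : 0 ≤ z.re + M * j ∧ z.re + M * (j : ℝ) < M := by
      have h : (ModularGroup.T ^ M) ^ j • z ∈ strip M := hj
      rw [← re_shift_smul]
      exact h
    have hu : (j : ℝ) < k + 1 := by
      simp only [k, Int.cast_neg]
      nlinarith
    have hl : (k : ℝ) < j + 1 := by
      simp only [k, Int.cast_neg]
      nlinarith
    have hu' : j < k + 1 := by exact_mod_cast hu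
    have hl' : k < j + 1 := by exact_mod_cast hl
    rw [show j = k by omega]

end Fermat.Agent.LT.Asai

end
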