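import Fermat.Agent.LT.Adelic.Space
import Fermat.Agent.LT.Poisson.Lattice
import Mathlib.LinearAlgebra.Matrix.SpecialLinearGroup
import Mathlib.Algebra.Field.GeomSum

/-!
# Two finite sums
-/

set_option autoImplicit false

noncomputable section

namespace Fermat.Agent.LT.Asai

open Matrix Fermat.Agent.LT.Adelic
open scoped Real

/-- `GL₂ = SL₂ × diag(b, 1)`. -/
theorem sum_units_sl {L : ℕ} [NeZero L] {α : Type*} [AddCommMonoid α]
    (f : GL (Fin 2) (ZMod L) → α) :
    ∑ b : (ZMod L)ˣ, ∑ r : SpecialLinearGroup (Fin 2) (ZMod L),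
      f (SpecialLinearGroup.toGL r⁻¹ * diag2 b 1) = ∑ g, f g := by
  classical
  have hdet : ∀ (b : (ZMod L)ˣ) (r : SpecialLinearGroup (Fin 2) (ZMod L)),
      GeneralLinearGroup.det (SpecialLinearGroup.toGL r * diag2 b 1) = b := fun b r => by
    refine Units.ext ?_
    rw [GeneralLinearGroup.val_det_apply, Units.val_mul, Matrix.det_mul]
    show (r : Matrix (Fin 2) (Fin 2) (ZMod L)).det *
      (!![(b : ZMod L), 0; 0, ((1 : (ZMod L)ˣ) : ZMod L)]).det = b
    rw [r.2, one_mul, Matrix.det_fin_two]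
    simp
  rw [← Fintype.sum_prod_type'
    (f := fun b (r : SpecialLinearGroup (Fin 2) (ZMod L)) =>
      f (SpecialLinearGroup.toGL r⁻¹ * diag2 b 1))]
  refine Fintype.sum_bijective
    (fun p : (ZMod L)ˣ × SpecialLinearGroup (Fin 2) (ZMod L) =>
      SpecialLinearGroup.toGL p.2⁻¹ * diag2 p.1 1) ⟨?_, ?_⟩ _ _ fun _ => rfl
  · rintro ⟨b, r⟩ ⟨b', r'⟩ h
    have hb : b = b' := by
      have := congrArg GeneralLinearGroup.det h
      rwa [hdet, hdet] at this
    subst hb
    have := mul_right_cancel h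
    exact Prod.ext rfl (inv_injective (SpecialLinearGroup.toGL_injective this))
  · intro g
    set b := GeneralLinearGroup.det g
    have hs : ((g * (diag2 b 1)⁻¹ : GL (Fin 2) (ZMod L)) :
        Matrix (Fin 2) (Fin 2) (ZMod L)).det = 1 := by
      have h1 : GeneralLinearGroup.det (diag2 b (1 : (ZMod L)ˣ)) = b := by
        simpa using hdet b 1
      have h2 : GeneralLinearGroup.det (g * (diag2 b 1)⁻¹) = 1 := by
        rw [map_mul, map_inv, h1, mul_inv_cancel]
      simpa using congrArg Units.val h2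
    refine ⟨(b, (⟨_, hs⟩ : SpecialLinearGroup (Fin 2) (ZMod L))⁻¹), ?_⟩
    show SpecialLinearGroup.toGL ((⟨_, hs⟩ : SpecialLinearGroup (Fin 2) (ZMod L))⁻¹)⁻¹ *
      diag2 b 1 = g
    rw [inv_inv]
    have : SpecialLinearGroup.toGL (⟨_, hs⟩ : SpecialLinearGroup (Fin 2) (ZMod L)) =
        g * (diag2 b 1)⁻¹ := Units.ext rfl
    rw [this, inv_mul_cancel_right]

/-- The sum of the additive characters modulo `N`. -/
theorem sum_eC_range {N : ℕ} (hN : N ≠ 0) (i : ℤ) :
    ∑ j ∈ Finset.range N, Poisson.eC ((j : ℝ) * i / N) = if (N : ℤ) ∣ i then (N : ℂ) else 0 := by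
  have hN' : (N : ℂ) ≠ 0 := Nat.cast_ne_zero.2 hN
  set ζ := Poisson.eC ((i : ℝ) / N) with hζ
  have hpow : ∀ j : ℕ, Poisson.eC ((j : ℝ) * i / N) = ζ ^ j := fun j => by
    rw [hζ, Poisson.eC, Poisson.eC, ← Complex.exp_nat_mul]
    congr 1
    push_cast
    ring
  have hone : ζ = 1 ↔ (N : ℤ) ∣ i := by
    rw [hζ, Poisson.eC, Complex.exp_eq_one_iff]
    constructor
    · rintro ⟨m, hm⟩
      refine ⟨m, ?_⟩
      have h2 : (2 * π * Complex.I : ℂ) ≠ 0 := by simp [Real.pi_ne_zero]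
      have h3 : ((i : ℂ) / N) = m := mul_left_cancel₀ h2 (by rw [mul_comm _ (m : ℂ)]; simpa using hm)
      rw [div_eq_iff hN'] at h3
      rw [mul_comm]
      exact_mod_cast h3
    · rintro ⟨m, rfl⟩
      refine ⟨m, ?_⟩
      push_cast
      field_simp
  rw [Finset.sum_congr rfl fun j _ => hpow j]
  split_ifs with h
  · simp [hone.2 h]
  · have hN1 : ζ ^ N = 1 := by
      rw [← hpow, Poisson.eC, Complex.exp_eq_one_iff]
      refine ⟨i, ?_⟩
      push_cast
      field_simp
    rw [geom_sum_eq (mt hone.1 h), hN1, sub_self, zero_div]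

end Fermat.Agent.LT.Asai
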