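import Fermat.Agent.LT.Asai.Coefficients
import Fermat.Agent.LT.Asai.Lifts
import Fermat.Agent.LT.Descent.KirillovModel

/-!
# The torus coefficients at the natural numbers prime to the level

`q W(x q) = A(q) W(x)` for `q` prime to `M`, by the Hecke recursion outside `S`.
-/

set_option autoImplicit false

noncomputable section

namespace Fermat.Agent.LT.Asai

open IsDedekindDomain NumberField Function
open Fermat.Agent.LT.Adelic Fermat.Agent.LT.Descent
open Orbit (EisData)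

variable {K : Type*} [Field K] [NumberField K] {ι : Type*} [Fintype ι] [DecidableEq ι]
  {Φ : Frame K ι} {S : Set (HeightOneSpectrum (𝓞 K))} {a : HeightOneSpectrum (𝓞 K) → ℂ}
  (D : CoeffData Φ S a)

theorem valued_uniformiser_pow {v : HeightOneSpectrum (𝓞 K)}
    {ϖ : (FiniteAdeleRing (𝓞 K) K)ˣ} (hϖ : IsUniformiserAt v ϖ) (k : ℕ) :
    Valued.v (((ϖ ^ k : (FiniteAdeleRing (𝓞 K) K)ˣ) : FiniteAdeleRing (𝓞 K) K) v) =
      WithZero.exp (-(k : ℤ)) ∧
    ∀ w ≠ v, ((ϖ ^ k : (FiniteAdeleRing (𝓞 K) K)ˣ) : FiniteAdeleRing (𝓞 K) K) w = 1 := by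
  induction k with
  | zero => simp [coe_apply_one]
  | succ k ih =>
    refine ⟨?_, fun w hw => ?_⟩
    · rw [pow_succ, Units.val_mul, coe_apply_mul, map_mul, ih.1, hϖ.1, ← WithZero.exp_add]
      congr 1; push_cast; ring
    · rw [pow_succ, Units.val_mul, coe_apply_mul, ih.2 w hw, hϖ.2 w hw, one_mul]

theorem torusCoeff_pow (φ : sForms Φ S a) {v : HeightOneSpectrum (𝓞 K)} (hv : v ∉ S)
    {ϖ : (FiniteAdeleRing (𝓞 K) K)ˣ} (hϖ : IsUniformiserAt v ϖ)
    {x : (FiniteAdeleRing (𝓞 K) K)ˣ}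
    (hx : Valued.v ((x : FiniteAdeleRing (𝓞 K) K) v) = 1) (k : ℕ) :
    (Real.sqrt (Ideal.absNorm v.asIdeal) : ℂ) ^ k * D.torusCoeff φ (x * ϖ ^ k) =
      heckeSeq (a v) k * D.torusCoeff φ x := by
  set r : ℂ := (Real.sqrt (Ideal.absNorm v.asIdeal) : ℂ) with hr
  have hN : Ideal.absNorm v.asIdeal ≠ 0 := fun h => v.ne_bot (Ideal.absNorm_eq_zero_iff.1 h)
  have hr0 : r ≠ 0 := by
    rw [hr, ne_eq, Complex.ofReal_eq_zero, Real.sqrt_eq_zero (Nat.cast_nonneg _)]
    exact_mod_cast hN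
  have hcard : ((Nat.card (𝓞 K ⧸ v.asIdeal) : ℕ) : ℂ) = r * r := by
    rw [← Submodule.cardQuot_apply, ← Ideal.absNorm_apply, hr, ← Complex.ofReal_mul,
      Real.mul_self_sqrt (Nat.cast_nonneg _), Complex.ofReal_natCast]
  have hle : ∀ j : ℕ, Valued.v (((x * ϖ ^ j : (FiniteAdeleRing (𝓞 K) K)ˣ) :
      FiniteAdeleRing (𝓞 K) K) v) ≤ 1 := fun j => by
    rw [Units.val_mul, coe_apply_mul, map_mul, hx, one_mul, (valued_uniformiser_pow hϖ j).1,
      ← WithZero.exp_zero, WithZero.exp_le_exp]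
    omega
  induction k using Nat.strong_induction_on with
  | _ k ih =>
    match k with
    | 0 => simp
    | 1 =>
      have h := D.torusCoeff_hecke φ hv hϖ (hx.le)
      have h0 : D.torusCoeff φ (x * ϖ⁻¹) = 0 := by
        refine D.torusCoeff_eq_zero φ hv ?_
        rw [Units.val_mul, coe_apply_mul, map_mul, hx, one_mul, inv_idele_apply, map_inv₀, hϖ.1,
          ← WithZero.exp_neg, ← WithZero.exp_zero, WithZero.exp_lt_exp]
        norm_num
      rw [h0, add_zero, hcard, mul_assoc, mul_assoc] at h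
      rw [pow_one, pow_one, heckeSeq_one]
      exact mul_left_cancel₀ hr0 h
    | j + 2 =>
      have h := D.torusCoeff_hecke φ hv hϖ (hle (j + 1))
      rw [hcard, mul_assoc x (ϖ ^ (j + 1)) ϖ, ← pow_succ, mul_assoc x (ϖ ^ (j + 1)) ϖ⁻¹,
        pow_succ ϖ j, mul_inv_cancel_right, ← pow_succ ϖ j] at h
      have h1 := ih (j + 1) (by omega)
      have h2 := ih j (by omega)
      rw [heckeSeq_add_two]
      rw [pow_succ] at h1
      rw [pow_succ, pow_succ]
      linear_combination (r ^ j) * h + a v * h1 - h2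

theorem torusCoeff_mul_finset (φ : sForms Φ S a) (k : HeightOneSpectrum (𝓞 K) → ℕ)
    (T : Finset (HeightOneSpectrum (𝓞 K))) (hT : ∀ v ∈ T, v ∉ S)
    {x : (FiniteAdeleRing (𝓞 K) K)ˣ}
    (hx : ∀ v ∉ S, Valued.v ((x : FiniteAdeleRing (𝓞 K) K) v) = 1)
    {y : (FiniteAdeleRing (𝓞 K) K)ˣ} (hyS : ∀ v ∈ S, (y : FiniteAdeleRing (𝓞 K) K) v = 1)
    (hy : ∀ v ∉ S, v ∈ T →
      Valued.v ((y : FiniteAdeleRing (𝓞 K) K) v) = WithZero.exp (-(k v : ℤ)))
    (hy1 : ∀ v ∉ S, v ∉ T → Valued.v ((y : FiniteAdeleRing (𝓞 K) K) v) = 1) :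
    (∏ v ∈ T, (Real.sqrt (Ideal.absNorm v.asIdeal) : ℂ) ^ k v) * D.torusCoeff φ (x * y) =
      (∏ v ∈ T, heckeSeq (a v) (k v)) * D.torusCoeff φ x := by
  classical
  induction T using Finset.induction_on generalizing y with
  | empty =>
    simp only [Finset.prod_empty, one_mul]
    refine D.torusCoeff_mul_unit φ x (fun v => ?_) hyS
    by_cases hv : v ∈ S
    · rw [hyS v hv, map_one]
    · exact hy1 v hv (Finset.notMem_empty v)
  | @insert v T hvT ih =>
    have hvS := hT v (Finset.mem_insert_self v T)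
    obtain ⟨ϖ, hϖ⟩ := exists_uniformiser v
    obtain ⟨hϖv, hϖw⟩ := valued_uniformiser_pow hϖ (k v)
    set y' := y * (ϖ ^ k v)⁻¹ with hy'
    have hw : ∀ w ≠ v, (y' : FiniteAdeleRing (𝓞 K) K) w = (y : FiniteAdeleRing (𝓞 K) K) w :=
      fun w hw => by rw [hy', Units.val_mul, coe_apply_mul, inv_idele_apply, hϖw w hw, inv_one,
        mul_one]
    have hy'v : Valued.v ((y' : FiniteAdeleRing (𝓞 K) K) v) = 1 := by
      rw [hy', Units.val_mul, coe_apply_mul, inv_idele_apply, map_mul, map_inv₀, hϖv,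
        hy v hvS (Finset.mem_insert_self v T), mul_inv_cancel₀ WithZero.exp_ne_zero]
    have h1 := ih (fun w hw => hT w (Finset.mem_insert_of_mem hw)) (y := y')
      (fun w hwS => by rw [hw w fun e => hvS (e ▸ hwS), hyS w hwS])
      (fun w hwS hwT => by
        rw [hw w fun e => hvT (e ▸ hwT), hy w hwS (Finset.mem_insert_of_mem hwT)])
      (fun w hwS hwT => by
        by_cases e : w = v
        · rw [e]; exact hy'v
        · rw [hw w e, hy1 w hwS fun h => (Finset.mem_insert.1 h).elim e hwT])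
    have hxy : Valued.v (((x * y' : (FiniteAdeleRing (𝓞 K) K)ˣ) :
        FiniteAdeleRing (𝓞 K) K) v) = 1 := by
      rw [Units.val_mul, coe_apply_mul, map_mul, hx v hvS, hy'v, one_mul]
    have h2 := torusCoeff_pow D φ hvS hϖ hxy (k v)
    rw [hy', mul_assoc x, inv_mul_cancel_right, ← hy'] at h2
    rw [Finset.prod_insert hvT, Finset.prod_insert hvT]
    linear_combination (∏ w ∈ T, (Real.sqrt (Ideal.absNorm w.asIdeal) : ℂ) ^ k w) * h2 +
      heckeSeq (a v) (k v) * h1

theorem finite_mulSupport_sqrtNorm {q : ℕ} (hq : q ≠ 0) :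
    (mulSupport fun v : HeightOneSpectrum (𝓞 K) =>
      (Real.sqrt (Ideal.absNorm v.asIdeal) : ℂ) ^ ordAt v q).Finite :=
  (finite_ordAt_ne_zero hq).subset fun v hv h0 => hv (by simp [show ordAt v q = 0 from h0])

/-- The norms of the places over `q` multiply up to `q²`. -/
theorem finprod_sqrtNorm_pow (E : EisData (𝓞 K)) {q : ℕ} (hq : q ≠ 0) :
    ∏ᶠ v : HeightOneSpectrum (𝓞 K), (Real.sqrt (Ideal.absNorm v.asIdeal) : ℂ) ^ ordAt v q =
      (q : ℂ) := by
  classical
  induction q using induction_on_primes with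
  | zero => exact absurd rfl hq
  | one => simp [ordAt_one]
  | prime_mul p n hp ih =>
    have hn : n ≠ 0 := right_ne_zero_of_mul hq
    rw [finprod_congr fun v : HeightOneSpectrum (𝓞 K) =>
        show (Real.sqrt (Ideal.absNorm v.asIdeal) : ℂ) ^ ordAt v (p * n) = _ * _ by
          rw [ordAt_mul v hp.ne_zero hn, pow_add],
      finprod_mul_distrib (finite_mulSupport_sqrtNorm hp.ne_zero) (finite_mulSupport_sqrtNorm hn),
      ih hn, Nat.cast_mul]
    congr 1
    have hsq : ∀ m : ℕ, (Real.sqrt (m : ℝ) : ℂ) * (Real.sqrt (m : ℝ) : ℂ) = (m : ℂ) := fun m => by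
      rw [← Complex.ofReal_mul, Real.mul_self_sqrt (Nat.cast_nonneg _), Complex.ofReal_natCast]
    cases splitting E hp with
    | inert v h hm ho hN =>
      rw [finprod_eq_single _ v fun u hu => by
        rw [ordAt_eq_zero u fun h' => hu ((hm u).1 h'), pow_zero], ho, hN, pow_one]
      push_cast
      rw [Real.sqrt_sq (Nat.cast_nonneg p), Complex.ofReal_natCast]
    | split v v' h hne hm ho ho' hN hN' =>
      rw [finprod_eq_finsetProd_of_mulSupport_subset _ (s := {v, v'}) ?_, Finset.prod_pair hne,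
        ho, ho', hN, hN', pow_one, hsq]
      intro u hu
      simp only [Finset.coe_insert, Finset.coe_singleton, Set.mem_insert_iff,
        Set.mem_singleton_iff]
      by_contra h'
      exact hu (by simp [ordAt_eq_zero u fun h'' => h' ((hm u).1 h'')])
    | ramified v h hm ho hN =>
      rw [finprod_eq_single _ v fun u hu => by
        rw [ordAt_eq_zero u fun h' => hu ((hm u).1 h'), pow_zero], ho, hN, sq, hsq]

/-- `q W(x y) = A(q) W(x)` for an idele `y` equal to `q` up to units outside `S` and `1` on `S`. -/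
theorem mul_torusCoeff_eq_asaiCoeff (E : EisData (𝓞 K)) {M : ℕ}
    (hS : ∀ v : HeightOneSpectrum (𝓞 K), v ∈ S ↔ ¬ PrimeTo M v) (φ : sForms Φ S a) {q : ℕ}
    (hq : q ≠ 0) (hqM : q.Coprime M) {x y : (FiniteAdeleRing (𝓞 K) K)ˣ}
    (hx : ∀ v ∉ S, Valued.v ((x : FiniteAdeleRing (𝓞 K) K) v) = 1)
    (hyS : ∀ v ∈ S, (y : FiniteAdeleRing (𝓞 K) K) v = 1)
    (hy : ∀ v ∉ S, Valued.v ((y : FiniteAdeleRing (𝓞 K) K) v) = v.intValuation (q : 𝓞 K)) :
    (q : ℂ) * D.torusCoeff φ (x * y) = asaiCoeff M a q * D.torusCoeff φ x := by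
  classical
  have hfin := finite_ordAt_ne_zero (K := K) hq
  have h := torusCoeff_mul_finset D φ (fun v => ordAt v q) hfin.toFinset
    (fun v hv hvS => (hS v).1 hvS (primeTo_of_ordAt_ne_zero hqM (hfin.mem_toFinset.1 hv)))
    hx hyS (fun v hv _ => by rw [hy v hv, intValuation_natCast v hq])
    (fun v hv hvT => by
      rw [hy v hv, intValuation_natCast v hq,
        show ordAt v q = 0 from not_not.1 fun h' => hvT (hfin.mem_toFinset.2 h')]
      simp)
  have hcoe : ∀ f : HeightOneSpectrum (𝓞 K) → ℂ, (∀ v, ordAt v q = 0 → f v = 1) →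
      ∏ v ∈ hfin.toFinset, f v = ∏ᶠ v, f v := fun f hf => by
    refine (finprod_eq_finsetProd_of_mulSupport_subset _ fun v hv => ?_).symm
    rw [hfin.coe_toFinset]
    exact fun h0 => hv (hf v h0)
  rw [hcoe (fun v => _ ^ ordAt v q) fun v h0 => by simp [h0],
    hcoe (fun v => heckeSeq (a v) (ordAt v q)) fun v h0 => by simp [h0],
    finprod_sqrtNorm_pow E hq] at h
  rw [h, asaiCoeff, if_pos ⟨hq, hqM⟩]

end Fermat.Agent.LT.Asai
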