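import Fermat.Agent.LT.Asai.Fixed
import Fermat.Agent.LT.Asai.Lifts
import Fermat.Agent.LT.Asai.TorusRecursion
import Fermat.Agent.LT.Descent.CoeffFromWhittaker

/-!
# The form of a cusp eigenfunction

A cusp eigenfunction of level dividing `M` as a form with the system `a` outside the places of
`M`; one of its torus coefficients at an idele supported at `M` is nonzero, which bounds the Hecke
sequences.
-/

set_option autoImplicit false

noncomputable section

namespace Fermat.Agent.LT.Asai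

open IsDedekindDomain NumberField Matrix
open Fermat.Agent.LT.Adelic Fermat.Agent.LT.Descent

variable {K : Type*} [Field K] [NumberField K] {Φ : Frame K Unit} {U : Subgroup (GfK K)}
  {M : ℕ} {φ : Space Φ U → ℂ} {a : HeightOneSpectrum (𝓞 K) → ℂ}

/-- A cusp eigenfunction as a form with its system outside the places of `M`. -/
def eigenForm (hM : M ≠ 0) (hMU : principalLevel K (M : 𝓞 K) ≤ U)
    (hU1 : U ≤ principalLevel K (1 : 𝓞 K)) (hφ : IsCuspEigen φ)
    (heig : ∀ v, PrimeTo M v → IsHeckeEigenAt φ v (a v)) : sForms Φ (placesOf K M) a :=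
  ⟨fun τ g => φ (Space.mk τ (g : Yf U)),
    isSForm_of_space hU1 (supportedIn_natCast hM) hMU hφ.invariant hφ.continuous hφ.bounded
      hφ.cuspidal hφ.spherical fun v hv => heig v hv⟩

variable (hM : M ≠ 0) (hMU : principalLevel K (M : 𝓞 K) ≤ U)
  (hU1 : U ≤ principalLevel K (1 : 𝓞 K)) (hφ : IsCuspEigen φ)
  (heig : ∀ v, PrimeTo M v → IsHeckeEigenAt φ v (a v))

@[simp] theorem eigenForm_apply (τ : Unit → HSpace) (g : GfK K) :
    (eigenForm hM hMU hU1 hφ heig).1 τ g = φ (Space.mk τ (g : Yf U)) := rfl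

theorem eigenForm_fixed (g : GfK K) {u : GfK K} (hu : u ∈ U) (τ : Unit → HSpace) :
    (eigenForm hM hMU hU1 hφ heig).1 τ (g * u) = (eigenForm hM hMU hU1 hφ heig).1 τ g := by
  rw [eigenForm_apply, eigenForm_apply,
    show ((g * u : GfK K) : Yf U) = (g : Yf U) from QuotientGroup.eq.2 (by
      rw [_root_.mul_inv_rev, inv_mul_cancel_right]
      exact le_levelZ U (inv_mem hu))]

theorem toSpace_eigenForm :
    toSpace (Φ := Φ) (U := U) (eigenForm hM hMU hU1 hφ heig).1 = φ := by
  funext x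
  show φ (Space.mk x.pt ((Quotient.out x.fin : GfK K) : Yf U)) = φ x
  rw [QuotientGroup.out_eq', Space.mk_pt_fin]

/-- A torus coefficient at an idele trivial outside `M` is nonzero. -/
theorem exists_torus_ne_zero :
    ∃ e₀ : (FiniteAdeleRing (𝓞 K) K)ˣ,
      (∀ v, v ∉ placesOf K M → (e₀ : FiniteAdeleRing (𝓞 K) K) v = 1) ∧
      (coeffData Φ (placesOf K M) a).torusCoeff (eigenForm hM hMU hU1 hφ heig) e₀ ≠ 0 := by
  by_contra hno
  push Not at hno
  have h0 : eigenForm hM hMU hU1 hφ heig = 0 := by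
    refine (coeffData Φ (placesOf K M) a).kirillov_injective (finite_placesOf' hM) ?_
    rw [map_zero]
    funext e
    exact hno e.1 e.2
  obtain ⟨x, hx⟩ := hφ.nonzero
  refine hx ?_
  obtain ⟨g, hg⟩ := QuotientGroup.mk_surjective x.fin
  have h1 := congrArg (fun f : sForms Φ (placesOf K M) a => f.1 x.pt g) h0
  simp only [eigenForm_apply, hg, Space.mk_pt_fin] at h1
  exact h1

include hM hMU hU1 hφ heig in
/-- The Hecke sequences grow at most like `q ^ (e / 2)`. -/
theorem exists_heckeSeq_bound (v : HeightOneSpectrum (𝓞 K)) (hv : PrimeTo M v) :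
    ∃ C : ℝ, ∀ e : ℕ, ‖heckeSeq (a v) e‖ ≤ C * Real.sqrt (Ideal.absNorm v.asIdeal) ^ e := by
  obtain ⟨e₀, he₀, hne⟩ := exists_torus_ne_zero hM hMU hU1 hφ heig
  set f := eigenForm hM hMU hU1 hφ heig with hf
  set D := coeffData Φ (placesOf K M) a with hD
  have hlev : IsLevel U := ⟨(M : 𝓞 K), Nat.cast_ne_zero.mpr hM, hMU, hU1⟩
  obtain ⟨C, hC⟩ := hφ.exists_norm_whitCoeff_le hlev
  have hbd : ∀ x : (FiniteAdeleRing (𝓞 K) K)ˣ, ‖D.torusCoeff f x‖ ≤ C := fun x => by
    have e1 := f.2.whitCoeff_toSpace hlev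
      (fun τ g u hu => eigenForm_fixed hM hMU hU1 hφ heig g hu τ) (diag2 (x * D.delta) 1)
    rw [hf, toSpace_eigenForm hM hMU hU1 hφ heig] at e1
    have e2 := hC ((diag2 (x * D.delta) 1 : GfK K) : Yf U) 1
    rw [e1] at e2
    rw [CoeffData.torusCoeff]
    simpa [coeffData, formCoeffMap_apply, hD, hf] using e2
  obtain ⟨ϖ, hϖ⟩ := exists_uniformiser v
  refine ⟨C / ‖D.torusCoeff f e₀‖, fun e => ?_⟩
  have hvS : v ∉ placesOf K M := hv
  have h := torusCoeff_pow D f hvS hϖ (x := e₀) (by rw [he₀ v hvS, map_one]) e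
  have h' := congrArg norm h
  rw [norm_mul, norm_mul, norm_pow, Complex.norm_real,
    Real.norm_of_nonneg (Real.sqrt_nonneg _)] at h'
  rw [div_mul_eq_mul_div, le_div_iff₀ (norm_pos_iff.mpr hne), ← h', mul_comm C]
  exact mul_le_mul_of_nonneg_left (hbd _) (pow_nonneg (Real.sqrt_nonneg _) _)

end Fermat.Agent.LT.Asai
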