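import Fermat.Agent.LT.Asai.FdWeight
import Mathlib.MeasureTheory.Integral.Prod
import Mathlib.MeasureTheory.Integral.Bochner.ContinuousLinearMap

/-!
# Integrals over the upper half plane in coordinates
-/

set_option autoImplicit false

noncomputable section

namespace Fermat.Agent.LT.Asai

open MeasureTheory UpperHalfPlane Set
open scoped ENNReal NNReal Modular

/-- The density `y⁻²` in coordinates. -/
def coordDens (q : ℝ × ℝ) : ℝ := (q.2 ^ 2)⁻¹

theorem integral_half_plane {E : Type*} [NormedAddCommGroup E] [NormedSpace ℝ E] (g : ℂ → E)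
    {t : Set (ℝ × ℝ)} (ht : MeasurableSet t) :
    ∫ τ : ℍ in {τ : ℍ | ((τ : ℂ).re, (τ : ℂ).im) ∈ t}, g (τ : ℂ) =
      ∫ q in t ∩ univ ×ˢ Ioi 0, coordDens q • g ⟨q.1, q.2⟩ := by
  set s : Set ℍ := {τ : ℍ | ((τ : ℂ).re, (τ : ℂ).im) ∈ t}
  have hs : MeasurableSet s :=
    (Complex.measurable_re.comp measurable_coe).prodMk (Complex.measurable_im.comp measurable_coe) ht
  have hf : Measurable fun z : ℍ => (1 / NNReal.mk z.im z.im_pos.le : ℝ≥0) ^ 2 :=
    measurable_coe_nnreal_real_iff.mp (by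
      push_cast
      exact (measurable_const.div UpperHalfPlane.continuous_im.measurable).pow_const 2)
  rw [UpperHalfPlane.volume_def, setIntegral_withDensity_eq_setIntegral_smul hf _ hs]
  have hh : ∀ z : ℍ, ((1 / NNReal.mk z.im z.im_pos.le : ℝ≥0) ^ 2) • g (z : ℂ) =
      (fun w : ℂ => coordDens (w.re, w.im) • g w) (z : ℂ) := fun z => by
    rw [NNReal.smul_def]
    congr 1
    simp [coordDens]
  simp only [hh]
  have hmp : MeasurePreserving UpperHalfPlane.coe (volume.comap UpperHalfPlane.coe)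
      (volume.restrict (range UpperHalfPlane.coe)) :=
    ⟨measurable_coe, by rw [measurableEmbedding_coe.map_comap]⟩
  rw [← hmp.setIntegral_image_emb measurableEmbedding_coe
      (fun w : ℂ => coordDens (w.re, w.im) • g w) s,
    Measure.restrict_restrict (measurableEmbedding_coe.measurableSet_image.mpr hs),
    Set.inter_eq_self_of_subset_left (Set.image_subset_range _ _)]
  have himg : UpperHalfPlane.coe '' s =
      Complex.measurableEquivRealProd ⁻¹' (t ∩ univ ×ˢ Ioi 0) := by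
    ext w
    constructor
    · rintro ⟨τ, hτ, rfl⟩
      exact ⟨hτ, trivial, τ.im_pos⟩
    · rintro ⟨h1, -, h2⟩
      exact ⟨⟨w, h2⟩, h1, rfl⟩
  rw [himg]
  exact Complex.volume_preserving_equiv_real_prod.setIntegral_preimage_emb
    Complex.measurableEquivRealProd.measurableEmbedding
    (fun q : ℝ × ℝ => coordDens q • g ⟨q.1, q.2⟩) _

/-- The fundamental domain in coordinates. -/
theorem integral_fd_eq {E : Type*} [NormedAddCommGroup E] [NormedSpace ℝ E] (g : ℂ → E) :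
    ∫ τ : ℍ in 𝒟, g (τ : ℂ) =
      ∫ q in {q : ℝ × ℝ | 1 ≤ q.1 ^ 2 + q.2 ^ 2 ∧ |q.1| ≤ 1 / 2 ∧ 0 < q.2},
        coordDens q • g ⟨q.1, q.2⟩ := by
  have ht : MeasurableSet {q : ℝ × ℝ | 1 ≤ q.1 ^ 2 + q.2 ^ 2 ∧ |q.1| ≤ 1 / 2} :=
    (measurableSet_le (measurable_const (a := (1 : ℝ)))
      ((continuous_fst.pow 2).add (continuous_snd.pow 2)).measurable).inter
      (measurableSet_le (continuous_abs.comp continuous_fst).measurable measurable_const)
  have h := integral_half_plane g ht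
  have e1 : {τ : ℍ | ((τ : ℂ).re, (τ : ℂ).im) ∈ {q : ℝ × ℝ | 1 ≤ q.1 ^ 2 + q.2 ^ 2 ∧ |q.1| ≤ 1 / 2}}
      = (𝒟 : Set ℍ) := by
    ext τ
    simp only [ModularGroup.fd, mem_ofPred_eq, Complex.normSq_apply, ← sq]
    rfl
  have e2 : {q : ℝ × ℝ | 1 ≤ q.1 ^ 2 + q.2 ^ 2 ∧ |q.1| ≤ 1 / 2} ∩ univ ×ˢ Ioi 0 =
      {q : ℝ × ℝ | 1 ≤ q.1 ^ 2 + q.2 ^ 2 ∧ |q.1| ≤ 1 / 2 ∧ 0 < q.2} := by
    ext q
    simp [and_assoc]
  rw [e1, e2] at h
  exact h

/-- The strip in coordinates, as an iterated integral. -/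
theorem integral_strip_iterated {L : ℕ} (g : ℂ → ℂ)
    (hint : IntegrableOn (fun q : ℝ × ℝ => coordDens q • g ⟨q.1, q.2⟩)
      (Ico (0 : ℝ) L ×ˢ Ioi (0 : ℝ))) :
    ∫ τ : ℍ in strip L, g (τ : ℂ) =
      ∫ y in Ioi (0 : ℝ), (y ^ 2)⁻¹ • ∫ x in Ico (0 : ℝ) L, g ⟨x, y⟩ := by
  have h := integral_half_plane g (t := Ico (0 : ℝ) L ×ˢ univ) (measurableSet_Ico.prod .univ)
  have e1 : {τ : ℍ | ((τ : ℂ).re, (τ : ℂ).im) ∈ Ico (0 : ℝ) L ×ˢ (univ : Set ℝ)} = strip L := by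
    ext τ
    simp [strip]
  have e2 : (Ico (0 : ℝ) L ×ˢ (univ : Set ℝ)) ∩ univ ×ˢ Ioi 0 = Ico (0 : ℝ) L ×ˢ Ioi 0 := by
    rw [prod_inter_prod, inter_univ, univ_inter]
  rw [e1, e2] at h
  rw [h, Measure.volume_eq_prod, ← Measure.prod_restrict]
  rw [IntegrableOn, Measure.volume_eq_prod, ← Measure.prod_restrict] at hint
  rw [integral_prod_symm _ hint]
  exact setIntegral_congr_fun measurableSet_Ioi fun y _ =>
    integral_smul (y ^ 2)⁻¹ fun x : ℝ => g ⟨x, y⟩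

end Fermat.Agent.LT.Asai

end
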