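import Mathlib.Analysis.SumIntegralComparisons
import Mathlib.Analysis.SpecialFunctions.ImproperIntegrals
import Mathlib.Analysis.SpecialFunctions.JapaneseBracket
import Mathlib.Analysis.SpecialFunctions.Pow.Real
import Mathlib.MeasureTheory.Integral.IntegralEqImproper
import Mathlib.MeasureTheory.Measure.Lebesgue.Integral

/-!
# Sums along arithmetic progressions compared with integrals
-/

set_option autoImplicit false

noncomputable section

namespace Fermat.Agent.LT.Asai

open MeasureTheory Set Real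

variable {g : ℝ → ℝ}

/-- A half progression. -/
theorem halfProgression (anti : AntitoneOn g (Ici 0)) (hint : IntegrableOn g (Ioi 0))
    (hnn : ∀ t, 0 ≤ g t) {M e : ℝ} (hM : 0 < M) (he : 0 ≤ e) :
    Summable (fun k : ℕ => g (e + M * k)) ∧
      M⁻¹ * ∫ t in Ioi e, g t ≤ ∑' k : ℕ, g (e + M * k) ∧
      ∑' k : ℕ, g (e + M * k) ≤ g e + M⁻¹ * ∫ t in Ioi e, g t := by
  set f : ℝ → ℝ := fun u => g (e + M * u) with hf
  have hanti : AntitoneOn f (Ici 0) := fun u (hu : 0 ≤ u) v (hv : 0 ≤ v) huv =>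
    anti (show (0 : ℝ) ≤ e + M * u by positivity) (show (0 : ℝ) ≤ e + M * v by positivity)
      (by gcongr)
  have hint' : IntegrableOn f (Ioi 0) := by
    have h1 : IntegrableOn g (Ioi e) := hint.mono_set (Ioi_subset_Ioi he)
    have h2 : IntegrableOn (fun w => g (w + e)) (Ioi 0) := by
      have := (measurePreserving_add_right volume e).integrableOn_comp_preimage
        (measurableEmbedding_addRight e) (f := g) (s := Ioi e)
      rw [preimage_add_const_Ioi, sub_self] at this
      exact this.mpr h1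
    have h3 := (integrableOn_Ioi_comp_mul_left_iff (fun w => g (w + e)) 0 hM).mpr (by simpa using h2)
    exact h3.congr_fun (fun u _ => by simp [hf, add_comm]) measurableSet_Ioi
  have hval : ∫ u in Ioi (0 : ℝ), f u = M⁻¹ * ∫ t in Ioi e, g t := by
    have := integral_comp_mul_left_Ioi (fun w => g (e + w)) 0 hM
    rw [mul_zero, smul_eq_mul] at this
    have h2 := (measurePreserving_add_left volume e).setIntegral_preimage_emb
      (measurableEmbedding_addLeft e) g (Ioi e)
    rw [preimage_const_add_Ioi, sub_self] at h2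
    rw [hf, this, h2]
  have hsum := hanti.summable_of_integrableOn_Ioi_zero hint' fun t _ => hnn _
  refine ⟨hsum, hval ▸ hanti.integral_le_tsum hsum fun t _ => hnn _, ?_⟩
  have h := hanti.tsum_le_integral hint' fun t _ => hnn _
  rwa [hval, show f 0 = g e by simp [hf]] at h

/-- A full progression, for an even function antitone on the positive axis. -/
theorem fullProgression (anti : AntitoneOn g (Ici 0)) (hint : IntegrableOn g (Ioi 0))
    (hnn : ∀ t, 0 ≤ g t) (heven : ∀ t, g (-t) = g t) {M : ℝ} (hM : 0 < M) (x : ℝ) :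
    Summable (fun k : ℤ => g (x + M * k)) ∧
      |(∑' k : ℤ, g (x + M * k)) - M⁻¹ * ∫ t, g t| ≤ 2 * g 0 := by
  wlog hx : 0 ≤ x ∧ x ≤ M generalizing x
  · set m : ℤ := ⌊x / M⌋
    have h1 : (m : ℝ) * M ≤ x := (le_div_iff₀ hM).mp (Int.floor_le _)
    have h2 : x < ((m : ℝ) + 1) * M := (div_lt_iff₀ hM).mp (Int.lt_floor_add_one _)
    obtain ⟨hs, hb⟩ := this (x - M * m) ⟨by linarith, by linarith⟩
    have he : (fun k : ℤ => g (x + M * k)) =
        (fun k : ℤ => g (x - M * m + M * k)) ∘ Equiv.addRight m := by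
      funext k
      simp only [Function.comp_apply, Equiv.coe_addRight, Int.cast_add]
      ring_nf
    rw [he]
    refine ⟨(Equiv.addRight m).summable_iff.mpr hs, ?_⟩
    rwa [show (∑' k : ℤ, ((fun k : ℤ => g (x - M * m + M * k)) ∘ Equiv.addRight m) k) =
      ∑' k : ℤ, g (x - M * m + M * k) from
        (Equiv.addRight m).tsum_eq fun k : ℤ => g (x - M * m + M * k)]
  obtain ⟨hs1, hl1, hu1⟩ := halfProgression anti hint hnn hM hx.1
  obtain ⟨hs2, hl2, hu2⟩ := halfProgression anti hint hnn hM (sub_nonneg.mpr hx.2)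
  have hneg : (fun n : ℕ => g (x + M * ((-((n : ℤ) + 1) : ℤ) : ℝ))) =
      fun n : ℕ => g (M - x + M * n) := by
    funext n
    rw [← heven]
    congr 1
    push_cast
    ring
  have hsZ : Summable (fun k : ℤ => g (x + M * k)) :=
    Summable.of_nat_of_neg_add_one (by simpa using hs1) (by rw [hneg]; exact hs2)
  refine ⟨hsZ, ?_⟩
  rw [tsum_of_nat_of_neg_add_one (f := fun k : ℤ => g (x + M * k)) (by simpa using hs1)
    (by rw [hneg]; exact hs2)]
  simp only [Int.cast_natCast]
  rw [show (∑' n : ℕ, g (x + M * ((-((n : ℤ) + 1) : ℤ) : ℝ))) = ∑' n : ℕ, g (M - x + M * n) from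
    by rw [hneg]]
  have hI : ∫ t, g t = 2 * ∫ t in Ioi (0 : ℝ), g t := by
    rw [← integral_comp_abs (f := g)]
    exact integral_congr_ae (Filter.Eventually.of_forall fun t => by
      rcases abs_choice t with h | h <;> simp [h, heven])
  have hbd : ∀ e, 0 ≤ e → ∫ t in Ioi e, g t ≤ ∫ t in Ioi (0 : ℝ), g t ∧
      (∫ t in Ioi (0 : ℝ), g t) ≤ e * g 0 + ∫ t in Ioi e, g t := by
    intro e he
    refine ⟨setIntegral_mono_set hint (Filter.Eventually.of_forall hnn)
      (Ioi_subset_Ioi he).eventuallyLE, ?_⟩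
    rw [← Ioc_union_Ioi_eq_Ioi he, setIntegral_union (Ioc_disjoint_Ioi le_rfl) measurableSet_Ioi
      (hint.mono_set Ioc_subset_Ioi_self) (hint.mono_set (Ioi_subset_Ioi he))]
    gcongr
    calc ∫ t in Ioc 0 e, g t ≤ ∫ _ in Ioc 0 e, g 0 := by
          refine setIntegral_mono_on (hint.mono_set Ioc_subset_Ioi_self)
            (integrableOn_const (by simp)) measurableSet_Ioc fun t ht => ?_
          exact anti self_mem_Ici ht.1.le ht.1.le
      _ = e * g 0 := by simp [he]
  obtain ⟨a1, b1⟩ := hbd x hx.1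
  obtain ⟨a2, b2⟩ := hbd (M - x) (sub_nonneg.mpr hx.2)
  have hgx : g x ≤ g 0 := anti self_mem_Ici hx.1 hx.1
  have hgx' : g (M - x) ≤ g 0 := anti self_mem_Ici (sub_nonneg.mpr hx.2) (sub_nonneg.mpr hx.2)
  have hMi : (0 : ℝ) ≤ M⁻¹ := by positivity
  have hc1 : M⁻¹ * (x * g 0) + M⁻¹ * ((M - x) * g 0) = g 0 := by field_simp; ring
  have a1' := mul_le_mul_of_nonneg_left a1 hMi
  have a2' := mul_le_mul_of_nonneg_left a2 hMi
  have b1' := mul_le_mul_of_nonneg_left b1 hMi
  have b2' := mul_le_mul_of_nonneg_left b2 hMi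
  rw [mul_add] at b1' b2'
  have hg0 := hnn 0
  rw [hI, abs_le]
  constructor <;> nlinarith

end Fermat.Agent.LT.Asai

end
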