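import Fermat.Agent.LT.Asai.StripIntegral
import Mathlib.NumberTheory.ModularForms.CongruenceSubgroups
import Mathlib.RingTheory.Int.Basic

/-!
# Pairs `(c, d)` in a residue class and cosets of `⟨T ^ M⟩`

A pair with `(c, d)` congruent to the bottom row of `r ∈ SL₂(ℤ/M)` is `n` times the bottom row of
some `g ∈ SL₂(ℤ)`, with `n` prime to `M`; the matrix `g` is determined up to `⟨T ^ M⟩` if one asks
that `r = diag(n⁻¹, n) g` modulo `M`.
-/

set_option autoImplicit false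

noncomputable section

namespace Fermat.Agent.LT.Asai

open Matrix SpecialLinearGroup UpperHalfPlane
open scoped MatrixGroups

variable {M : ℕ}

/-- Reduction modulo `M`. -/
def redM (M : ℕ) : SL(2, ℤ) →* SL(2, ZMod M) := SpecialLinearGroup.map (Int.castRingHom (ZMod M))

theorem redM_apply (g : SL(2, ℤ)) (i j : Fin 2) : redM M g i j = ((g i j : ℤ) : ZMod M) := rfl

theorem redM_T_zpow (k : ℤ) :
    (redM M (ModularGroup.T ^ k) : Matrix (Fin 2) (Fin 2) (ZMod M)) = !![1, (k : ZMod M); 0, 1] := by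
  ext i j
  rw [redM_apply, show (ModularGroup.T ^ k : SL(2, ℤ)) i j = (!![1, k; 0, 1] : Matrix _ _ ℤ) i j by
    rw [← ModularGroup.coe_T_zpow]]
  fin_cases i <;> fin_cases j <;> simp

theorem redM_shift {h : SL(2, ℤ)} (hh : h ∈ shiftGroup M) : redM M h = 1 := by
  obtain ⟨k, rfl⟩ := hh
  apply Subtype.ext
  show (redM M ((ModularGroup.T ^ M) ^ k) : Matrix (Fin 2) (Fin 2) (ZMod M)) = 1
  rw [← zpow_natCast, ← zpow_mul, redM_T_zpow]
  simp [Matrix.one_fin_two]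

/-- Positive integers prime to `M`. -/
abbrev CopNat (M : ℕ) : Type := {n : ℕ // 0 < n ∧ n.Coprime M}

/-- The residue of `n` as a unit. -/
def copUnit (n : CopNat M) : (ZMod M)ˣ := ZMod.unitOfCoprime n.1 n.2.2

/-- `diag(n⁻¹, n)`. -/
def nTilde (n : CopNat M) : SL(2, ZMod M) :=
  ⟨!![(((copUnit n)⁻¹ : (ZMod M)ˣ) : ZMod M), 0; 0, (copUnit n : ZMod M)], by simp [det_fin_two]⟩

theorem nTilde_mul_bottom (n : CopNat M) (g : SL(2, ℤ)) (j : Fin 2) :
    (nTilde n * redM M g) 1 j = (((n.1 : ℤ) * g 1 j : ℤ) : ZMod M) := by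
  have h : (copUnit n : ZMod M) = (n.1 : ZMod M) := rfl
  rw [SpecialLinearGroup.coe_mul, Matrix.mul_apply, Fin.sum_univ_two, redM_apply, redM_apply]
  simp [nTilde, h]

/-- The index set of cosets. -/
abbrev CosetIndex (M : ℕ) : Type := CopNat M × (SL(2, ℤ) ⧸ shiftGroup M)

/-- The index set of pairs in the residue classes. -/
abbrev PairIndex (M : ℕ) : Type :=
  Σ r : SL(2, ZMod M), {c : ℤ // (c : ZMod M) = r 1 0} × {d : ℤ // (d : ZMod M) = r 1 1}

/-- From cosets to pairs. -/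
def toPair (p : CosetIndex M) : PairIndex M :=
  ⟨nTilde p.1 * redM M p.2.out⁻¹,
    ⟨(p.1.1 : ℤ) * (p.2.out⁻¹ : SL(2, ℤ)) 1 0, (nTilde_mul_bottom _ _ _).symm⟩,
    ⟨(p.1.1 : ℤ) * (p.2.out⁻¹ : SL(2, ℤ)) 1 1, (nTilde_mul_bottom _ _ _).symm⟩⟩

/-- Two matrices of determinant one with the same bottom row differ by a translation. -/
theorem exists_translate {R : Type*} [CommRing R] (X Y : SL(2, R)) (h0 : X 1 0 = Y 1 0)
    (h1 : X 1 1 = Y 1 1) :
    ((X * Y⁻¹ : SL(2, R)) : Matrix (Fin 2) (Fin 2) R) = !![1, (X * Y⁻¹) 0 1; 0, 1] := by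
  have hdX := X.det_coe
  have hdY := Y.det_coe
  rw [det_fin_two] at hdX hdY
  ext i j
  rw [SpecialLinearGroup.coe_mul, SpecialLinearGroup.coe_inv, adjugate_fin_two]
  fin_cases i <;> fin_cases j <;> simp [Matrix.mul_apply, Fin.sum_univ_two]
  · linear_combination hdX + (X 0 1) * h0 - (X 0 0) * h1
  · linear_combination Y 1 1 * h0 - Y 1 0 * h1
  · linear_combination hdY + (Y 0 0) * h1 - (Y 0 1) * h0

theorem toPair_injective [NeZero M] : Function.Injective (toPair (M := M)) := by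
  rintro ⟨n, q⟩ ⟨n', q'⟩ h
  have hr := congrArg (fun x : PairIndex M => x.1) h
  have hc := congrArg (fun x : PairIndex M => (x.2.1 : ℤ)) h
  have hd := congrArg (fun x : PairIndex M => (x.2.2 : ℤ)) h
  simp only [toPair] at hr hc hd
  set g := (q.out⁻¹ : SL(2, ℤ)) with hg
  set g' := (q'.out⁻¹ : SL(2, ℤ)) with hg'
  have hgcd : ∀ (m : ℕ) (a : SL(2, ℤ)), Int.gcd ((m : ℤ) * a 1 0) ((m : ℤ) * a 1 1) = m := fun m a => by
    rw [Int.gcd_mul_left, Int.natAbs_natCast,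
      Int.isCoprime_iff_gcd_eq_one.mp (ModularGroup.bottom_row_coprime a), mul_one]
  have hn : n = n' := Subtype.ext (by rw [← hgcd n.1 g, ← hgcd n'.1 g', hc, hd])
  subst hn
  have hn0 : (n.1 : ℤ) ≠ 0 := by exact_mod_cast n.2.1.ne'
  have hb0 := mul_left_cancel₀ hn0 hc
  have hb1 := mul_left_cancel₀ hn0 hd
  have hred : redM M g = redM M g' := mul_left_cancel hr
  have ht := exists_translate g g' hb0 hb1
  set b : ℤ := (g * g'⁻¹) 0 1 with hb
  have hT : g * g'⁻¹ = ModularGroup.T ^ b := Subtype.ext (by rw [ht, ModularGroup.coe_T_zpow])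
  have hMb : (M : ℤ) ∣ b := by
    rw [← ZMod.intCast_zmod_eq_zero_iff_dvd]
    have h1 : redM M (ModularGroup.T ^ b) = 1 := by
      rw [← hT, map_mul, hred, ← map_mul, mul_inv_cancel, map_one]
    have h2 := congrArg (fun x : SL(2, ZMod M) => (x : Matrix (Fin 2) (Fin 2) (ZMod M)) 0 1) h1
    simp only [redM_T_zpow, SpecialLinearGroup.coe_one] at h2
    simpa using h2
  obtain ⟨k, hk⟩ := hMb
  have hmem : g * g'⁻¹ ∈ shiftGroup M := ⟨k, by
    show (ModularGroup.T ^ M) ^ k = _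
    rw [hT, hk, zpow_mul, zpow_natCast]⟩
  refine Prod.ext rfl ?_
  rw [← q.out_eq', ← q'.out_eq', QuotientGroup.eq]
  simpa [hg, hg'] using hmem

theorem toPair_surjective (hM : 2 ≤ M) : Function.Surjective (toPair (M := M)) := by
  have : NeZero M := ⟨by omega⟩
  have : Fact (1 < M) := ⟨by omega⟩
  rintro ⟨r, ⟨c, hc⟩, ⟨d, hd⟩⟩
  set n := Int.gcd c d with hn
  have hdet : r 0 0 * (d : ZMod M) - r 0 1 * (c : ZMod M) = 1 := by
    rw [hc, hd, ← det_fin_two]
    exact r.det_coe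
  have hn0 : 0 < n := by
    rcases Nat.eq_zero_or_pos n with h | h
    · obtain ⟨rfl, rfl⟩ := Int.gcd_eq_zero_iff.mp h
      simp at hdet
    · exact h
  obtain ⟨c', hc'⟩ : (n : ℤ) ∣ c := Int.gcd_dvd_left _ _
  obtain ⟨d', hd'⟩ : (n : ℤ) ∣ d := Int.gcd_dvd_right _ _
  have hunit : IsUnit (n : ZMod M) := by
    refine IsUnit.of_mul_eq_one (r 0 0 * (d' : ZMod M) - r 0 1 * (c' : ZMod M)) ?_
    have h2 := hdet
    rw [hc', hd'] at h2
    push_cast at h2
    linear_combination h2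
  set m : CopNat M := ⟨n, hn0, (ZMod.isUnit_iff_coprime n M).mp hunit⟩
  have hcop : IsCoprime c' d' := by
    rw [Int.isCoprime_iff_gcd_eq_one]
    have h := Int.gcd_mul_left (n : ℤ) c' d'
    rw [← hc', ← hd', Int.natAbs_natCast, ← hn] at h
    exact (Nat.mul_eq_left hn0.ne').mp h.symm
  obtain ⟨g₀, -, hg₀⟩ := ModularGroup.bottom_row_surj (R := ℤ)
    (show IsCoprime ((![c', d'] : Fin 2 → ℤ) 0) ((![c', d'] : Fin 2 → ℤ) 1) from hcop)
  have hbot : ∀ j, r 1 j = (nTilde m * redM M g₀) 1 j := by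
    intro j
    rw [nTilde_mul_bottom, show g₀ 1 j = ![c', d'] j from congrFun hg₀ j]
    fin_cases j
    · simp [← hc, hc', m]
    · simp [← hd, hd', m]
  have hX := exists_translate ((nTilde m)⁻¹ * r) (redM M g₀) ?_ ?_
  · obtain ⟨k, hk⟩ : ∃ k : ℤ, (k : ZMod M) = ((nTilde m)⁻¹ * r * (redM M g₀)⁻¹) 0 1 :=
      ZMod.intCast_surjective _
    have hred : redM M (ModularGroup.T ^ k * g₀) = (nTilde m)⁻¹ * r := by
      rw [map_mul, ← eq_mul_inv_iff_mul_eq]
      apply Subtype.ext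
      rw [redM_T_zpow, hX, hk]
    refine ⟨(m, QuotientGroup.mk (ModularGroup.T ^ k * g₀)⁻¹), ?_⟩
    obtain ⟨h, hh⟩ := QuotientGroup.mk_out_eq_mul (shiftGroup M) (ModularGroup.T ^ k * g₀)⁻¹
    have hout : ((QuotientGroup.mk (ModularGroup.T ^ k * g₀)⁻¹ : SL(2, ℤ) ⧸ shiftGroup M).out)⁻¹ =
        (h : SL(2, ℤ))⁻¹ * (ModularGroup.T ^ k * g₀) := by rw [hh]; group
    have hrow : ∀ (t : ℤ) (a : SL(2, ℤ)) (j : Fin 2), (ModularGroup.T ^ t * a) 1 j = a 1 j := by
      intro t a j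
      rw [SpecialLinearGroup.coe_mul, ModularGroup.coe_T_zpow]
      simp [Matrix.mul_apply, Fin.sum_univ_two]
    have hbottom : ∀ j, ((h : SL(2, ℤ))⁻¹ * (ModularGroup.T ^ k * g₀)) 1 j = ![c', d'] j := by
      intro j
      obtain ⟨t, ht⟩ := (shiftGroup M).inv_mem h.2
      rw [show (h : SL(2, ℤ))⁻¹ = (ModularGroup.T ^ M) ^ t from ht.symm, ← zpow_natCast, ← zpow_mul,
        hrow, hrow]
      exact congrFun hg₀ j
    have hr : nTilde m * redM M ((h : SL(2, ℤ))⁻¹ * (ModularGroup.T ^ k * g₀)) = r := by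
      rw [map_mul, redM_shift ((shiftGroup M).inv_mem h.2), one_mul, hred, mul_inv_cancel_left]
    have key : ∀ (g : SL(2, ℤ)) (e : nTilde m * redM M g = r), g 1 0 = c' → g 1 1 = d' →
        (⟨nTilde m * redM M g, ⟨(m.1 : ℤ) * g 1 0, (nTilde_mul_bottom m g 0).symm⟩,
          ⟨(m.1 : ℤ) * g 1 1, (nTilde_mul_bottom m g 1).symm⟩⟩ : PairIndex M) =
        ⟨r, ⟨c, hc⟩, ⟨d, hd⟩⟩ := by
      intro g e e0 e1
      subst e
      congr 1
      exact Prod.ext (Subtype.ext (by simp [e0, hc', m])) (Subtype.ext (by simp [e1, hd', m]))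
    exact key _ (by rw [hout]; exact hr) (by rw [hout]; exact hbottom 0)
      (by rw [hout]; exact hbottom 1)
  all_goals
    have hmul : ∀ (Z : SL(2, ZMod M)) (j : Fin 2),
        (nTilde m * Z) 1 j = (copUnit m : ZMod M) * Z 1 j := fun Z j => by
      rw [SpecialLinearGroup.coe_mul, Matrix.mul_apply, Fin.sum_univ_two]
      simp [nTilde]
    refine (copUnit m).isUnit.mul_left_cancel ?_
    rw [← hmul, ← hmul, mul_inv_cancel_left]
    exact hbot _

/-- Cosets and pairs correspond. -/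
def cosetPairEquiv (hM : 2 ≤ M) : CosetIndex M ≃ PairIndex M :=
  haveI : NeZero M := ⟨by omega⟩
  Equiv.ofBijective toPair ⟨toPair_injective, toPair_surjective hM⟩

/-- The value of the Eisenstein summand. -/
theorem pair_value (n : ℕ) (hn : 0 < n) (g : SL(2, ℤ)) (τ : ℍ) (s : ℝ) :
    (τ.im / Complex.normSq ((((n : ℤ) * g 1 0 : ℤ) : ℂ) * (τ : ℂ) +
        (((n : ℤ) * g 1 1 : ℤ) : ℂ))) ^ s =
      (n : ℝ) ^ (-(2 * s)) * (g • τ).im ^ s := by
  rw [ModularGroup.im_smul_eq_div_normSq, ModularGroup.denom_apply]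
  push_cast
  rw [show ((n : ℂ) * (g 1 0 : ℂ)) * (τ : ℂ) + (n : ℂ) * (g 1 1 : ℂ) =
      (n : ℂ) * ((g 1 0 : ℂ) * (τ : ℂ) + (g 1 1 : ℂ)) by ring,
    Complex.normSq_mul, Complex.normSq_natCast, mul_comm ((n : ℝ) * n), ← div_div,
    Real.div_rpow (div_nonneg τ.im_pos.le (Complex.normSq_nonneg _)) (by positivity),
    Real.rpow_neg (Nat.cast_nonneg _), show (2 * s) = s + s by ring,
    Real.rpow_add (by exact_mod_cast hn), Real.mul_rpow (Nat.cast_nonneg _) (Nat.cast_nonneg _)]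
  simp only [div_eq_mul_inv]
  ring

end Fermat.Agent.LT.Asai

end
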