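import Fermat.Agent.LT.Asai.TestFamily
import Fermat.Agent.LT.Asai.FormOfEigen

/-!
# A nonvanishing period

If the Asai series of level `M` grows like `c / (s - 1)` then one of the sums over
`GL₂(ℤ/L)` of plane periods at test translates is nonzero, `L = 3 M'²`.
-/

set_option autoImplicit false

noncomputable section

namespace Fermat.Agent.LT.Asai

open IsDedekindDomain NumberField Matrix MeasureTheory UpperHalfPlane Filter
open Fermat.Agent.LT.Adelic Fermat.Agent.LT.Descent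
open Orbit (EisData)
open Theta (besselK0)
open scoped MatrixGroups Modular Real Topology

variable {K : Type*} [Field K] [NumberField K] (E : EisData (𝓞 K)) {Φ : Frame K Unit}
  {U : Subgroup (GfK K)} {M k : ℕ}

section Residues

variable {L : ℕ} [NeZero L]

/-- The units modulo `L` lifting a given inverse modulo `M` are as many as those lifting `1`. -/
theorem card_units_dvd_one_sub (h : M ∣ L) {q : ℤ} (hq : IsCoprime q (M : ℤ)) :
    (Finset.univ.filter fun b : (ZMod L)ˣ => (M : ℤ) ∣ 1 - q * (b : ZMod L).val).card =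
      (Finset.univ.filter fun b : (ZMod L)ˣ => ZMod.unitsMap h b = 1).card := by
  obtain ⟨x, y, hxy⟩ := hq
  have hqx : ((q : ℤ) : ZMod M) * ((x : ℤ) : ZMod M) = 1 := by
    have := congrArg (fun z : ℤ => (z : ZMod M)) hxy
    push_cast at this
    rw [ZMod.natCast_self, mul_zero, add_zero] at this
    rw [mul_comm]
    exact this
  set u : (ZMod M)ˣ := ⟨(x : ZMod M), (q : ZMod M), by rw [mul_comm]; exact hqx, hqx⟩
  obtain ⟨b₀, hb₀⟩ := ZMod.unitsMap_surjective h u
  rw [← MonoidHom.card_fiber_eq_of_mem_range (ZMod.unitsMap h) (x := u) (y := 1) ⟨b₀, hb₀⟩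
    ⟨1, map_one _⟩]
  refine congrArg Finset.card (Finset.filter_congr fun b _ => ?_)
  have hb : (((b : ZMod L).val : ℕ) : ZMod M) = ((ZMod.unitsMap h b : (ZMod M)ˣ) : ZMod M) := by
    rw [ZMod.unitsMap_val, ZMod.natCast_val]
  rw [← ZMod.intCast_zmod_eq_zero_iff_dvd, Int.cast_sub, Int.cast_one, Int.cast_mul,
    Int.cast_natCast, hb, sub_eq_zero, Units.ext_iff]
  show 1 = (q : ZMod M) * (ZMod.unitsMap h b : (ZMod M)ˣ).val ↔ _ = (x : ZMod M)
  constructor
  · intro e
    calc ((ZMod.unitsMap h b : (ZMod M)ˣ) : ZMod M)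
        = ((q : ZMod M) * (x : ZMod M)) * (ZMod.unitsMap h b : (ZMod M)ˣ).val := by
          rw [hqx, one_mul]
      _ = (x : ZMod M) * ((q : ZMod M) * (ZMod.unitsMap h b : (ZMod M)ˣ).val) := by ring
      _ = (x : ZMod M) := by rw [← e, mul_one]
  · intro e
    rw [e, hqx]

end Residues

theorem summable_copNat_rpow (L : ℕ) {s : ℝ} (hs : 1 < s) :
    Summable fun n : CopNat L => (n.1 : ℝ) ^ (-(2 * s)) :=
  ((Real.summable_nat_rpow (p := -(2 * s))).2 (by linarith)).comp_injective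
    Subtype.val_injective

theorem one_le_tsum_copNat (L : ℕ) {s : ℝ} (hs : 1 < s) :
    1 ≤ ∑' n : CopNat L, (n.1 : ℝ) ^ (-(2 * s)) := by
  refine le_trans (le_of_eq ?_) ((summable_copNat_rpow L hs).le_tsum
    ⟨1, one_pos, Nat.coprime_one_left L⟩ fun n _ => Real.rpow_nonneg (Nat.cast_nonneg _) _)
  simp

variable {φ : Space Φ U → ℂ}

variable (φ) in
/-- The strip integral of the test family at `r = 1`. -/
def stripValue (e : (FiniteAdeleRing (𝓞 K) K)ˣ) (b : (ZMod (lev M k))ˣ) (s : ℝ) : ℂ :=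
  ∫ τ in strip (lev M k), psiTest E φ e b 1 τ * ((τ.im ^ s : ℝ) : ℂ)

variable {e : (FiniteAdeleRing (𝓞 K) K)ˣ}
  (hfix : ∀ j, ∀ u ∈ principalLevel K ((lev M k : ℕ) : 𝓞 K),
    (hTest E M e j)⁻¹ * u * hTest E M e j ∈ U)

include hfix in
theorem integral_stripTerm_psiTest (hM : M ≠ 0) [NeZero (lev M k)] (b : (ZMod (lev M k))ˣ)
    (s : ℝ) (n : CopNat (lev M k)) :
    ∫ τ in strip (lev M k), stripTerm (psiTest E φ e b) s n τ =
      (((n.1 : ℝ) ^ (-(2 * s)) : ℝ) : ℂ) * stripValue E φ e (b * copUnit n ^ 2) s := by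
  rw [stripValue, ← integral_const_mul]
  refine setIntegral_congr_fun (measurableSet_strip _) fun τ _ => ?_
  simp only [stripTerm, psiTest_nTilde E hfix hM b n τ]
  push_cast
  ring

include hfix in
/-- If the periods vanish, the strip values sum to a bounded function of `s`. -/
theorem exists_norm_sum_stripValue_le (hM : M ≠ 0) [NeZero (lev M k)] (hφ : IsCuspEigen φ)
    {S : Set (HeightOneSpectrum (𝓞 K))} {a : HeightOneSpectrum (𝓞 K) → ℂ}
    (φs : sForms Φ S a) (hφs : ∀ τ g, φs.1 τ g = φ (Space.mk τ (g : Yf U)))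
    (hzero : ∀ j, ∑ g : GL (Fin 2) (ZMod (lev M k)),
      planePeriod φ ((ratLift K g * hTest E M e j : GfK K) : Yf U) = 0) :
    ∃ C : ℝ, ∀ s : ℝ, 1 < s → s ≤ 3 / 2 →
      ‖∑ b : (ZMod (lev M k))ˣ, stripValue E φ e b s‖ ≤ C := by
  have hψ := isAdapted_psiTest E hfix hφ φs hφs hM
  choose B hB using fun b : (ZMod (lev M k))ˣ =>
    exists_unfold_bound (one_lt_lev hM) (hψ b)
  refine ⟨∑ b, B b, fun s hs hs2 => ?_⟩
  set J : ℂ := ∑ b : (ZMod (lev M k))ˣ, stripValue E φ e b s with hJ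
  set w : CopNat (lev M k) → ℂ := fun n => (((n.1 : ℝ) ^ (-(2 * s)) : ℝ) : ℂ)
  have hw : Summable fun n => ‖w n‖ := (summable_copNat_rpow (lev M k) hs).congr fun n => by
    rw [Complex.norm_real, Real.norm_of_nonneg (Real.rpow_nonneg (Nat.cast_nonneg _) _)]
  have hsumb : ∀ b : (ZMod (lev M k))ˣ, Summable fun n : CopNat (lev M k) =>
      ∫ τ in strip (lev M k), stripTerm (psiTest E φ e b) s n τ := fun b => by
    simp only [integral_stripTerm_psiTest E hfix hM]
    refine Summable.of_norm_bounded (hw.mul_right (∑ b' : (ZMod (lev M k))ˣ, ‖stripValue E φ e b' s‖)) fun n => ?_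
    rw [norm_mul]
    exact mul_le_mul_of_nonneg_left (Finset.single_le_sum
      (f := fun b' : (ZMod (lev M k))ˣ => ‖stripValue E φ e b' s‖) (fun _ _ => norm_nonneg _) (Finset.mem_univ _))
      (norm_nonneg _)
  have h1 : ∑ b : (ZMod (lev M k))ˣ,
      ∑' n : CopNat (lev M k), ∫ τ in strip (lev M k), stripTerm (psiTest E φ e b) s n τ =
      ((∑' n : CopNat (lev M k), (n.1 : ℝ) ^ (-(2 * s)) : ℝ) : ℂ) * J := by
    rw [← Summable.tsum_finsetSum fun b _ => hsumb b, Complex.ofReal_tsum, ← tsum_mul_right]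
    refine tsum_congr fun n => ?_
    simp only [integral_stripTerm_psiTest E hfix hM]
    rw [← Finset.mul_sum]
    refine congrArg (fun x : ℂ => _ * x) ?_
    exact Equiv.sum_comp (Equiv.mulRight (copUnit n ^ 2)) fun b => stripValue E φ e b s
  have h2 : ∑ b : (ZMod (lev M k))ˣ, ∑ r, ∫ τ in 𝒟, psiTest E φ e b r τ = 0 := by
    rw [sum_integral_psiTest E hφ]
    exact Finset.sum_eq_zero fun j _ => by rw [hzero j, mul_zero]
  calc ‖J‖ ≤ ‖((∑' n : CopNat (lev M k), (n.1 : ℝ) ^ (-(2 * s)) : ℝ) : ℂ) * J‖ := by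
        rw [norm_mul, Complex.norm_real,
          Real.norm_of_nonneg (zero_le_one.trans (one_le_tsum_copNat _ hs))]
        exact le_mul_of_one_le_left (norm_nonneg _) (one_le_tsum_copNat _ hs)
    _ = ‖∑ b : (ZMod (lev M k))ˣ,
        ((∑' n : CopNat (lev M k), ∫ τ in strip (lev M k), stripTerm (psiTest E φ e b) s n τ) -
        ((π / (2 * ((lev M k : ℕ) : ℝ) ^ 2 * (s - 1)) : ℝ) : ℂ) *
          ∑ r, ∫ τ in 𝒟, psiTest E φ e b r τ)‖ := by
        rw [Finset.sum_sub_distrib, h1, ← Finset.mul_sum, h2, mul_zero, sub_zero]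
    _ ≤ ∑ b, B b := (norm_sum_le _ _).trans (Finset.sum_le_sum fun b _ => hB b s hs hs2)

variable {a : HeightOneSpectrum (𝓞 K) → ℂ} (hM : M ≠ 0)
  (hMU : principalLevel K (M : 𝓞 K) ≤ U) (hU1 : U ≤ principalLevel K (1 : 𝓞 K))
  (hφ : IsCuspEigen φ) (heig : ∀ v, PrimeTo M v → IsHeckeEigenAt φ v (a v))

/-- `natCoeff` is the Asai coefficient times the value at `e₀`. -/
theorem natCoeff_eq_mul (E : EisData (𝓞 K)) (φs : sForms Φ (placesOf K M) a)
    {e₀ : (FiniteAdeleRing (𝓞 K) K)ˣ}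
    (he₀ : ∀ v ∉ placesOf K M, (e₀ : FiniteAdeleRing (𝓞 K) K) v = 1) (q : ℕ) :
    natCoeff M φs e₀ q =
      asaiCoeff M a q * (coeffData Φ (placesOf K M) a).torusCoeff φs e₀ := by
  by_cases h : q ≠ 0 ∧ q.Coprime M
  · rw [natCoeff, dif_pos h]
    refine mul_torusCoeff_eq_asaiCoeff (S := placesOf K M) _ E (fun v => not_not.symm) φs h.1 h.2
      (fun v hv => by rw [he₀ v hv, map_one]) (fun v hv => ?_) (fun v hv => ?_)
    · rw [ideleOn_apply, if_neg (fun h' => h' hv)]
    · rw [ideleOn_apply, if_pos (Set.mem_compl hv), globalIdele_apply, Units.val_mk0,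
        ← map_natCast (algebraMap (𝓞 K) K),
        HeightOneSpectrum.valuation_of_algebraMap]
  · rw [natCoeff, dif_neg h, asaiCoeff, if_neg h, zero_mul]

include hM hMU hU1 hφ heig in
/-- **The period theorem, generic form.** -/
theorem exists_period_ne_zero (E : EisData (𝓞 K))
    (hsum : ∀ s : ℝ, 1 < s → Summable fun m : ℕ => ‖asaiCoeff M a m‖ * (m : ℝ) ^ (-s))
    (hlow : ∃ c : ℝ, 0 < c ∧ ∀ s : ℝ, 1 < s → s ≤ 3 / 2 →
      c / (s - 1) ≤ ‖dirSum (asaiCoeff M a) s‖) :
    ∃ (k : ℕ) (h : GfK K), (∀ v : HeightOneSpectrum (𝓞 K), PrimeTo M v →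
        Aleph.localGL K v h = 1) ∧
      (∀ u ∈ principalLevel K ((lev M k : ℕ) : 𝓞 K), h⁻¹ * u * h ∈ U) ∧
      haveI : NeZero (lev M k) := ⟨lev_ne_zero hM⟩
      ∑ g : GL (Fin 2) (ZMod (lev M k)),
        planePeriod φ ((ratLift K g * h : GfK K) : Yf U) ≠ 0 := by
  classical
  obtain ⟨e₀, he₀, hW⟩ := exists_torus_ne_zero hM hMU hU1 hφ heig
  set φs := eigenForm hM hMU hU1 hφ heig with hφs_def
  have hφs : ∀ τ g, φs.1 τ g = φ (Space.mk τ (g : Yf U)) := fun τ g => rfl
  set e := eTest E M e₀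
  have he : ∀ v ∉ placesOf K M, (e : FiniteAdeleRing (𝓞 K) K) v = 1 :=
    fun v hv => eTest_apply_of_notMem E he₀ hv
  obtain ⟨k, hfix⟩ := exists_level_fixing E hM he hMU
  change ∀ j, ∀ u ∈ principalLevel K ((lev M k : ℕ) : 𝓞 K),
    (hTest E M e j)⁻¹ * u * hTest E M e j ∈ U at hfix
  have : NeZero (lev M k) := ⟨lev_ne_zero hM⟩
  have hloc : ∀ (j : ℕ) (v : HeightOneSpectrum (𝓞 K)), PrimeTo M v →
      Aleph.localGL K v (hTest E M e j) = 1 := fun j v hv => by
    have hv' : v ∉ placesOf K M := hv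
    apply GL.ext_fin_two
    ext x y
    rw [Aleph.localGL_apply]
    fin_cases x <;> fin_cases y <;>
      simp [hTest, tAdele, adeleOn_apply, he v hv', hv', Matrix.mul_apply, Fin.sum_univ_two,
        coe_apply_one, coe_apply_zero]
  by_contra hno
  have hzero : ∀ j, ∑ g : GL (Fin 2) (ZMod (lev M k)),
      planePeriod φ ((ratLift K g * hTest E M e j : GfK K) : Yf U) = 0 := fun j =>
    by_contra fun hj => hno ⟨k, hTest E M e j, hloc j, hfix j, hj⟩
  obtain ⟨C, hC⟩ := exists_norm_sum_stripValue_le E hfix hM hφ φs hφs hzero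
  obtain ⟨c, hc, hlow⟩ := hlow
  set dn := ‖Φ.emb () (deltaK E)‖
  have hdn : 0 < dn := norm_pos_iff.2 ((map_ne_zero _).2 (deltaK_ne_zero E))
  set W := (coeffData Φ (placesOf K M) a).torusCoeff φs e₀
  set C₁ : ℂ := ((terms M k : ℕ) : ℂ) * (dn : ℂ) * W with hC₁
  set N : ℕ := (Finset.univ.filter fun b : (ZMod (lev M k))ˣ =>
    ZMod.unitsMap (dvd_lev (M := M) (k := k)) b = 1).card
  have hN : 0 < N := Finset.card_pos.2 ⟨1, by simp⟩
  set ind : (ZMod (lev M k))ˣ → ℤ → ℂ := fun b q =>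
    if (M : ℤ) ∣ 1 - q * (b : ZMod (lev M k)).val then 1 else 0 with hind
  set d : (ZMod (lev M k))ˣ → ℕ → ℂ := fun b m =>
    C₁ * asaiCoeff M a m * (ind b m + ind b (-(m : ℤ))) with hd
  have hinv := invariant_of_eq φs hφs
  have hterms : ∀ i : ℤ, ∑ j ∈ Finset.range (terms M k),
      Poisson.eC ((j : ℝ) * i / (terms M k : ℕ)) =
      if ((terms M k : ℕ) : ℤ) ∣ i then ((terms M k : ℕ) : ℂ) else 0 :=
    sum_eC_range (mul_ne_zero (den_ne_zero hM) hM)
  have hnorm : ∀ b m, ‖d b m‖ ≤ 2 * ‖C₁‖ * ‖asaiCoeff M a m‖ := fun b m => by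
    have h1 : ∀ q, ‖ind b q‖ ≤ 1 := fun q => by simp only [hind]; split_ifs <;> simp
    simp only [hd, norm_mul]
    rw [show 2 * ‖C₁‖ * ‖asaiCoeff M a m‖ = ‖C₁‖ * ‖asaiCoeff M a m‖ * (1 + 1) by ring]
    gcongr
    exact (norm_add_le _ _).trans (add_le_add (h1 _) (h1 _))
  have hdsum : ∀ (b : (ZMod (lev M k))ˣ) (s : ℝ), 1 < s →
      Summable fun m : ℕ => ‖d b m‖ * (m : ℝ) ^ (-s) := fun b s hs => by
    refine Summable.of_nonneg_of_le (fun m => by positivity) (fun m => ?_)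
      ((hsum s hs).mul_left (2 * ‖C₁‖))
    rw [← mul_assoc]
    exact mul_le_mul_of_nonneg_right (hnorm b m) (by positivity)
  -- the strip values
  have hval : ∀ (b : (ZMod (lev M k))ˣ) (s : ℝ), 1 < s → s ≤ 3 / 2 →
      stripValue E φ e b s = (lev M k : ℕ) * (((4 * π * dn) ^ (-s) * kappa s : ℝ) : ℂ) *
        ∑' m : ℕ, d b m * (((m : ℝ) ^ (-s) : ℝ) : ℂ) := by
    intro b s hs hs2
    set g : GL (Fin 2) (ZMod (lev M k)) := diag2 b 1
    have hfun : ∀ τ, psiTest E φ e b 1 τ = sliceFn E φ g e (planePoint τ) := fun τ => by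
      simp only [psiTest, sliceFn, inv_one, map_one, one_mul, g]
    obtain ⟨B, -, hB⟩ := (isAdapted_psiTest E hfix hφ φs hφs hM b).decay
    rw [stripValue, setIntegral_congr_fun (measurableSet_strip _) fun τ _ => by
      rw [hfun τ]]
    refine integral_strip_expansion E (hasPlaneExpansion_slice E hfix φs hφs hM g)
      (continuous_finsetSum _ fun j _ => continuous_const.mul
        ((hφ.continuous _).comp (continuous_pi fun _ => continuous_id)))
      (fun τ => by rw [← hfun τ]; exact hB 1 τ) (fun α hα => ?_) (fun α hα htr => ?_)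
      (sliceCoeff_zero E φs g) (fun m => ?_) hs hs2 (hdsum b s hs)
    · obtain ⟨m, hm⟩ := sliceCoeff_trace E hfix φs hφs g hα 1
      refine ⟨m, ?_⟩
      rw [← hm, map_one, mul_one, ← nsmul_eq_mul, ← nsmul_eq_mul, map_nsmul]
    · obtain ⟨j, -, hj⟩ := Finset.exists_ne_zero_of_sum_ne_zero hα
      obtain ⟨m, rfl⟩ := exists_freq_eq_div E φs hinv he₀ hfix hM hMU (isModLift_ratLift g)
        (right_ne_zero_of_mul hj) htr
      have hm0 : (((m : ℚ) / den M k : ℚ) : K) ≠ 0 := fun h0 => hα (by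
        rw [h0, zero_mul, sliceCoeff_zero])
      change testCoeff E φs e k b _ ≠ 0 at hα
      rw [testCoeff_eq_sum E φs hinv hfix hM b m hm0, hterms] at hα
      have hdvd : ((terms M k : ℕ) : ℤ) ∣
          (den M k : ℤ) - m * (b : ZMod (lev M k)).val := by
        by_contra h'
        rw [if_neg h', zero_mul] at hα
        exact hα rfl
      rw [terms, Nat.cast_mul] at hdvd
      have h1 : (den M k : ℤ) ∣ m * (b : ZMod (lev M k)).val :=
        (dvd_sub_right dvd_rfl).1 ((dvd_mul_right _ _).trans hdvd)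
      obtain ⟨q, rfl⟩ := (Nat.isCoprime_iff_coprime.2 (coprime_den_of_coprime_lev
        (ZMod.val_coe_unit_coprime b)).symm).dvd_of_dvd_mul_right h1
      refine ⟨q, ?_⟩
      congr 1
      rw [Int.cast_mul, Int.cast_natCast,
        mul_div_cancel_left₀ _ (Nat.cast_ne_zero.2 (den_ne_zero hM)), Rat.cast_intCast]
    · show d b m = testCoeff E φs e k b _ + testCoeff E φs e k b _
      rcases eq_or_ne m 0 with rfl | hm
      · simp [hd, asaiCoeff_zero, testCoeff, CoeffData.coeff_zero]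
      have e1 := testCoeff_int E φs hinv he₀ hfix hM hMU hterms b
        (q := (m : ℤ)) (Int.natCast_ne_zero.2 hm)
      have e2 := testCoeff_int E φs hinv he₀ hfix hM hMU hterms b
        (q := -(m : ℤ)) (neg_ne_zero.2 (Int.natCast_ne_zero.2 hm))
      rw [Int.cast_natCast] at e1
      rw [Int.cast_neg, Int.cast_natCast, neg_mul] at e2
      rw [e1, e2, Int.natAbs_neg, Int.natAbs_natCast, natCoeff_eq_mul E φs he₀]
      simp only [hd, hind, hC₁]
      split_ifs <;> ring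
  -- the sum over `b`
  have hdb : ∀ m : ℕ, ∑ b, d b m = 2 * (N : ℂ) * C₁ * asaiCoeff M a m := by
    intro m
    by_cases hm : asaiCoeff M a m = 0
    · simp [hd, hm]
    have hcop : m.Coprime M := by
      by_contra h
      exact hm (if_neg fun h' => h h'.2)
    have hz : IsCoprime (m : ℤ) (M : ℤ) := Nat.isCoprime_iff_coprime.2 hcop
    simp only [hd, hind, ← Finset.mul_sum, Finset.sum_add_distrib, Finset.sum_boole,
      card_units_dvd_one_sub dvd_lev hz, card_units_dvd_one_sub dvd_lev hz.neg_left]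
    ring
  set A₀ : ℝ := (lev M k : ℝ) * (2 * N) * ‖C₁‖ *
    (min ((4 * π * dn) ^ (-1 : ℝ)) ((4 * π * dn) ^ (-(3 / 2) : ℝ)) * besselK0 2) with hA₀
  have hC₁0 : C₁ ≠ 0 := mul_ne_zero (mul_ne_zero
    (Nat.cast_ne_zero.2 (mul_ne_zero (den_ne_zero hM) hM))
    (Complex.ofReal_ne_zero.2 hdn.ne')) hW
  have ha : 0 < 4 * π * dn := by positivity
  have hK0 := Theta.besselK0_pos (show (0 : ℝ) < 2 by norm_num)
  have hA₀pos : 0 < A₀ :=
    mul_pos (mul_pos (mul_pos (Nat.cast_pos.2 (Nat.pos_of_ne_zero (lev_ne_zero hM)))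
      (mul_pos two_pos (Nat.cast_pos.2 hN))) (norm_pos_iff.2 hC₁0))
      (mul_pos (lt_min (Real.rpow_pos_of_pos ha _) (Real.rpow_pos_of_pos ha _)) hK0)
  have key : ∀ s : ℝ, 1 < s → s ≤ 3 / 2 → A₀ * (c / (s - 1)) ≤ C := by
    intro s hs hs2
    refine le_trans ?_ (hC s hs hs2)
    have hs' : ∀ b, Summable fun m : ℕ => d b m * (((m : ℝ) ^ (-s) : ℝ) : ℂ) := fun b =>
      Summable.of_norm ((hdsum b s hs).congr fun m => by
        rw [norm_mul (d b m), Complex.norm_real,
          Real.norm_of_nonneg (Real.rpow_nonneg (Nat.cast_nonneg _) _)])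
    have e1 : ∑ b : (ZMod (lev M k))ˣ, stripValue E φ e b s =
        (lev M k : ℕ) * (((4 * π * dn) ^ (-s) * kappa s : ℝ) : ℂ) *
          (2 * (N : ℂ) * C₁ * dirSum (asaiCoeff M a) s) := by
      rw [Finset.sum_congr rfl fun b _ => hval b s hs hs2, ← Finset.mul_sum,
        ← Summable.tsum_finsetSum (s := Finset.univ) (f := fun b m => d b m * (((m : ℝ) ^ (-s) : ℝ) : ℂ))
          (fun b _ => hs' b), dirSum, ← tsum_mul_left (a := 2 * (N : ℂ) * C₁)]
      refine congrArg (fun x : ℂ => _ * x) (tsum_congr fun m => ?_)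
      rw [← Finset.sum_mul, hdb m]
      ring
    have hrpow : min ((4 * π * dn) ^ (-1 : ℝ)) ((4 * π * dn) ^ (-(3 / 2) : ℝ)) ≤
        (4 * π * dn) ^ (-s) := by
      rcases le_total 1 (4 * π * dn) with h | h
      · exact (min_le_right _ _).trans (Real.rpow_le_rpow_of_exponent_le h (by linarith))
      · exact (min_le_left _ _).trans
          (Real.rpow_le_rpow_of_exponent_ge ha h (by linarith))
    have hkap : 0 ≤ kappa s := hK0.le.trans (besselK0_two_le_kappa hs.le)
    have hfac : 0 ≤ (4 * π * dn) ^ (-s) * kappa s :=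
      mul_nonneg (Real.rpow_nonneg ha.le _) hkap
    rw [e1]
    simp only [norm_mul, Complex.norm_natCast, Complex.norm_real, Real.norm_of_nonneg hfac,
      Complex.norm_ofNat]
    rw [hA₀]
    calc _ = (lev M k : ℝ) * (min ((4 * π * dn) ^ (-1 : ℝ)) ((4 * π * dn) ^ (-(3 / 2) : ℝ)) *
          besselK0 2) * (2 * (N : ℝ) * ‖C₁‖ * (c / (s - 1))) := by ring
      _ ≤ _ := by
        refine mul_le_mul (mul_le_mul_of_nonneg_left (mul_le_mul hrpow
          (besselK0_two_le_kappa hs.le) hK0.le (Real.rpow_nonneg ha.le _)) (Nat.cast_nonneg _))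
          (mul_le_mul_of_nonneg_left (hlow s hs hs2) (by positivity))
          (mul_nonneg (by positivity) (div_nonneg hc.le (by linarith))) ?_
        exact mul_nonneg (Nat.cast_nonneg _) hfac
  -- let `s → 1`
  set t : ℝ := min (1 / 2) (A₀ * c / (|C| + 1))
  have ht : 0 < t := lt_min (by norm_num) (div_pos (mul_pos hA₀pos hc) (by positivity))
  have h := key (1 + t) (by linarith) (by linarith [min_le_left (1 / 2 : ℝ) (A₀ * c / (|C| + 1))])
  rw [add_sub_cancel_left] at h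
  have h2 : |C| + 1 ≤ A₀ * (c / t) := by
    rw [← mul_div_assoc, le_div_iff₀ ht]
    have := (min_le_right (1 / 2 : ℝ) (A₀ * c / (|C| + 1)))
    rw [le_div_iff₀ (by positivity)] at this
    linarith
  linarith [le_abs_self C]

end Fermat.Agent.LT.Asai
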