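import Fermat.Agent.LT.Adelic.Space
import Fermat.Agent.LT.Asai.HalfPlane

/-!
# Periods along the real plane
-/

set_option autoImplicit false

noncomputable section

namespace Fermat.Agent.LT.Asai

open MeasureTheory UpperHalfPlane NumberField
open Fermat.Agent.LT.Adelic
open scoped Modular

/-- The real plane inside `ℍ₃`. -/
def planePoint (τ : ℍ) : HSpace := ⟨(τ.re : ℂ), τ.im, τ.im_pos⟩

/-- A function on `ℍ₃` on the real plane, as a function on `ℂ`. -/
def planeFn (f : HSpace → ℂ) (z : ℂ) : ℂ :=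
  if h : 0 < z.im then f ⟨(z.re : ℂ), z.im, h⟩ else 0

theorem planeFn_coe (f : HSpace → ℂ) (τ : ℍ) : planeFn f (τ : ℂ) = f (planePoint τ) :=
  dif_pos τ.im_pos

variable {K : Type*} [Field K] [NumberField K] {ι : Type*} {Φ : Frame K ι} {U : Subgroup (GfK K)}

/-- The period of `φ` at the finite coordinate `y` along the real plane modulo `SL₂(ℤ)`. -/
def planePeriod (φ : Space Φ U → ℂ) (y : Yf U) : ℂ :=
  ∫ q in {q : ℝ × ℝ | 1 ≤ q.1 ^ 2 + q.2 ^ 2 ∧ |q.1| ≤ 1 / 2 ∧ 0 < q.2},
    (if h : 0 < q.2 then (q.2 ^ 2)⁻¹ • φ (Space.mk (fun _ => ⟨(q.1 : ℂ), q.2, h⟩) y) else 0)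

theorem planePeriod_eq_integral (φ : Space Φ U → ℂ) (y : Yf U) :
    planePeriod φ y = ∫ τ : ℍ in 𝒟, φ (Space.mk (fun _ => planePoint τ) y) := by
  set f : HSpace → ℂ := fun p => φ (Space.mk (fun _ => p) y)
  have h := integral_fd_eq (planeFn f)
  simp only [planeFn_coe] at h
  rw [h]
  refine setIntegral_congr_fun ?_ fun q hq => ?_
  · exact (measurableSet_le (measurable_const (a := (1 : ℝ)))
      ((continuous_fst.pow 2).add (continuous_snd.pow 2)).measurable).inter
      ((measurableSet_le (continuous_fst.abs).measurable measurable_const).inter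
        (measurableSet_lt measurable_const measurable_snd))
  · show _ = coordDens q • planeFn f ⟨q.1, q.2⟩
    rw [dif_pos hq.2.2, planeFn, dif_pos (show (0 : ℝ) < (⟨q.1, q.2⟩ : ℂ).im from hq.2.2)]
    rfl

end Fermat.Agent.LT.Asai
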