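import Fermat.Agent.LT.Asai.FdWeight
import Mathlib.MeasureTheory.Integral.DominatedConvergence
import Mathlib.MeasureTheory.Group.Arithmetic

/-!
# Unfolding an integral over the fundamental domain to the strip
-/

set_option autoImplicit false

noncomputable section

namespace Fermat.Agent.LT.Asai

open MeasureTheory UpperHalfPlane Matrix SpecialLinearGroup
open scoped MatrixGroups Modular ENNReal

variable {M : ℕ}

instance : Countable (SL(2, ℤ) ⧸ shiftGroup M) := QuotientGroup.mk_surjective.countable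

/-- The translates of a function invariant under `T ^ M`, indexed by cosets. -/
def cosetKernel {β : Type*} (f : ℍ → β) (q : SL(2, ℤ) ⧸ shiftGroup M) (x : ℍ) : β :=
  f (q.out⁻¹ • x)

theorem cosetKernel_mk {β : Type*} {f : ℍ → β}
    (hf : ∀ h : SL(2, ℤ), h ∈ shiftGroup M → ∀ x : ℍ, f (h • x) = f x) (g : SL(2, ℤ)) (x : ℍ) :
    cosetKernel (M := M) f (QuotientGroup.mk g : SL(2, ℤ) ⧸ shiftGroup M) x = f (g⁻¹ • x) := by
  obtain ⟨h, hh⟩ := QuotientGroup.mk_out_eq_mul (shiftGroup M) g
  rw [cosetKernel, hh, _root_.mul_inv_rev, mul_smul, hf _ (inv_mem h.2)]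

theorem isInvariantKernel_cosetKernel {β : Type*} {f : ℍ → β}
    (hf : ∀ h : SL(2, ℤ), h ∈ shiftGroup M → ∀ x : ℍ, f (h • x) = f x) :
    Geom.IsInvariantKernel SL(2, ℤ) (cosetKernel (M := M) f) := by
  intro g q x
  induction q using QuotientGroup.induction_on with
  | H a =>
    rw [show g • (a : SL(2, ℤ) ⧸ shiftGroup M) =
      ((g * a : SL(2, ℤ)) : SL(2, ℤ) ⧸ shiftGroup M) from rfl, cosetKernel_mk hf, cosetKernel_mk hf,
      smul_smul]
    congr 2
    group

theorem cosetKernel_one {β : Type*} {f : ℍ → β}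
    (hf : ∀ h : SL(2, ℤ), h ∈ shiftGroup M → ∀ x : ℍ, f (h • x) = f x) (x : ℍ) :
    cosetKernel (M := M) f ((1 : SL(2, ℤ)) : SL(2, ℤ) ⧸ shiftGroup M) x = f x := by
  rw [cosetKernel_mk hf, inv_one, one_smul]

theorem stabilizer_coset_one :
    MulAction.stabilizer SL(2, ℤ) ((1 : SL(2, ℤ)) : SL(2, ℤ) ⧸ shiftGroup M) = shiftGroup M :=
  MulAction.stabilizer_quotient _

theorem isWeight_strip_stabilizer (M : ℕ) [NeZero M] :
    Geom.IsWeight (MulAction.stabilizer SL(2, ℤ) ((1 : SL(2, ℤ)) : SL(2, ℤ) ⧸ shiftGroup M))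
      (volume : Measure ℍ) ((strip M).indicator 1) := by
  rw [stabilizer_coset_one]
  exact isWeight_strip M

theorem bijective_rep_one : Function.Bijective fun _ : Unit =>
    (⟦((1 : SL(2, ℤ)) : SL(2, ℤ) ⧸ shiftGroup M)⟧ :
      MulAction.orbitRel.Quotient SL(2, ℤ) (SL(2, ℤ) ⧸ shiftGroup M)) :=
  ⟨fun _ _ _ => rfl, fun q => ⟨(), by
    induction q using Quotient.inductionOn with
    | h s => exact Quotient.sound (MulAction.exists_smul_eq SL(2, ℤ) s _)⟩⟩

theorem toReal_fdWeight_mul (g : ℍ → ℝ) (x : ℍ) :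
    (fdWeight x).toReal * g x = (𝒟 : Set ℍ).indicator (fun y => g y / 2) x := by
  by_cases hx : x ∈ (𝒟 : Set ℍ)
  · simp [fdWeight, hx, div_eq_inv_mul]
  · simp [fdWeight, hx]

variable [NeZero M]

theorem lintegral_strip_eq {F : ℍ → ℝ≥0∞} (hF : Measurable F)
    (hper : ∀ h : SL(2, ℤ), h ∈ shiftGroup M → ∀ x : ℍ, F (h • x) = F x) :
    ∫⁻ x in strip M, F x = 2⁻¹ * ∫⁻ x in 𝒟, ∑' q, cosetKernel (M := M) F q x := by
  have h := Geom.lintegral_unfold (G := SL(2, ℤ)) (S := SL(2, ℤ) ⧸ shiftGroup M)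
    isWeight_fdWeight (isInvariantKernel_cosetKernel hper)
    (fun q => hF.comp (measurable_const_smul _)) (fun _ : Unit => ((1 : SL(2, ℤ)) : _))
    bijective_rep_one (fun _ => (strip M).indicator 1) fun _ => isWeight_strip_stabilizer M
  rw [tsum_eq_single () (fun b hb => absurd (Subsingleton.elim b ()) hb)] at h
  simp only [cosetKernel_one hper] at h
  rw [← lintegral_indicator (measurableSet_strip M), ← lintegral_indicator isClosed_fd.measurableSet,
    ← lintegral_const_mul' _ _ (by norm_num)]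
  refine Eq.trans (lintegral_congr fun x => ?_) (h.symm.trans (lintegral_congr fun x => ?_))
  · by_cases hx : x ∈ strip M <;> simp [hx]
  · by_cases hx : x ∈ (𝒟 : Set ℍ) <;> simp [fdWeight, hx]

theorem integral_strip_real {f : ℍ → ℝ} (hm : Measurable f)
    (hper : ∀ h : SL(2, ℤ), h ∈ shiftGroup M → ∀ x : ℍ, f (h • x) = f x)
    (hfin : ∫⁻ x in 𝒟, ∑' q, ENNReal.ofReal |cosetKernel (M := M) f q x| ≠ ∞) :
    ∫ x in strip M, f x = (∫ x in 𝒟, ∑' q, cosetKernel (M := M) f q x) / 2 := by
  have hle : ∫⁻ x, fdWeight x * ∑' q : SL(2, ℤ) ⧸ shiftGroup M,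
      ENNReal.ofReal |cosetKernel f q x| ≤
      2⁻¹ * ∫⁻ x in 𝒟, ∑' q, ENNReal.ofReal |cosetKernel (M := M) f q x| := by
    rw [← lintegral_indicator isClosed_fd.measurableSet, ← lintegral_const_mul' _ _ (by norm_num)]
    refine lintegral_mono fun x => le_of_eq ?_
    by_cases hx : x ∈ (𝒟 : Set ℍ) <;> simp [fdWeight, hx]
  have h := Geom.integral_unfold (G := SL(2, ℤ)) (S := SL(2, ℤ) ⧸ shiftGroup M)
    isWeight_fdWeight (isInvariantKernel_cosetKernel hper)
    (fun q => hm.comp (measurable_const_smul _))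
    (ne_top_of_le_ne_top (ENNReal.mul_ne_top (by norm_num) hfin) hle)
    (fun _ : Unit => ((1 : SL(2, ℤ)) : _))
    bijective_rep_one (fun _ => (strip M).indicator 1) fun _ => isWeight_strip_stabilizer M
  rw [tsum_eq_single () (fun b hb => absurd (Subsingleton.elim b ()) hb)] at h
  simp only [cosetKernel_one hper] at h
  rw [integral_congr_ae (.of_forall fun x =>
    toReal_fdWeight_mul (fun y => ∑' q, cosetKernel (M := M) f q y) x)] at h
  rw [integral_indicator isClosed_fd.measurableSet, integral_div] at h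
  rw [h, ← integral_indicator (measurableSet_strip M)]
  refine integral_congr_ae (.of_forall fun x => ?_)
  by_cases hx : x ∈ strip M <;> simp [hx]

/-- The unfolding for complex functions. -/
theorem integral_strip_eq {f : ℍ → ℂ} (hm : Measurable f)
    (hper : ∀ h : SL(2, ℤ), h ∈ shiftGroup M → ∀ x : ℍ, f (h • x) = f x)
    (hfin : ∫⁻ x in 𝒟, ∑' q, ‖cosetKernel (M := M) f q x‖ₑ ≠ ∞) :
    ∫ x in strip M, f x = (∫ x in 𝒟, ∑' q, cosetKernel (M := M) f q x) / 2 := by
  have hmk : ∀ q : SL(2, ℤ) ⧸ shiftGroup M, Measurable (cosetKernel f q) := fun q =>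
    hm.comp (measurable_const_smul _)
  -- integrability on the strip
  have hint : IntegrableOn f (strip M) volume := by
    refine ⟨hm.aestronglyMeasurable, ?_⟩
    rw [hasFiniteIntegral_iff_enorm, lintegral_strip_eq hm.enorm fun h hh x => congrArg _ (hper h hh x)]
    exact (ENNReal.mul_ne_top (by norm_num) hfin).lt_top
  -- summability almost everywhere
  have hae : ∀ᵐ x ∂volume.restrict 𝒟, Summable fun q => cosetKernel (M := M) f q x := by
    filter_upwards [ae_lt_top (Measurable.tsum fun q => (hmk q).enorm) hfin] with x hx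
    exact Summable.of_norm ((ENNReal.summable_toReal hx.ne).congr fun q => toReal_enorm _)
  have hintD : IntegrableOn (fun x => ∑' q, cosetKernel (M := M) f q x) 𝒟 volume := by
    refine ⟨(Measurable.tsum hmk).aestronglyMeasurable, ?_⟩
    rw [hasFiniteIntegral_iff_enorm]
    exact lt_of_le_of_lt (lintegral_mono fun x => enorm_tsum_le_tsum_enorm)
      hfin.lt_top
  have hpart : ∀ L : ℂ →L[ℝ] ℝ, (∀ z, |L z| ≤ ‖z‖) →
      L (∫ x in strip M, f x) = L ((∫ x in 𝒟, ∑' q, cosetKernel (M := M) f q x) / 2) := by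
    intro L hL
    have hfin' : ∫⁻ x in 𝒟, ∑' q, ENNReal.ofReal |cosetKernel (M := M) (L ∘ f) q x| ≠ ∞ :=
      ne_top_of_le_ne_top hfin <| lintegral_mono fun x => ENNReal.tsum_le_tsum fun q => by
        rw [← ofReal_norm]
        exact ENNReal.ofReal_le_ofReal (hL _)
    have h := integral_strip_real (M := M) (L.continuous.measurable.comp hm)
      (fun g hg x => congrArg L (hper g hg x)) hfin'
    rw [← L.integral_comp_comm hint]
    refine h.trans ?_
    rw [show ((∫ x in 𝒟, ∑' q, cosetKernel (M := M) f q x) / 2) =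
      (2⁻¹ : ℝ) • ∫ x in 𝒟, ∑' q, cosetKernel (M := M) f q x by
        simp [Complex.real_smul, div_eq_inv_mul], map_smul, ← L.integral_comp_comm hintD,
      smul_eq_mul, div_eq_inv_mul]
    congr 1
    refine integral_congr_ae ?_
    filter_upwards [hae] with x hx
    rw [L.map_tsum hx]
    rfl
  exact Complex.ext (hpart Complex.reCLM Complex.abs_re_le_norm)
    (hpart Complex.imCLM Complex.abs_im_le_norm)

end Fermat.Agent.LT.Asai

end
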