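import Fermat.Agent.LT.Asai.Expansion
import Fermat.Agent.LT.Asai.Conductor
import Mathlib.Analysis.SpecialFunctions.ImproperIntegrals

/-!
# The strip integral of an expansion on the real plane

When the surviving frequencies are the `q δ` with `q` an integer the strip integral against
`(Im τ) ^ s` is a Dirichlet series times the Mellin transform of `K₀`.
-/

set_option autoImplicit false

noncomputable section

namespace Fermat.Agent.LT.Asai

open MeasureTheory Set NumberField UpperHalfPlane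
open Fermat.Agent.LT.Adelic
open Theta (besselK0)
open Orbit (EisData)
open scoped Real

variable {K : Type*} [Field K] [NumberField K] {Φ : Frame K Unit} {f : HSpace → ℂ} {c : K → ℂ}

theorem continuous_planePoint : Continuous planePoint := by
  refine continuous_induced_rng.2 ?_
  exact (Complex.continuous_ofReal.comp UpperHalfPlane.continuous_re).prodMk
    UpperHalfPlane.continuous_im

/-- The weight dominating `y ^ (s - 2)` times a bounded decaying function. -/
def domWeight (s y : ℝ) : ℝ := if y ≤ 1 then y ^ (s - 2) else y ^ (s - 4)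

theorem integrableOn_domWeight {s : ℝ} (hs : 1 < s) (hs2 : s ≤ 3 / 2) :
    IntegrableOn (domWeight s) (Ioi 0) := by
  rw [← Ioc_union_Ioi_eq_Ioi zero_le_one]
  refine IntegrableOn.union ?_ ?_
  · have h := (intervalIntegral.intervalIntegrable_rpow' (a := 0) (b := 1)
      (show (-1 : ℝ) < s - 2 by linarith)).1
    exact h.congr_fun (fun y hy => by rw [domWeight, if_pos hy.2]) measurableSet_Ioc
  · exact (integrableOn_Ioi_rpow_of_lt (show s - 4 < -1 by linarith) zero_lt_one).congr_fun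
      (fun y hy => by rw [domWeight, if_neg (not_le.2 hy)]) measurableSet_Ioi

/-- The strip integral as an iterated integral. -/
theorem integral_strip_planeFn (hf : Continuous f) {C : ℝ}
    (hC : ∀ τ : ℍ, ‖f (planePoint τ)‖ ≤ C ∧ ‖f (planePoint τ)‖ * τ.im ^ 2 ≤ C) {s : ℝ}
    (hs : 1 < s) (hs2 : s ≤ 3 / 2) (L : ℕ) :
    ∫ τ in strip L, f (planePoint τ) * ((τ.im ^ s : ℝ) : ℂ) =
      ∫ y in Ioi (0 : ℝ), ((y ^ (s - 2) : ℝ) : ℂ) * ∫ x in Ico (0 : ℝ) L, planeFn f ⟨x, y⟩ := by
  set g : ℂ → ℂ := fun z => planeFn f z * ((z.im ^ s : ℝ) : ℂ) with hg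
  have e : ∀ τ : ℍ, f (planePoint τ) * ((τ.im ^ s : ℝ) : ℂ) = g (τ : ℂ) := fun τ => by
    rw [hg]; simp only [planeFn_coe]; rfl
  have hsub : Ico (0 : ℝ) L ×ˢ Ioi (0 : ℝ) ⊆ {q : ℝ × ℝ | 0 < q.2} := fun q hq => hq.2
  have hcont : ContinuousOn (fun q : ℝ × ℝ => coordDens q • g ⟨q.1, q.2⟩) {q | 0 < q.2} := by
    rw [continuousOn_iff_continuous_domRestrict]
    have hpf : Continuous fun q : {q : ℝ × ℝ | 0 < q.2} =>
        planeFn f (⟨q.1.1, q.1.2⟩ : ℂ) := by
      have : (fun q : {q : ℝ × ℝ | 0 < q.2} => planeFn f (⟨q.1.1, q.1.2⟩ : ℂ)) =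
          fun q => f ⟨(q.1.1 : ℂ), q.1.2, q.2⟩ := funext fun q => dif_pos q.2
      rw [this]
      refine hf.comp (continuous_induced_rng.2 ?_)
      exact (Complex.continuous_ofReal.comp (continuous_fst.comp continuous_subtype_val)).prodMk
        (continuous_snd.comp continuous_subtype_val)
    refine Continuous.smul (f := fun q : {q : ℝ × ℝ | 0 < q.2} => coordDens q.1) ?_ ?_
    · exact ((continuous_snd.comp continuous_subtype_val).pow 2).inv₀
        fun q => pow_ne_zero _ (ne_of_gt q.2)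
    · exact hpf.mul (Complex.continuous_ofReal.comp
        ((continuous_snd.comp continuous_subtype_val).rpow_const fun q => Or.inr (by linarith)))
  have hint : IntegrableOn (fun q : ℝ × ℝ => coordDens q • g ⟨q.1, q.2⟩)
      (Ico (0 : ℝ) L ×ˢ Ioi (0 : ℝ)) := by
    have hdom : IntegrableOn (fun q : ℝ × ℝ => C * domWeight s q.2)
        (Ico (0 : ℝ) L ×ˢ Ioi (0 : ℝ)) := by
      rw [IntegrableOn, Measure.volume_eq_prod, ← Measure.prod_restrict]
      have : IsFiniteMeasure (volume.restrict (Ico (0 : ℝ) L)) := ⟨by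
        rw [Measure.restrict_apply_univ, Real.volume_Ico]; exact ENNReal.ofReal_lt_top⟩
      exact (integrable_const C).mul_prod (integrableOn_domWeight hs hs2)
    refine hdom.mono' ((hcont.mono hsub).aestronglyMeasurable
      (measurableSet_Ico.prod measurableSet_Ioi)) ?_
    filter_upwards [ae_restrict_mem (measurableSet_Ico.prod measurableSet_Ioi)] with q hq
    have hy : 0 < q.2 := hq.2
    obtain ⟨h1, h2⟩ := hC ⟨⟨q.1, q.2⟩, hy⟩
    rw [norm_smul, Real.norm_of_nonneg (show 0 ≤ coordDens q from inv_nonneg.2 (sq_nonneg _)), hg]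
    simp only
    rw [norm_mul, Complex.norm_real, Real.norm_of_nonneg (Real.rpow_nonneg hy.le _),
      show planeFn f (⟨q.1, q.2⟩ : ℂ) = f (planePoint ⟨⟨q.1, q.2⟩, hy⟩) from
        planeFn_coe f ⟨⟨q.1, q.2⟩, hy⟩]
    set n := ‖f (planePoint ⟨⟨q.1, q.2⟩, hy⟩)‖
    have hn : 0 ≤ n := norm_nonneg _
    change n * q.2 ^ 2 ≤ C at h2
    rw [coordDens, domWeight]
    split_ifs
    · rw [Real.rpow_sub hy, Real.rpow_two]
      calc (q.2 ^ 2)⁻¹ * (n * q.2 ^ s) = n * (q.2 ^ s / q.2 ^ 2) := by ring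
        _ ≤ C * (q.2 ^ s / q.2 ^ 2) := mul_le_mul_of_nonneg_right h1 (by positivity)
    · rw [Real.rpow_sub hy, show (4 : ℝ) = ((4 : ℕ) : ℝ) by norm_num, Real.rpow_natCast]
      calc (q.2 ^ 2)⁻¹ * (n * q.2 ^ s) = n * q.2 ^ 2 * (q.2 ^ s / q.2 ^ 4) := by
            field_simp
        _ ≤ C * (q.2 ^ s / q.2 ^ 4) := mul_le_mul_of_nonneg_right h2 (by positivity)
  rw [setIntegral_congr_fun (measurableSet_strip L) fun τ _ => e τ,
    integral_strip_iterated g hint]
  refine setIntegral_congr_fun measurableSet_Ioi fun y hy => ?_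
  have hy' : (0 : ℝ) < y := hy
  simp only [hg]
  rw [integral_mul_const, Complex.real_smul, Real.rpow_sub hy', Real.rpow_two]
  push_cast
  ring

/-- The strip integral of an expansion supported on the multiples of `δ` on trace zero. -/
theorem integral_strip_expansion (E : EisData (𝓞 K)) (h : HasPlaneExpansion Φ f c)
    (hf : Continuous f) {C : ℝ}
    (hC : ∀ τ : ℍ, ‖f (planePoint τ)‖ ≤ C ∧ ‖f (planePoint τ)‖ * τ.im ^ 2 ≤ C)
    {L : ℕ} (htr : ∀ α, c α ≠ 0 → ∃ m : ℤ, (L : ℚ) * Algebra.trace ℚ K α = m)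
    (hfreq : ∀ α, c α ≠ 0 → Algebra.trace ℚ K α = 0 → ∃ q : ℤ, α = (q : K) * deltaK E)
    (hc0 : c 0 = 0) {d : ℕ → ℂ}
    (hd : ∀ m : ℕ, d m = c ((m : K) * deltaK E) + c (-((m : K) * deltaK E))) {s : ℝ} (hs : 1 < s)
    (hs2 : s ≤ 3 / 2) (hsum : Summable fun m : ℕ => ‖d m‖ * (m : ℝ) ^ (-s)) :
    ∫ τ in strip L, f (planePoint τ) * ((τ.im ^ s : ℝ) : ℂ) =
      (L : ℂ) * (((4 * π * ‖Φ.emb () (deltaK E)‖) ^ (-s) * kappa s : ℝ) : ℂ) *
        ∑' m : ℕ, d m * (((m : ℝ) ^ (-s) : ℝ) : ℂ) := by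
  classical
  set dn := ‖Φ.emb () (deltaK E)‖
  have hdn : 0 < dn := norm_pos_iff.2 ((map_ne_zero _).2 (deltaK_ne_zero E))
  have hd0 : d 0 = 0 := by simp [hd, hc0]
  have htr0 : ∀ q : ℤ, Algebra.trace ℚ K ((q : K) * deltaK E) = 0 := fun q => by
    have h := (trace_delta_mul E Φ (q : ℚ) 0).1
    rw [show ((q : ℚ) : K) + ((0 : ℚ) : K) * wK E = (q : K) by push_cast; ring] at h
    rw [mul_comm]; exact h
  have hinner : ∀ y : ℝ, 0 < y → ∫ x in Ico (0 : ℝ) L, planeFn f ⟨x, y⟩ =
      (L : ℂ) * ∑' m : ℕ, d m * ((y * besselK0 (4 * π * dn * m * y) : ℝ) : ℂ) := by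
    intro y hy
    rw [h.integral_horizontal htr hy]
    congr 1
    set F : K → ℂ := fun α => if Algebra.trace ℚ K α = 0 then
        c α * ((y * besselK0 (4 * π * ‖Φ.emb () α‖ * y) : ℝ) : ℂ) else 0 with hF
    set ι : ℤ → K := fun q => (q : K) * deltaK E with hι
    have hinj : Function.Injective ι := fun p q e =>
      Int.cast_injective (mul_right_cancel₀ (deltaK_ne_zero E) e)
    have hsupp : Function.support F ⊆ range ι := fun α hα => by
      simp only [hF, Function.mem_support, ne_eq, ite_eq_right_iff, Classical.not_imp] at hα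
      obtain ⟨q, hq⟩ := hfreq α (left_ne_zero_of_mul hα.2) hα.1
      exact ⟨q, hq.symm⟩
    have hsF : Summable F := by
      refine Summable.of_norm_bounded (h.summable hy) fun α => ?_
      simp only [hF]
      split_ifs
      · rw [norm_mul, Complex.norm_real,
          Real.norm_of_nonneg (mul_nonneg hy.le (Theta.besselK0_nonneg _))]
      · rw [norm_zero]
        exact mul_nonneg (norm_nonneg _) (mul_nonneg hy.le (Theta.besselK0_nonneg _))
    have hFι : Summable (F ∘ ι) := hsF.comp_injective hinj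
    show ∑' α, F α = _
    rw [← hinj.tsum_eq hsupp]
    have hpair := hFι.hasSum.nat_add_neg
    have hval : ∀ m : ℕ, F (ι (m : ℤ)) + F (ι (-(m : ℤ))) =
        d m * ((y * besselK0 (4 * π * dn * m * y) : ℝ) : ℂ) := fun m => by
      have hn : ∀ q : ℤ, F (ι q) =
          c (ι q) * ((y * besselK0 (4 * π * (|(q : ℝ)| * dn) * y) : ℝ) : ℂ) := fun q => by
        simp only [hF, hι]
        rw [if_pos (htr0 q), map_mul, norm_mul, map_intCast, Complex.norm_intCast]
      rw [hn, hn, hd]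
      simp only [hι, Int.cast_natCast, Int.cast_neg, abs_neg, Nat.abs_cast, neg_mul]
      rw [show 4 * π * ((m : ℝ) * dn) * y = 4 * π * dn * m * y by ring]
      ring
    have h2 := hpair.tsum_eq
    rw [show (F ∘ ι) 0 = 0 by simp [hF, hι, hc0], add_zero] at h2
    exact h2.symm.trans (tsum_congr hval)
  rw [integral_strip_planeFn hf hC hs hs2 L]
  have e1 : EqOn (fun y : ℝ => ((y ^ (s - 2) : ℝ) : ℂ) * ∫ x in Ico (0 : ℝ) L, planeFn f ⟨x, y⟩)
      (fun y : ℝ => (L : ℂ) * ∑' m : ℕ, d m *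
        ((y ^ (s - 1) * besselK0 (4 * π * dn * m * y) : ℝ) : ℂ)) (Ioi 0) := fun y hy => by
    have hy' : (0 : ℝ) < y := hy
    simp only
    rw [hinner y hy', mul_left_comm, ← tsum_mul_left]
    congr 1
    refine tsum_congr fun m => ?_
    rw [show s - 1 = s - 2 + 1 by ring, Real.rpow_add hy', Real.rpow_one]
    push_cast
    ring
  rw [setIntegral_congr_fun measurableSet_Ioi e1, integral_const_mul,
    mellin_besselSeries (by positivity) hs.le hd0 hsum]
  ring

end Fermat.Agent.LT.Asai
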