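import Fermat.Agent.LT.Asai.Conductor

/-!
# The test translates

`hTest E M e j = n(j κ / M at the places dividing M) diag(e, 1)` with `δ κ = -ω`.
-/

set_option autoImplicit false

noncomputable section

namespace Fermat.Agent.LT.Asai

open IsDedekindDomain NumberField
open Fermat.Agent.LT.Adelic
open Orbit (EisData)

variable {K : Type*} [Field K] [NumberField K] (E : EisData (𝓞 K))

/-- `κ = -ω √-3`, an integer with `δ κ = -ω`. -/
def kappaInt : 𝓞 K := -E.w * (1 + 2 * E.w)

/-- `j κ / M` at the places dividing `M`, `0` elsewhere. -/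
def tAdele (M j : ℕ) : FiniteAdeleRing (𝓞 K) K :=
  adeleOn (placesOf K M)
    (algebraMap K (FiniteAdeleRing (𝓞 K) K) ((j : K) * algebraMap (𝓞 K) K (kappaInt E) / (M : K)))

/-- The test translate. -/
def hTest (M : ℕ) (e : (FiniteAdeleRing (𝓞 K) K)ˣ) (j : ℕ) : GfK K :=
  unipotent (tAdele E M j) * diag2 e 1

end Fermat.Agent.LT.Asai
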