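import Fermat.Agent.LT.Asai.Eisenstein
import Fermat.Agent.LT.Asai.Pairs
import Mathlib.Topology.Algebra.InfiniteSum.ENNReal

/-!
# The unfolded integral against the Eisenstein series

For `ψ r` equivariant under `SL₂(ℤ)` and of decay `O((Im τ)⁻²)`, the sum over `n` prime to `M` of
`n^(-2s)` times the strip integrals of `ψ (diag(n⁻¹, n)) (Im τ)^s` equals
`π / (2 M² (s - 1)) ∑_r ∫_𝒟 ψ r + O(1)`.
-/

set_option autoImplicit false

noncomputable section

namespace Fermat.Agent.LT.Asai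

open MeasureTheory UpperHalfPlane Matrix SpecialLinearGroup
open scoped MatrixGroups Modular ENNReal

variable {M : ℕ} [NeZero M]

/-- A family equivariant under `SL₂(ℤ)`, bounded and decaying at the cusp. -/
structure IsAdapted (ψ : SL(2, ZMod M) → ℍ → ℂ) : Prop where
  equivariant : ∀ (γ : SL(2, ℤ)) (r : SL(2, ZMod M)) (τ : ℍ), ψ r (γ • τ) = ψ (r * redM M γ) τ
  continuous : ∀ r, Continuous (ψ r)
  decay : ∃ C : ℝ, 0 ≤ C ∧ ∀ r τ, ‖ψ r τ‖ ≤ C ∧ ‖ψ r τ‖ * τ.im ^ 2 ≤ C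

/-- The summand on the strip. -/
def stripTerm (ψ : SL(2, ZMod M) → ℍ → ℂ) (s : ℝ) (n : CopNat M) (τ : ℍ) : ℂ :=
  ψ (nTilde n) τ * (((n.1 : ℝ) ^ (-(2 * s)) * τ.im ^ s : ℝ) : ℂ)

/-- The Eisenstein summand of a pair. -/
def eisTerm (s : ℝ) (τ : ℍ) (p : PairIndex M) : ℝ :=
  (τ.im / Complex.normSq (((p.2.1 : ℤ) : ℂ) * (τ : ℂ) + ((p.2.2 : ℤ) : ℂ))) ^ s

omit [NeZero M] in
theorem eisTerm_nonneg (s : ℝ) (τ : ℍ) (p : PairIndex M) : 0 ≤ eisTerm s τ p :=
  Real.rpow_nonneg (div_nonneg τ.im_pos.le (Complex.normSq_nonneg _)) _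

variable {ψ : SL(2, ZMod M) → ℍ → ℂ}

omit [NeZero M] in
theorem stripTerm_shift (hψ : IsAdapted ψ) (s : ℝ) (n : CopNat M) {h : SL(2, ℤ)}
    (hh : h ∈ shiftGroup M) (τ : ℍ) : stripTerm ψ s n (h • τ) = stripTerm ψ s n τ := by
  have him : (h • τ).im = τ.im := by
    obtain ⟨k, rfl⟩ := hh
    show ((ModularGroup.T ^ M) ^ k • τ).im = τ.im
    rw [← zpow_natCast, ← zpow_mul, ModularGroup.im_T_zpow_smul]
  rw [stripTerm, stripTerm, hψ.equivariant, redM_shift hh, mul_one, him]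

omit [NeZero M] in
theorem measurable_stripTerm (hψ : IsAdapted ψ) (s : ℝ) (n : CopNat M) :
    Measurable (stripTerm ψ s n) :=
  (hψ.continuous _).measurable.mul (Complex.measurable_ofReal.comp
    (measurable_const.mul (UpperHalfPlane.continuous_im.measurable.pow_const s)))

omit [NeZero M] in
theorem cosetKernel_stripTerm (hψ : IsAdapted ψ) (s : ℝ) (τ : ℍ) (i : CosetIndex M) :
    cosetKernel (stripTerm ψ s i.1) i.2 τ =
      ψ (toPair i).1 τ * ((eisTerm s τ (toPair i) : ℝ) : ℂ) := by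
  have h := pair_value i.1.1 i.1.2.1 i.2.out⁻¹ τ s
  rw [cosetKernel, stripTerm, hψ.equivariant, ← h]
  rfl

theorem summable_pairs (hψ : IsAdapted ψ) {s : ℝ} (hs : 1 < s) (hs2 : s ≤ 3 / 2) {τ : ℍ}
    (hy : 4 / 5 ≤ τ.im) :
    Summable (fun p : PairIndex M => ‖ψ p.1 τ‖ * eisTerm s τ p) ∧
      ∑' p : PairIndex M, ‖ψ p.1 τ‖ * eisTerm s τ p =
        ∑ r : SL(2, ZMod M), ‖ψ r τ‖ * eisSum M (r 1 0) (r 1 1) s τ ∧
      ∑' p : PairIndex M, ψ p.1 τ * ((eisTerm s τ p : ℝ) : ℂ) =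
        ∑ r : SL(2, ZMod M), ψ r τ * ((eisSum M (r 1 0) (r 1 1) s τ : ℝ) : ℂ) := by
  obtain ⟨C, -, hC⟩ := eisSum_estimate M
  have hinner : ∀ r : SL(2, ZMod M), Summable fun v : {c : ℤ // (c : ZMod M) = r 1 0} ×
      {d : ℤ // (d : ZMod M) = r 1 1} => eisTerm s τ ⟨r, v⟩ :=
    fun r => (hC _ _ s τ hs hs2 hy).1
  have hnn : ∀ p : PairIndex M, 0 ≤ ‖ψ p.1 τ‖ * eisTerm s τ p := fun p =>
    mul_nonneg (norm_nonneg _) (Real.rpow_nonneg (div_nonneg τ.im_pos.le
      (Complex.normSq_nonneg _)) _)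
  have hs1 : Summable (fun p : PairIndex M => ‖ψ p.1 τ‖ * eisTerm s τ p) :=
    (summable_sigma_of_nonneg hnn).mpr ⟨fun r => Summable.mul_left ‖ψ r τ‖ (hinner r),
      Summable.of_finite⟩
  have hs2' : Summable (fun p : PairIndex M => ψ p.1 τ * ((eisTerm s τ p : ℝ) : ℂ)) :=
    Summable.of_norm (hs1.congr fun p => by
      rw [norm_mul, Complex.norm_real, Real.norm_of_nonneg (eisTerm_nonneg s τ p)])
  refine ⟨hs1, ?_, ?_⟩
  · rw [hs1.tsum_sigma, tsum_fintype]
    refine Finset.sum_congr rfl fun r _ => ?_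
    show ∑' v, ‖ψ r τ‖ * eisTerm s τ ⟨r, v⟩ = _
    rw [tsum_mul_left]
    rfl
  · rw [hs2'.tsum_sigma, tsum_fintype]
    refine Finset.sum_congr rfl fun r _ => ?_
    show ∑' v, ψ r τ * ((eisTerm s τ ⟨r, v⟩ : ℝ) : ℂ) = _
    rw [tsum_mul_left, eisSum, Complex.ofReal_tsum]
    rfl

/-- The estimate. -/
theorem exists_unfold_bound (hM : 2 ≤ M) (hψ : IsAdapted ψ) :
    ∃ C : ℝ, ∀ s : ℝ, 1 < s → s ≤ 3 / 2 →
      ‖(∑' n : CopNat M, ∫ τ in strip M, stripTerm ψ s n τ) -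
        ((Real.pi / (2 * (M : ℝ) ^ 2 * (s - 1)) : ℝ) : ℂ) *
          ∑ r : SL(2, ZMod M), ∫ τ in 𝒟, ψ r τ‖ ≤ C := by
  obtain ⟨C, hC0, hC⟩ := eisSum_estimate M
  obtain ⟨B, hB0, hB⟩ := hψ.decay
  set N : ℝ := (Fintype.card SL(2, ZMod M) : ℝ) with hN
  set K : ℝ := N * (B * C) with hK
  refine ⟨(volume (𝒟 : Set ℍ)).toReal * K / 2, fun s hs hs2 => ?_⟩
  set κ : ℝ := Real.pi / ((M : ℝ) ^ 2 * (s - 1))
  have hκ : 0 ≤ κ := div_nonneg Real.pi_pos.le (mul_nonneg (sq_nonneg _) (by linarith))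
  set D : Set ℍ := 𝒟
  have hDm : MeasurableSet D := isClosed_fd.measurableSet
  have : IsFiniteMeasure (volume.restrict D) := ⟨by
    rw [Measure.restrict_apply_univ]; exact volume_fd_lt_top⟩
  -- the periodised kernel
  have hkern : ∀ τ ∈ D,
      Summable (fun i : CosetIndex M => ‖cosetKernel (stripTerm ψ s i.1) i.2 τ‖) ∧
      ∑' i : CosetIndex M, ‖cosetKernel (stripTerm ψ s i.1) i.2 τ‖ ≤ N * (B * κ) + K ∧
      ‖(∑' i : CosetIndex M, cosetKernel (stripTerm ψ s i.1) i.2 τ) -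
        (κ : ℂ) * ∑ r, ψ r τ‖ ≤ K := by
    intro τ hτ
    have hy := four_fifths_le_im hτ
    obtain ⟨h1, h2, h3⟩ := summable_pairs hψ hs hs2 hy
    have hnorm : (fun i : CosetIndex M => ‖cosetKernel (stripTerm ψ s i.1) i.2 τ‖) =
        (fun p : PairIndex M => ‖ψ p.1 τ‖ * eisTerm s τ p) ∘ cosetPairEquiv hM := by
      funext i
      rw [cosetKernel_stripTerm hψ, norm_mul, Complex.norm_real,
        Real.norm_of_nonneg (eisTerm_nonneg s τ (toPair i))]
      rfl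
    have hest : ∀ r : SL(2, ZMod M), |eisSum M (r 1 0) (r 1 1) s τ - κ| ≤ C * τ.im ^ 2 :=
      fun r => (hC _ _ s τ hs hs2 hy).2
    have hbd : ∀ r : SL(2, ZMod M), ‖ψ r τ‖ * (C * τ.im ^ 2) ≤ B * C := fun r => by
      have := mul_le_mul_of_nonneg_right (hB r τ).2 hC0
      linarith
    refine ⟨?_, ?_, ?_⟩
    · rw [hnorm]
      exact (cosetPairEquiv hM).summable_iff.mpr h1
    · rw [hnorm]
      rw [show (∑' i, ((fun p : PairIndex M => ‖ψ p.1 τ‖ * eisTerm s τ p) ∘ cosetPairEquiv hM) i) =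
        ∑' p : PairIndex M, ‖ψ p.1 τ‖ * eisTerm s τ p from
          (cosetPairEquiv hM).tsum_eq (fun p : PairIndex M => ‖ψ p.1 τ‖ * eisTerm s τ p), h2]
      refine (Finset.sum_le_sum (g := fun _ => B * κ + B * C) fun r _ => ?_).trans (le_of_eq ?_)
      · have h4 := mul_le_mul_of_nonneg_left (abs_le.mp (hest r)).2 (norm_nonneg (ψ r τ))
        have h5 := mul_le_mul_of_nonneg_right (hB r τ).1 hκ
        linarith [hbd r, mul_sub ‖ψ r τ‖ (eisSum M (r 1 0) (r 1 1) s τ) κ]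
      · simp [hK, hN]
    · rw [show (∑' i : CosetIndex M, cosetKernel (stripTerm ψ s i.1) i.2 τ) =
        ∑' p : PairIndex M, ψ p.1 τ * ((eisTerm s τ p : ℝ) : ℂ) from
          Eq.trans (tsum_congr fun i => cosetKernel_stripTerm hψ s τ i)
            ((cosetPairEquiv hM).tsum_eq (fun p : PairIndex M => ψ p.1 τ * ((eisTerm s τ p : ℝ) : ℂ))),
        h3, Finset.mul_sum, ← Finset.sum_sub_distrib]
      refine (norm_sum_le _ _).trans ((Finset.sum_le_sum (g := fun _ => B * C) fun r _ => ?_).trans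
        (le_of_eq (by simp [hK, hN])))
      rw [mul_comm (κ : ℂ), ← mul_sub, norm_mul, ← Complex.ofReal_sub, Complex.norm_real,
        Real.norm_eq_abs]
      exact (mul_le_mul_of_nonneg_left (hest r) (norm_nonneg _)).trans (hbd r)
  -- finiteness
  have hmk : ∀ i : CosetIndex M, Measurable (cosetKernel (stripTerm ψ s i.1) i.2) := fun i =>
    (measurable_stripTerm hψ s i.1).comp (measurable_const_smul _)
  have hfin : ∫⁻ τ in D, ∑' i : CosetIndex M, ‖cosetKernel (stripTerm ψ s i.1) i.2 τ‖ₑ ≠ ∞ := by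
    refine ne_top_of_le_ne_top (b := ∫⁻ _ in D, ENNReal.ofReal (N * (B * κ) + K)) ?_
      (lintegral_mono_ae ?_)
    · rw [lintegral_const]
      exact ENNReal.mul_ne_top ENNReal.ofReal_ne_top (measure_ne_top _ _)
    · filter_upwards [ae_restrict_mem hDm] with τ hτ
      obtain ⟨h1, h2, -⟩ := hkern τ hτ
      simp only [← ofReal_norm]
      rw [← ENNReal.ofReal_tsum_of_nonneg (fun i => norm_nonneg _) h1]
      exact ENNReal.ofReal_le_ofReal h2
  have hfin_n : ∀ n : CopNat M,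
      ∫⁻ τ in D, ∑' q, ‖cosetKernel (M := M) (stripTerm ψ s n) q τ‖ₑ ≠ ∞ := fun n => by
    refine ne_top_of_le_ne_top hfin (lintegral_mono fun τ => ?_)
    exact ENNReal.tsum_comp_le_tsum_of_injective (f := fun q : SL(2, ℤ) ⧸ shiftGroup M => (n, q))
      (fun a b h => (Prod.ext_iff.mp h).2)
      (fun i : CosetIndex M => ‖cosetKernel (stripTerm ψ s i.1) i.2 τ‖ₑ)
  -- interchange
  have hsum_int : (∑' n : CopNat M, ∫ τ in strip M, stripTerm ψ s n τ) =
      (∫ τ in D, ∑' i : CosetIndex M, cosetKernel (stripTerm ψ s i.1) i.2 τ) / 2 := by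
    rw [tsum_congr fun n => integral_strip_eq (measurable_stripTerm hψ s n)
      (fun h hh x => stripTerm_shift hψ s n hh x) (hfin_n n), tsum_div_const]
    congr 1
    rw [← integral_tsum]
    · refine integral_congr_ae ?_
      filter_upwards [ae_restrict_mem hDm] with τ hτ
      have h1 : Summable fun i : CosetIndex M => cosetKernel (stripTerm ψ s i.1) i.2 τ :=
        Summable.of_norm (hkern τ hτ).1
      exact (h1.tsum_prod' fun n => h1.prod_factor n).symm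
    · exact fun n => (Measurable.tsum fun q => hmk (n, q)).aestronglyMeasurable
    · refine ne_top_of_le_ne_top hfin ?_
      rw [← lintegral_tsum fun n => (Measurable.tsum fun q => hmk (n, q)).enorm.aemeasurable]
      refine lintegral_mono fun τ => ?_
      rw [ENNReal.tsum_prod']
      exact ENNReal.tsum_le_tsum fun n => enorm_tsum_le_tsum_enorm
  have hψint : ∀ r, IntegrableOn (ψ r) D volume := fun r =>
    Integrable.of_bound (hψ.continuous r).aestronglyMeasurable B (.of_forall fun τ => (hB r τ).1)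
  have hT : IntegrableOn (fun τ => ∑' i : CosetIndex M, cosetKernel (stripTerm ψ s i.1) i.2 τ) D
      volume := by
    refine ⟨(Measurable.tsum hmk).aestronglyMeasurable, ?_⟩
    rw [hasFiniteIntegral_iff_enorm]
    exact lt_of_le_of_lt (lintegral_mono fun τ => enorm_tsum_le_tsum_enorm) hfin.lt_top
  have hS : IntegrableOn (fun τ => (κ : ℂ) * ∑ r, ψ r τ) D volume :=
    (integrable_finsetSum _ fun r _ => hψint r).const_mul _
  have hmain : ((Real.pi / (2 * (M : ℝ) ^ 2 * (s - 1)) : ℝ) : ℂ) * ∑ r, ∫ τ in D, ψ r τ =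
      (∫ τ in D, (κ : ℂ) * ∑ r, ψ r τ) / 2 := by
    rw [integral_const_mul, integral_finsetSum _ fun r _ => hψint r, mul_div_right_comm]
    congr 1
    rw [show Real.pi / (2 * (M : ℝ) ^ 2 * (s - 1)) = κ / 2 by simp only [κ]; rw [div_div]; ring]
    push_cast
    ring
  rw [hsum_int, hmain, ← sub_div, ← integral_sub hT hS, norm_div, Complex.norm_ofNat]
  gcongr
  refine (norm_integral_le_of_norm_le_const (C := K) ?_).trans ?_
  · filter_upwards [ae_restrict_mem hDm] with τ hτ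
    exact (hkern τ hτ).2.2
  · rw [measureReal_def, Measure.restrict_apply_univ, mul_comm]

end Fermat.Agent.LT.Asai

end
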