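import Fermat.Agent.LT.Asai.TestVector
import Fermat.Agent.LT.Asai.FiniteSums
import Fermat.Agent.LT.Asai.StripValue
import Fermat.Agent.LT.Asai.Unfold

/-!
# The test family on `ℍ × SL₂(ℤ/L)`

`psiTest b r τ = ∑_j e(j/M) φ(plane τ, [r⁻¹ diag(b, 1) h_j])` is adapted; the sum over `b` and `r` of
its integrals over the fundamental domain is a combination of sums of plane periods.
-/

set_option autoImplicit false

noncomputable section

namespace Fermat.Agent.LT.Asai

open IsDedekindDomain NumberField Matrix MeasureTheory UpperHalfPlane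
open Fermat.Agent.LT.Adelic Fermat.Agent.LT.Descent
open Orbit (EisData)
open scoped MatrixGroups Modular

variable {K : Type*} [Field K] [NumberField K] (E : EisData (𝓞 K)) {Φ : Frame K Unit}
  {U : Subgroup (GfK K)} {M k : ℕ}

omit [NumberField K] in
theorem toInf_gammaK (γ : SL(2, ℤ)) (i j : Fin 2) :
    (Φ.toInf () (gammaK γ) : Matrix (Fin 2) (Fin 2) ℂ) i j = ((γ i j : ℤ) : ℂ) := by
  show Φ.emb () (((gammaK γ : GL (Fin 2) K) : Matrix (Fin 2) (Fin 2) K) i j) = _
  rw [gammaK_apply, map_intCast]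

omit [NumberField K] in
theorem planePoint_smul (γ : SL(2, ℤ)) (τ : ℍ) :
    planePoint (γ • τ) = Φ.toInf () (gammaK γ) • planePoint τ := by
  have hdet : ((γ 0 0 : ℤ) : ℝ) * ((γ 1 1 : ℤ) : ℝ) - ((γ 0 1 : ℤ) : ℝ) * ((γ 1 0 : ℤ) : ℝ) = 1 := by
    have := γ.2
    rw [Matrix.det_fin_two] at this
    exact_mod_cast this
  have hcoe : ((γ • τ : ℍ) : ℂ) = (((γ 0 0 : ℤ) : ℝ) * (τ : ℂ) + ((γ 0 1 : ℤ) : ℝ)) /
      (((γ 1 0 : ℤ) : ℝ) * (τ : ℂ) + ((γ 1 1 : ℤ) : ℝ)) := by
    rw [UpperHalfPlane.specialLinearGroup_apply]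
    simp [eq_intCast]
  set g := Φ.toInf () (gammaK γ) with hg
  have ha := fun i j => toInf_gammaK (Φ := Φ) γ i j
  set a : ℝ := ((γ 0 0 : ℤ) : ℝ)
  set b : ℝ := ((γ 0 1 : ℤ) : ℝ)
  set c : ℝ := ((γ 1 0 : ℤ) : ℝ)
  set d : ℝ := ((γ 1 1 : ℤ) : ℝ)
  have hden : HSpace.denSq g (planePoint τ) =
      (c * τ.re + d) * (c * τ.re + d) + c * τ.im * (c * τ.im) := by
    rw [HSpace.denSq, ha, ha]
    simp [planePoint, Complex.normSq_apply, Complex.add_re,
      Complex.add_im, Complex.mul_re, Complex.mul_im, c, d]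
    ring
  have habs : HSpace.absDet g = 1 := by
    rw [HSpace.absDet, Matrix.det_fin_two, ha, ha, ha, ha]
    have e : ((γ 0 0 : ℤ) : ℂ) * ((γ 1 1 : ℤ) : ℂ) - ((γ 0 1 : ℤ) : ℂ) * ((γ 1 0 : ℤ) : ℂ) = 1 := by
      have := γ.2
      rw [Matrix.det_fin_two] at this
      exact_mod_cast this
    rw [e, norm_one]
  have hre : (γ • τ).re = ((a * τ.re + b) * (c * τ.re + d) + a * c * τ.im ^ 2) /
      ((c * τ.re + d) * (c * τ.re + d) + c * τ.im * (c * τ.im)) := by
    show ((γ • τ : ℍ) : ℂ).re = _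
    rw [hcoe]
    simp [Complex.div_re, Complex.normSq_apply]
    rw [← add_div]
    congr 1
    ring
  have him : (γ • τ).im = τ.im / ((c * τ.re + d) * (c * τ.re + d) + c * τ.im * (c * τ.im)) := by
    show ((γ • τ : ℍ) : ℂ).im = _
    rw [hcoe]
    simp [Complex.div_im, Complex.normSq_apply]
    rw [← sub_div]
    congr 1
    linear_combination τ.im * hdet
  refine HSpace.ext ?_ ?_
  · rw [HSpace.smul_z, hden, ha, ha, ha, ha]
    show ((γ • τ).re : ℂ) = _
    rw [hre]
    simp only [planePoint, a, b, c, d, map_add, map_mul, Complex.conj_ofReal, map_intCast]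
    push_cast
    ring
  · rw [HSpace.smul_r, hden, habs, one_mul]
    exact him

variable {φ : Space Φ U → ℂ}

variable (φ) in
/-- The test family. -/
def psiTest (e : (FiniteAdeleRing (𝓞 K) K)ˣ) (b : (ZMod (lev M k))ˣ)
    (r : SL(2, ZMod (lev M k))) (τ : ℍ) : ℂ :=
  ∑ j ∈ Finset.range (terms M k), Poisson.eC ((j : ℝ) / M) *
    φ (Space.mk (fun _ => planePoint τ)
      ((ratLift K (SpecialLinearGroup.toGL r⁻¹ * diag2 b 1) * hTest E M e j : GfK K) : Yf U))

variable {e : (FiniteAdeleRing (𝓞 K) K)ˣ}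
  (hfix : ∀ j, ∀ u ∈ principalLevel K ((lev M k : ℕ) : 𝓞 K),
    (hTest E M e j)⁻¹ * u * hTest E M e j ∈ U)

include hfix in
/-- Lifts of one residue class give one finite coordinate. -/
theorem mk_lift_eq {G G' : GfK K} {g : GL (Fin 2) (ZMod (lev M k))} (h : IsModLift G g)
    (h' : IsModLift G' g) (j : ℕ) :
    ((G * hTest E M e j : GfK K) : Yf U) = ((G' * hTest E M e j : GfK K) : Yf U) := by
  refine QuotientGroup.eq.2 (le_levelZ U ?_)
  rw [_root_.mul_inv_rev, show (hTest E M e j)⁻¹ * G⁻¹ * (G' * hTest E M e j) =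
    (hTest E M e j)⁻¹ * (G⁻¹ * G') * hTest E M e j by group]
  exact hfix j _ (h.inv_mul_mem h')

variable (hφ : IsCuspEigen φ)

include hφ hfix in
theorem psiTest_equivariant (b : (ZMod (lev M k))ˣ) (γ : SL(2, ℤ)) (r : SL(2, ZMod (lev M k)))
    (τ : ℍ) : psiTest E φ e b r (γ • τ) = psiTest E φ e b (r * redM (lev M k) γ) τ := by
  refine Finset.sum_congr rfl fun j _ => ?_
  congr 1
  set G := ratLift K (SpecialLinearGroup.toGL r⁻¹ * diag2 b 1)
  have hlift : IsModLift (toGf K (gammaK γ⁻¹) * G)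
      (SpecialLinearGroup.toGL (r * redM (lev M k) γ)⁻¹ * diag2 b 1) := by
    have h := (isModLift_toGf (K := K) (L := lev M k) γ⁻¹).mul
      (isModLift_ratLift (K := K) (SpecialLinearGroup.toGL r⁻¹ * diag2 b 1))
    rw [← mul_assoc, ← map_mul] at h
    rwa [_root_.mul_inv_rev, show (redM (lev M k) γ)⁻¹ =
      SpecialLinearGroup.map (Int.castRingHom (ZMod (lev M k))) γ⁻¹ from (map_inv _ γ).symm]
  rw [← mk_lift_eq E hfix hlift (isModLift_ratLift _) j, mul_assoc,
    ← hφ.invariant (gammaK γ) (Space.mk (fun _ => planePoint τ)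
      ((toGf K (gammaK γ⁻¹) * (G * hTest E M e j) : GfK K) : Yf U)), Space.smul_mk]
  congr 2
  · funext i
    exact planePoint_smul γ τ
  · show ((G * hTest E M e j : GfK K) : Yf U) =
      ((toGf K (gammaK γ) * (toGf K (gammaK γ⁻¹) * (G * hTest E M e j)) : GfK K) : Yf U)
    rw [← mul_assoc (toGf K (gammaK γ)), ← map_mul, ← gammaK_mul, mul_inv_cancel,
      show (gammaK (1 : SL(2, ℤ)) : GL (Fin 2) K) = 1 by simp [gammaK], map_one, one_mul]

include hφ in
theorem continuous_psiTest (b : (ZMod (lev M k))ˣ) (r : SL(2, ZMod (lev M k))) :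
    Continuous (psiTest E φ e b r) :=
  continuous_finsetSum _ fun _ _ => continuous_const.mul
    ((hφ.continuous _).comp (continuous_pi fun _ => continuous_planePoint))

section Decay

variable {S : Set (HeightOneSpectrum (𝓞 K))} {a : HeightOneSpectrum (𝓞 K) → ℂ}
  (φs : sForms Φ S a) (hφs : ∀ τ g, φs.1 τ g = φ (Space.mk τ (g : Yf U)))

include hφs in
theorem invariant_of_eq : ∀ (g : GfK K), ∀ u ∈ U, ∀ τ, φs.1 τ (g * u) = φs.1 τ g :=
    fun g u hu τ => by
  rw [hφs, hφs, show ((g * u : GfK K) : Yf U) = (g : Yf U) from QuotientGroup.eq.2 (by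
    rw [_root_.mul_inv_rev, inv_mul_cancel_right]; exact le_levelZ U (inv_mem hu))]

include Φ in
theorem one_le_norm_emb {y : 𝓞 K} (hy : y ≠ 0) (E' : EisData (𝓞 K)) :
    1 ≤ ‖Φ.emb () (algebraMap (𝓞 K) K y)‖ := by
  obtain ⟨a, b, rfl⟩ := E'.repr y
  set x := Φ.emb () (wK E')
  have hre : x.re = -(1 / 2) := re_emb_wK E' Φ
  have hw : x ^ 2 + x + 1 = 0 := by
    simp only [x]; rw [← map_pow, ← map_add, ← map_one (Φ.emb ()), ← map_add, wK_sq, map_zero]
  have him : x.im * x.im = 3 / 4 := by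
    have h1 := congrArg Complex.re hw
    simp [pow_two, Complex.mul_re, hre] at h1
    linarith
  have hval : Complex.normSq ((a : ℂ) + (b : ℂ) * x) = ((a * a - a * b + b * b : ℤ) : ℝ) := by
    simp [Complex.normSq_apply, hre]
    linear_combination ((b : ℝ) * b) * him
  have hint : 1 ≤ a * a - a * b + b * b := by
    rcases eq_or_ne b 0 with hb | hb
    · subst hb
      have ha : a ≠ 0 := fun ha => hy (by simp [ha])
      have := mul_self_pos.2 ha
      linarith
    · nlinarith [sq_nonneg (2 * a - b), mul_self_pos.2 hb]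
  rw [map_add, map_mul, map_intCast, map_intCast, map_add, map_mul, map_intCast, map_intCast]
  show 1 ≤ ‖(a : ℂ) + (b : ℂ) * x‖
  have h2 : (1 : ℝ) ≤ ‖(a : ℂ) + (b : ℂ) * x‖ ^ 2 := by
    rw [← Complex.normSq_eq_norm_sq, hval]
    exact_mod_cast hint
  nlinarith [norm_nonneg ((a : ℂ) + (b : ℂ) * x)]

/-- The expansion coefficients of a slice of the test family. -/
def sliceCoeff (g : GL (Fin 2) (ZMod (lev M k))) (e : (FiniteAdeleRing (𝓞 K) K)ˣ) (α : K) : ℂ :=
  ∑ j ∈ Finset.range (terms M k), Poisson.eC ((j : ℝ) / M) *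
    (coeffData Φ S a).coeff φs (ratLift K g * hTest E M e j) α

/-- A slice of the test family as a function on `ℍ₃`. -/
def sliceFn (φ : Space Φ U → ℂ) (g : GL (Fin 2) (ZMod (lev M k)))
    (e : (FiniteAdeleRing (𝓞 K) K)ˣ) (p : HSpace) : ℂ :=
  ∑ j ∈ Finset.range (terms M k), Poisson.eC ((j : ℝ) / M) *
    φ (Space.mk (fun _ => p) ((ratLift K g * hTest E M e j : GfK K) : Yf U))

include hfix hφs in
theorem sliceCoeff_trace (g : GL (Fin 2) (ZMod (lev M k))) {α : K}
    (hne : sliceCoeff E φs g e α ≠ 0) (o : 𝓞 K) :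
    ∃ m : ℤ, Algebra.trace ℚ K ((lev M k : K) * (α * algebraMap (𝓞 K) K o)) = (m : ℚ) := by
  obtain ⟨j, -, hj⟩ := Finset.exists_ne_zero_of_sum_ne_zero hne
  exact exists_trace_int E φs (invariant_of_eq φs hφs) hfix (isModLift_ratLift g)
    (right_ne_zero_of_mul hj) o

theorem sliceCoeff_zero (g : GL (Fin 2) (ZMod (lev M k))) : sliceCoeff E φs g e 0 = 0 :=
  Finset.sum_eq_zero fun j _ => by rw [CoeffData.coeff_zero, mul_zero]

include hfix hφs in
theorem hasPlaneExpansion_slice (hM : M ≠ 0) (g : GL (Fin 2) (ZMod (lev M k))) :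
    HasPlaneExpansion Φ (sliceFn E φ g e) (sliceCoeff E φs g e) where
  hasSum p := by
    simp only [sliceCoeff, sliceFn, Finset.sum_mul, mul_assoc]
    refine hasSum_sum fun j _ => (HasSum.mul_left _ ?_)
    rw [← hφs]
    exact hasSum_coeffData φs _ _
  lower := by
    have hL : (0 : ℝ) < (lev M k : ℕ) := Nat.cast_pos.2 (Nat.pos_of_ne_zero (lev_ne_zero hM))
    refine ⟨‖Φ.emb () (deltaK E)‖ / (lev M k : ℕ), div_pos
      (norm_pos_iff.2 ((map_ne_zero _).2 (deltaK_ne_zero E))) hL, fun α hne => ?_⟩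
    have hL' : (lev M k : K) ≠ 0 := Nat.cast_ne_zero.2 (lev_ne_zero hM)
    obtain ⟨y, hy⟩ := exists_integer_of_traces E Φ (x := (lev M k : K) * α * (1 + 2 * wK E))
      (by
        obtain ⟨m, hm⟩ := sliceCoeff_trace E hfix φs hφs g hne 1
        refine ⟨m, ?_⟩
        rw [← hm, map_one, mul_one]
        congr 1
        linear_combination ((lev M k : K) * α) * deltaK_mul E)
      (by
        obtain ⟨m, hm⟩ := sliceCoeff_trace E hfix φs hφs g hne E.w
        refine ⟨m, ?_⟩
        rw [← hm]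
        congr 1
        show _ = (lev M k : K) * (α * wK E)
        linear_combination ((lev M k : K) * α * wK E) * deltaK_mul E)
    have hy0 : y ≠ 0 := by
      rintro rfl
      rw [map_zero] at hy
      rcases mul_eq_zero.1 hy.symm with h | h
      · exact hne (by rw [(mul_eq_zero.1 h).resolve_left hL', sliceCoeff_zero])
      · exact one_add_two_wK_ne_zero E h
    have he : α = algebraMap (𝓞 K) K y * deltaK E / (lev M k : K) := by
      rw [hy, eq_div_iff hL']
      linear_combination -((lev M k : K) * α) * deltaK_mul E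
    rw [he, map_div₀, map_mul, map_natCast, norm_div, norm_mul, Complex.norm_natCast]
    gcongr
    exact le_mul_of_one_le_left (norm_nonneg _) (one_le_norm_emb hy0 E)

include hfix hφ hφs in
/-- The test family is adapted. -/
theorem isAdapted_psiTest (hM : M ≠ 0) [NeZero (lev M k)] (b : (ZMod (lev M k))ˣ) :
    IsAdapted (psiTest E φ e b) where
  equivariant := psiTest_equivariant E hfix hφ b
  continuous := continuous_psiTest E hφ b
  decay := by
    obtain ⟨C, hC⟩ := hφ.bounded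
    have hC0 : 0 ≤ C := (norm_nonneg _).trans
      (hC (Space.mk (fun _ => HSpace.base) ((1 : GfK K) : Yf U)))
    set B := (terms M k : ℝ) * C
    have hB : 0 ≤ B := mul_nonneg (Nat.cast_nonneg _) hC0
    have hbd : ∀ r τ, ‖psiTest E φ e b r τ‖ ≤ B := fun r τ => by
      refine (norm_sum_le _ _).trans ((Finset.sum_le_sum (g := fun _ => C) fun j _ => ?_).trans
        (le_of_eq (by simp [B])))
      rw [norm_mul, norm_eC, one_mul]
      exact hC _
    choose D hD using fun r : SL(2, ZMod (lev M k)) =>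
      (hasPlaneExpansion_slice E hfix φs hφs hM
        (SpecialLinearGroup.toGL r⁻¹ * diag2 b 1)).exists_decay
    refine ⟨B + ∑ r, |D r|, add_nonneg hB (Finset.sum_nonneg fun _ _ => abs_nonneg _),
      fun r τ => ⟨(hbd r τ).trans (le_add_of_nonneg_right
        (Finset.sum_nonneg fun _ _ => abs_nonneg _)), ?_⟩⟩
    rcases le_total τ.im 1 with h | h
    · refine le_trans ?_ (le_add_of_nonneg_right (Finset.sum_nonneg fun _ _ => abs_nonneg _))
      exact (mul_le_of_le_one_right (norm_nonneg _) (pow_le_one₀ τ.im_pos.le h)).trans (hbd r τ)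
    · refine le_trans ?_ (le_add_of_nonneg_left hB)
      exact ((hD r τ h).trans (le_abs_self _)).trans
        (Finset.single_le_sum (f := fun r => |D r|) (fun _ _ => abs_nonneg _) (Finset.mem_univ r))

end Decay

include hφ in
/-- The integrals over the fundamental domain are sums of plane periods. -/
theorem sum_integral_psiTest [NeZero (lev M k)] :
    ∑ b : (ZMod (lev M k))ˣ, ∑ r, ∫ τ in 𝒟, psiTest E φ e b r τ =
      ∑ j ∈ Finset.range (terms M k), Poisson.eC ((j : ℝ) / M) *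
        ∑ g : GL (Fin 2) (ZMod (lev M k)),
          planePeriod φ ((ratLift K g * hTest E M e j : GfK K) : Yf U) := by
  obtain ⟨C, hC⟩ := hφ.bounded
  have : IsFiniteMeasure (volume.restrict (𝒟 : Set ℍ)) := ⟨by
    rw [Measure.restrict_apply_univ]; exact volume_fd_lt_top⟩
  have hint : ∀ y : Yf U, IntegrableOn
      (fun τ : ℍ => φ (Space.mk (fun _ => planePoint τ) y)) 𝒟 volume := fun y =>
    Integrable.of_bound ((hφ.continuous y).comp
      (continuous_pi fun _ => continuous_planePoint)).aestronglyMeasurable C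
      (.of_forall fun τ => hC _)
  have e1 : ∀ (b : (ZMod (lev M k))ˣ) (r : SL(2, ZMod (lev M k))),
      ∫ τ in 𝒟, psiTest E φ e b r τ = ∑ j ∈ Finset.range (terms M k),
      Poisson.eC ((j : ℝ) / M) * planePeriod φ
        ((ratLift K (SpecialLinearGroup.toGL r⁻¹ * diag2 b 1) * hTest E M e j : GfK K) : Yf U) := by
    intro b r
    simp only [psiTest]
    rw [integral_finsetSum _ fun j _ => (hint _).const_mul _]
    exact Finset.sum_congr rfl fun j _ => by rw [integral_const_mul, planePeriod_eq_integral]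
  simp only [e1]
  rw [Finset.sum_congr rfl fun b _ => Finset.sum_comm, Finset.sum_comm]
  refine Finset.sum_congr rfl fun j _ => ?_
  rw [Finset.mul_sum, ← sum_units_sl]

include hfix in
/-- Reindexing by `n²`. -/
theorem psiTest_nTilde (hM : M ≠ 0) [NeZero (lev M k)] (b : (ZMod (lev M k))ˣ)
    (n : CopNat (lev M k)) (τ : ℍ) :
    psiTest E φ e b (nTilde n) τ = psiTest E φ e (b * copUnit n ^ 2) 1 τ := by
  refine Finset.sum_congr rfl fun j _ => ?_
  refine congrArg (fun y : Yf U => Poisson.eC ((j : ℝ) / M) *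
    φ (Space.mk (fun _ => planePoint τ) y)) ?_
  set u := copUnit n
  have hc : ((u⁻¹ : (ZMod (lev M k))ˣ) : ZMod (lev M k)).val.Coprime (lev M k) :=
    ZMod.val_coe_unit_coprime _
  set c' := natIdele K (one_lt_lev hM) hc
  have hs : (diag2 c' c' : GfK K) = scalarHom (𝓞 K) K c' := by
    apply GL.ext_fin_two; ext i j; fin_cases i <;> fin_cases j <;> simp [scalarHom]
  set G := ratLift K (SpecialLinearGroup.toGL (1 : SL(2, ZMod (lev M k)))⁻¹ *
    diag2 (b * u ^ 2) 1)
  have h1 := (isModLift_diag2 (K := K) (one_lt_lev hM) hc hc).mul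
    (isModLift_ratLift (K := K) (SpecialLinearGroup.toGL (1 : SL(2, ZMod (lev M k)))⁻¹ *
      diag2 (b * u ^ 2) 1))
  rw [show ZMod.unitOfCoprime _ hc = u⁻¹ from Units.ext (ZMod.natCast_zmod_val _)] at h1
  have h2 : diag2 u⁻¹ u⁻¹ * (SpecialLinearGroup.toGL (1 : SL(2, ZMod (lev M k)))⁻¹ *
      diag2 (b * u ^ 2) 1) = SpecialLinearGroup.toGL (nTilde n)⁻¹ * diag2 b 1 := by
    have hn : (SpecialLinearGroup.toGL (nTilde n) : GL (Fin 2) (ZMod (lev M k))) = diag2 u⁻¹ u :=
      Units.ext rfl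
    rw [inv_one, map_one, one_mul, map_inv, eq_inv_mul_iff_mul_eq, hn, diag2_mul_diag2,
      diag2_mul_diag2, mul_one, mul_inv_cancel]
    congr 1
    rw [← mul_assoc, ← _root_.mul_inv_rev, ← pow_two, mul_comm b, inv_mul_cancel_left]
  rw [h2, hs] at h1
  rw [← mk_lift_eq E hfix h1 (isModLift_ratLift _) j]
  refine QuotientGroup.eq.2 ?_
  have hz : scalarHom (𝓞 K) K c' ∈ centerGf (𝓞 K) K := ⟨c', rfl⟩
  refine (le_sup_right : centerGf _ _ ≤ levelZ U) ?_
  rw [mul_assoc (scalarHom (𝓞 K) K c'), centerGf_comm hz, _root_.mul_inv_rev, mul_assoc,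
    inv_mul_cancel, mul_one]
  exact inv_mem hz

end Fermat.Agent.LT.Asai
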