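import Fermat.Agent.LT.Asai.TestDefs
import Fermat.Agent.LT.Asai.TorusRecursion

/-!
# The coefficients of the test vector

At `(q δ)` the sum over `j` of `e(j/M) c(diag(b, 1) n(j κ/M) diag(e, 1))` is `|q| W(e₀ |q|)` up to a
constant when `q` is an
integer with `q b ≡ 1 (mod M)`, and vanishes at the other frequencies of trace `0`.
-/

set_option autoImplicit false

noncomputable section

namespace Fermat.Agent.LT.Asai

open IsDedekindDomain NumberField Matrix
open Fermat.Agent.LT.Adelic Fermat.Agent.LT.Descent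
open Orbit (EisData)

/-- The level `3 M'²` with `M' = M ^ (k + 1)`. -/
def lev (M k : ℕ) : ℕ := 3 * (M ^ (k + 1)) ^ 2

/-- The bound on the denominators of the frequencies. -/
def den (M k : ℕ) : ℕ := (M ^ (k + 1)) ^ 2 * M

/-- The number of translates. -/
def terms (M k : ℕ) : ℕ := den M k * M

variable {M k : ℕ}

theorem one_lt_lev (hM : M ≠ 0) : 1 < lev M k :=
  lt_of_lt_of_le (by norm_num : 1 < 3)
    (Nat.le_mul_of_pos_right 3 (pow_pos (pow_pos (Nat.pos_of_ne_zero hM) _) _))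

theorem lev_ne_zero (hM : M ≠ 0) : lev M k ≠ 0 := (one_lt_lev hM).ne_bot

theorem den_ne_zero (hM : M ≠ 0) : den M k ≠ 0 :=
  mul_ne_zero (pow_ne_zero _ (pow_ne_zero _ hM)) hM

theorem dvd_lev : M ∣ lev M k :=
  dvd_mul_of_dvd_right (dvd_pow (dvd_pow_self M k.succ_ne_zero) two_ne_zero) 3

theorem coprime_den_of_coprime_lev {n : ℕ} (h : n.Coprime (lev M k)) : n.Coprime (den M k) :=
  Nat.Coprime.mul_right (h.coprime_dvd_right (dvd_mul_left _ 3)) (h.coprime_dvd_right dvd_lev)

variable {K : Type*} [Field K] [NumberField K] (E : EisData (𝓞 K)) {Φ : Frame K Unit}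
  {a : HeightOneSpectrum (𝓞 K) → ℂ}

/-- The torus element of the test vector. -/
def eTest (M : ℕ) (e₀ : (FiniteAdeleRing (𝓞 K) K)ˣ) : (FiniteAdeleRing (𝓞 K) K)ˣ :=
  e₀ * (ideleOn (placesOf K M) (deltaUnit E))⁻¹

theorem eTest_apply_of_notMem {e₀ : (FiniteAdeleRing (𝓞 K) K)ˣ}
    (he₀ : ∀ v ∉ placesOf K M, (e₀ : FiniteAdeleRing (𝓞 K) K) v = 1)
    {v : HeightOneSpectrum (𝓞 K)} (hv : v ∉ placesOf K M) :
    (eTest E M e₀ : FiniteAdeleRing (𝓞 K) K) v = 1 := by
  rw [eTest, Units.val_mul, coe_apply_mul, he₀ v hv, inv_idele_apply, ideleOn_apply, if_neg hv,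
    inv_one, mul_one]

theorem natIdele_one {L : ℕ} (hL : 1 < L) (h : Nat.Coprime 1 L) : natIdele K hL h = 1 := by
  refine Units.ext (FiniteAdeleRing.ext K fun v => ?_)
  rw [Units.val_one, coe_apply_one]
  by_cases hv : v ∈ placesOf K L
  · rw [natIdele_apply_of_mem hL h hv]; simp
  · rw [natIdele, ideleOn_apply, if_neg hv]

theorem intValuation_den {v : HeightOneSpectrum (𝓞 K)} (hv : v ∉ placesOf K M) :
    v.intValuation ((den M k * M : ℕ) : 𝓞 K) = 1 ∧ v.intValuation ((den M k : ℕ) : 𝓞 K) = 1 := by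
  have h1 := intValuation_eq_one_of_notMem_placesOf hv
  constructor <;> simp [den, h1]

/-- A unit lift of a residue class. -/
def valIdele (hM : M ≠ 0) (b : (ZMod (lev M k))ˣ) : (FiniteAdeleRing (𝓞 K) K)ˣ :=
  natIdele K (one_lt_lev hM) (ZMod.val_coe_unit_coprime b)

theorem isModLift_valIdele (hM : M ≠ 0) (b : (ZMod (lev M k))ˣ) :
    IsModLift (diag2 (valIdele hM b : (FiniteAdeleRing (𝓞 K) K)ˣ) 1) (diag2 b 1) := by
  have h := isModLift_diag2 (K := K) (one_lt_lev hM) (ZMod.val_coe_unit_coprime b)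
    (Nat.coprime_one_left (lev M k))
  rw [natIdele_one] at h
  have := NeZero.mk (lev_ne_zero (k := k) hM)
  rw [show ZMod.unitOfCoprime (b : ZMod (lev M k)).val (ZMod.val_coe_unit_coprime b) = b from
      Units.ext (ZMod.natCast_zmod_val _),
    show ZMod.unitOfCoprime 1 (Nat.coprime_one_left (lev M k)) = 1 from
      Units.ext (by simp)] at h
  exact h

theorem isModLift_unipotent {L : ℕ} (o : 𝓞 K) :
    IsModLift (unipotent (algebraMap (𝓞 K) (FiniteAdeleRing (𝓞 K) K) ((L : 𝓞 K) * o)) : GfK K)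
      (1 : GL (Fin 2) (ZMod L)) := by
  refine ⟨Aleph.mem_principalLevel_one_iff.2 fun v =>
    isIntLocal_unipotent v (algebraMap_mem_intAdele _ v), 1, by simp, fun i j v => ?_⟩
  have hval : Valued.v ((algebraMap (𝓞 K) (FiniteAdeleRing (𝓞 K) K) ((L : 𝓞 K) * o)) v) ≤
      v.intValuation (L : 𝓞 K) := by
    refine (valued_algebraMap_int (K := K) _ v).trans_le ?_
    rw [map_mul]
    exact mul_le_of_le_one_right' (v.intValuation_le_one o)
  rw [Matrix.sub_apply, Matrix.map_apply, coe_apply_sub, intCast_apply]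
  fin_cases i <;> fin_cases j <;>
    first
      | (simp [coe_apply_one, coe_apply_zero]; done)
      | simpa [Matrix.one_apply, coe_apply_zero] using hval

variable {S : Set (HeightOneSpectrum (𝓞 K))} (φs : sForms Φ S a)

/-- The coefficient of the test vector. -/
def testCoeff (e : (FiniteAdeleRing (𝓞 K) K)ˣ) (k : ℕ) (b : (ZMod (lev M k))ˣ) (α : K) : ℂ :=
  ∑ j ∈ Finset.range (terms M k), Poisson.eC ((j : ℝ) / M) *
    (coeffData Φ S a).coeff φs (ratLift K (diag2 b 1) * hTest E M e j) α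

/-- `q W(e₀ q)`, the `q` sitting outside the places dividing `M`. -/
def natCoeff (M : ℕ) (φ : sForms Φ S a) (e₀ : (FiniteAdeleRing (𝓞 K) K)ˣ) (q : ℕ) : ℂ :=
  if h : q ≠ 0 ∧ q.Coprime M then
    (q : ℂ) * (coeffData Φ S a).torusCoeff φ
      (e₀ * ideleOn (placesOf K M)ᶜ (globalIdele (Units.mk0 (q : K) (Nat.cast_ne_zero.2 h.1))))
  else 0

variable {U : Subgroup (GfK K)} (hinv : ∀ (g : GfK K), ∀ u ∈ U, ∀ τ, φs.1 τ (g * u) = φs.1 τ g)
  {e : (FiniteAdeleRing (𝓞 K) K)ˣ}
  (hfix : ∀ j, ∀ u ∈ principalLevel K ((lev M k : ℕ) : 𝓞 K),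
    (hTest E M e j)⁻¹ * u * hTest E M e j ∈ U)

include hinv hfix in
theorem coeff_lift_eq {G G' : GfK K} {g : GL (Fin 2) (ZMod (lev M k))} (h : IsModLift G g)
    (h' : IsModLift G' g) (j : ℕ) (α : K) :
    (coeffData Φ S a).coeff φs (G * hTest E M e j) α =
      (coeffData Φ S a).coeff φs (G' * hTest E M e j) α := by
  have hu := hfix j _ (h.inv_mul_mem h')
  have e1 := (coeffData Φ S a).coeff_invariant φs (G * hTest E M e j) _
    (fun τ g' => hinv g' _ hu τ) α
  rw [← e1]
  group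

include hinv hfix in
theorem exists_trace_int {G : GfK K} {g : GL (Fin 2) (ZMod (lev M k))} (hG : IsModLift G g) {j : ℕ}
    {α : K} (hne : (coeffData Φ S a).coeff φs (G * hTest E M e j) α ≠ 0) (o : 𝓞 K) :
    ∃ m : ℤ, Algebra.trace ℚ K ((lev M k : K) * (α * algebraMap (𝓞 K) K o)) = (m : ℚ) := by
  set D := coeffData Φ S a
  set t := algebraMap (𝓞 K) (FiniteAdeleRing (𝓞 K) K) ((lev M k : 𝓞 K) * o) with ht
  have hl := (isModLift_unipotent (K := K) (L := lev M k) o).mul hG
  rw [one_mul] at hl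
  have h1 := coeff_lift_eq E φs hinv hfix hl hG j α
  rw [mul_assoc, D.coeff_unipotent] at h1
  have hpsi : D.psi (algebraMap K (FiniteAdeleRing (𝓞 K) K) α * t) = 1 :=
    mul_right_cancel₀ hne (h1.trans (one_mul _).symm)
  rw [ht, IsScalarTower.algebraMap_apply (𝓞 K) K (FiniteAdeleRing (𝓞 K) K), ← map_mul,
    show D.psi = psiF from rfl] at hpsi
  obtain ⟨m, hm⟩ := (psiF_algebraMap_eq_one_iff _).1 hpsi
  refine ⟨m, ?_⟩
  rw [← hm, map_mul (algebraMap (𝓞 K) K), map_natCast]
  ring_nf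

/-- The idele at which the torus coefficient is evaluated. -/
def freqIdele (hM : M ≠ 0) (e : (FiniteAdeleRing (𝓞 K) K)ˣ) (b : (ZMod (lev M k))ˣ) (q : ℚ)
    (hq : (q : K) ≠ 0) : (FiniteAdeleRing (𝓞 K) K)ˣ :=
  globalIdele (Units.mk0 (q : K) hq) * deltaUnit E * valIdele hM b * e

theorem coeff_diag_hTest (hM : M ≠ 0) (b : (ZMod (lev M k))ˣ) (q : ℚ) (hq : (q : K) ≠ 0) (j : ℕ) :
    (coeffData Φ S a).coeff φs
        (diag2 (valIdele hM b : (FiniteAdeleRing (𝓞 K) K)ˣ) 1 * hTest E M e j)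
        ((q : K) * deltaK E) =
      psiF (algebraMap K (FiniteAdeleRing (𝓞 K) K) ((q : K) * deltaK E) *
          (((valIdele hM b : (FiniteAdeleRing (𝓞 K) K)ˣ) : FiniteAdeleRing (𝓞 K) K) * tAdele E M j)) *
        (‖Φ.emb () ((q : K) * deltaK E)‖ *
          (coeffData Φ S a).torusCoeff φs (freqIdele E hM e b q hq)) := by
  set D := coeffData Φ S a
  set b' : (FiniteAdeleRing (𝓞 K) K)ˣ := valIdele hM b
  rw [hTest, ← mul_assoc, diag2_mul_unipotent, mul_assoc, D.coeff_unipotent, diag2_mul_diag2,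
    one_mul, show D.psi = psiF from rfl]
  congr 1
  set β : Kˣ := Units.mk0 ((q : K) * deltaK E) (mul_ne_zero hq (deltaK_ne_zero E))
  have h := D.coeff_diag φs β (diag2 (b' * e) 1) 1
  rw [one_mul, Units.val_mk0] at h
  rw [← h, mul_comm]
  simp only [Finset.univ_unique, Finset.prod_singleton]
  congr 1
  rw [CoeffData.torusCoeff]
  have he : globalIdele β * (b' * e) = freqIdele E hM e b q hq * D.delta := by
    rw [show globalIdele β = globalIdele (Units.mk0 (q : K) hq) *
        globalIdele (Units.mk0 (deltaK E) (deltaK_ne_zero E)) by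
      rw [globalIdele, globalIdele, globalIdele, ← map_mul]; congr 1; exact Units.ext rfl]
    rw [show D.delta = conductorIdele K from rfl, freqIdele, deltaUnit]
    set X := globalIdele (Units.mk0 (q : K) hq)
    set Y := globalIdele (Units.mk0 (deltaK E) (deltaK_ne_zero E))
    set c := conductorIdele K
    calc X * Y * (b' * e) = X * (Y * c⁻¹ * c) * (b' * e) := by rw [inv_mul_cancel_right]
      _ = X * (Y * c⁻¹) * b' * e * c := by
        simp only [mul_assoc, mul_comm, mul_left_comm]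
  rw [← he]
  refine congrArg (fun g => D.coeff φs g 1) ?_
  apply GL.ext_fin_two
  ext i l
  fin_cases i <;> fin_cases l <;>
    simp [toGf, globalIdele, Matrix.mul_apply, Fin.sum_univ_two]

theorem valued_freqIdele (hM : M ≠ 0) {e₀ : (FiniteAdeleRing (𝓞 K) K)ˣ}
    (he₀ : ∀ v ∉ placesOf K M, (e₀ : FiniteAdeleRing (𝓞 K) K) v = 1) (b : (ZMod (lev M k))ˣ)
    (q : ℚ) (hq : (q : K) ≠ 0) (Ψ : Frame K Unit) {v : HeightOneSpectrum (𝓞 K)}
    (hv : v ∉ placesOf K M) :
    Valued.v ((freqIdele E hM (eTest E M e₀) b q hq : FiniteAdeleRing (𝓞 K) K) v) =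
      v.valuation K (q : K) := by
  simp only [freqIdele, Units.val_mul, coe_apply_mul, map_mul, eTest_apply_of_notMem E he₀ hv,
    valued_deltaUnit E Ψ v, valIdele, valued_natIdele, mul_one, globalIdele_apply,
    Units.val_mk0]

/-- A unit idele close to `1` at the places dividing `M`. -/
theorem diag2_mem_principalLevel_natCast {u : (FiniteAdeleRing (𝓞 K) K)ˣ}
    (hu : ∀ v, Valued.v ((u : FiniteAdeleRing (𝓞 K) K) v) = 1)
    (hu1 : ∀ v ∈ placesOf K M,
      Valued.v ((u : FiniteAdeleRing (𝓞 K) K) v - 1) ≤ v.intValuation ((M : ℕ) : 𝓞 K)) :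
    diag2 u 1 ∈ principalLevel K ((M : ℕ) : 𝓞 K) := by
  have h1 : diag2 u 1 ∈ principalLevel K (1 : 𝓞 K) :=
    Aleph.mem_principalLevel_one_iff.2 fun v => isIntLocal_diag2 v (hu v)
  have h2 := inv_mul_mem_of_congr (n := ((M : ℕ) : 𝓞 K))
    (one_mem (principalLevel K (1 : 𝓞 K))) h1 fun i l v => by
      rw [Matrix.sub_apply, coe_apply_sub]
      fin_cases i <;> fin_cases l <;> try (simp [coe_apply_one, coe_apply_zero]; done)
      show Valued.v ((u : FiniteAdeleRing (𝓞 K) K) v - (1 : FiniteAdeleRing (𝓞 K) K) v) ≤ _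
      rw [coe_apply_one]
      by_cases hv : v ∈ placesOf K M
      · exact hu1 v hv
      · rw [intValuation_eq_one_of_notMem_placesOf hv]
        exact (Valuation.map_sub _ _ _).trans (max_le (hu v).le (map_one _).le)
  simpa using h2

include hinv in
theorem torusCoeff_mul_of_level (hMU : principalLevel K ((M : ℕ) : 𝓞 K) ≤ U)
    (x : (FiniteAdeleRing (𝓞 K) K)ˣ) {u : (FiniteAdeleRing (𝓞 K) K)ˣ}
    (hu : diag2 u 1 ∈ principalLevel K ((M : ℕ) : 𝓞 K)) :
    (coeffData Φ S a).torusCoeff φs (x * u) = (coeffData Φ S a).torusCoeff φs x := by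
  have e1 := (coeffData Φ S a).coeff_invariant φs
    (diag2 (x * (coeffData Φ S a).delta) 1) _ (fun τ g => hinv g _ (hMU hu) τ) 1
  rw [diag2_mul_diag2, one_mul] at e1
  rw [CoeffData.torusCoeff, CoeffData.torusCoeff, ← e1, mul_right_comm]

include hinv in
/-- At a place prime to the level the coefficient is supported on the integers. -/
theorem torusCoeff_eq_zero_of_level (hMU : principalLevel K ((M : ℕ) : 𝓞 K) ≤ U)
    {v : HeightOneSpectrum (𝓞 K)} (hv : v ∉ placesOf K M)
    {x : (FiniteAdeleRing (𝓞 K) K)ˣ}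
    (hx : 1 < Valued.v ((x : FiniteAdeleRing (𝓞 K) K) v)) :
    (coeffData Φ S a).torusCoeff φs x = 0 := by
  set D := coeffData Φ S a
  obtain ⟨s, hs0, hsv, hs1⟩ := D.psi_exact v
  obtain ⟨t, ht0, htv⟩ := exists_single v (s v / (x : FiniteAdeleRing (𝓞 K) K) v)
  have hxt : (x : FiniteAdeleRing (𝓞 K) K) * t = s := FiniteAdeleRing.ext K fun w => by
    rw [coe_apply_mul]
    by_cases hw : w = v
    · subst hw; rw [htv, mul_div_cancel₀ _ (idele_ne_zero x w)]
    · rw [ht0 w hw, hs0 w hw, mul_zero]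
  have hint : ∀ w, Valued.v (t w) ≤ 1 := fun w => by
    by_cases hw : w = v
    · subst hw
      rw [htv, map_div₀]
      refine div_le_one_of_le₀ (hsv.trans ?_) zero_le
      have h0 := ne_zero_of_lt hx
      rw [← WithZero.exp_log h0] at hx ⊢
      rw [← WithZero.exp_zero, WithZero.exp_lt_exp] at hx
      rw [WithZero.exp_le_exp]; omega
    · rw [ht0 w hw, map_zero]; exact zero_le
  have hmem : unipotent t ∈ principalLevel K ((M : ℕ) : 𝓞 K) :=
    Aleph.mem_principalLevel_of_local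
      (Aleph.mem_principalLevel_one_iff.2 fun w => isIntLocal_unipotent w (hint w)) fun w hw =>
        localGL_unipotent_eq_one (ht0 w fun e => hv (e ▸
          (w.intValuation_lt_one_iff_mem _).1 hw : v ∈ placesOf K M))
  have h1 := D.coeff_invariant φs (diag2 (x * D.delta) 1) _
    (fun τ g' => hinv g' _ (hMU hmem) τ) 1
  have h2 := D.torusCoeff_mul_unipotent φs x t 1
  simp only [mul_one, hxt, h1] at h2
  by_contra h
  exact hs1 (mul_right_cancel₀ h (h2.symm.trans (one_mul _).symm))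

section Eval

variable {e₀ : (FiniteAdeleRing (𝓞 K) K)ˣ}
  (he₀ : ∀ v ∉ placesOf K M, (e₀ : FiniteAdeleRing (𝓞 K) K) v = 1)
  (hfix₀ : ∀ j, ∀ u ∈ principalLevel K ((lev M k : ℕ) : 𝓞 K),
    (hTest E M (eTest E M e₀) j)⁻¹ * u * hTest E M (eTest E M e₀) j ∈ U)

include Φ in
theorem psiF_twist (hM : M ≠ 0) (b : (ZMod (lev M k))ˣ) (m : ℤ) (j : ℕ) :
    psiF (algebraMap K (FiniteAdeleRing (𝓞 K) K) ((((m : ℚ) / den M k : ℚ) : K) * deltaK E) *
        (((valIdele hM b : (FiniteAdeleRing (𝓞 K) K)ˣ) : FiniteAdeleRing (𝓞 K) K) * tAdele E M j)) *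
      Poisson.eC ((j : ℝ) / M) =
      Poisson.eC ((j : ℝ) * (((den M k : ℤ) - m * (b : ZMod (lev M k)).val : ℤ) : ℝ) /
        (terms M k : ℕ)) := by
  set n := (b : ZMod (lev M k)).val
  set A := algebraMap K (FiniteAdeleRing (𝓞 K) K)
  have hd : (den M k : K) ≠ 0 := Nat.cast_ne_zero.2 (den_ne_zero hM)
  have hMK : (M : K) ≠ 0 := Nat.cast_ne_zero.2 hM
  set r : ℚ := -((m : ℚ) * n * j / ((den M k : ℚ) * M)) with hr
  set z : K := (r : K) * wK E with hz
  have hkappa : deltaK E * algebraMap (𝓞 K) K (kappaInt E) = -wK E := by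
    rw [kappaInt, map_mul, map_neg, map_add, map_one, map_mul, map_ofNat]
    show deltaK E * (-wK E * (1 + 2 * wK E)) = -wK E
    linear_combination -(wK E) * deltaK_mul E
  have hsub : A ((((m : ℚ) / den M k : ℚ) : K) * deltaK E) *
      (((valIdele hM b : (FiniteAdeleRing (𝓞 K) K)ˣ) : FiniteAdeleRing (𝓞 K) K) * tAdele E M j) - A z ∈
        intAdele (𝓞 K) K := by
    intro v
    rw [coe_apply_sub, coe_apply_mul, coe_apply_mul, tAdele, adeleOn_apply]
    by_cases hv : v ∈ placesOf K M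
    · have hv' : v ∈ placesOf K (lev M k) := by
        obtain ⟨c, hc⟩ := (dvd_lev (M := M) (k := k))
        show ((lev M k : ℕ) : 𝓞 K) ∈ v.asIdeal
        rw [hc, Nat.cast_mul]
        exact v.asIdeal.mul_mem_right _ hv
      rw [if_pos hv, valIdele, natIdele_apply_of_mem _ _ hv', ← intCast_apply, ← map_intCast A,
        ← coe_apply_mul, ← map_mul, ← coe_apply_mul, ← map_mul, ← coe_apply_sub, ← map_sub]
      have e0 : (((m : ℚ) / den M k : ℚ) : K) * deltaK E *
          (((n : ℤ) : K) * ((j : K) * algebraMap (𝓞 K) K (kappaInt E) / (M : K))) - z = 0 := by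
        rw [hz, hr]
        push_cast
        field_simp
        linear_combination ((m : K) * n * j) * hkappa
      rw [e0, map_zero, coe_apply_zero, map_zero]
      exact zero_le
    · rw [if_neg hv, mul_zero, mul_zero, zero_sub, Valuation.map_neg, valued_algebraMap]
      have e1 : z * algebraMap (𝓞 K) K ((den M k * M : ℕ) : 𝓞 K) =
          algebraMap (𝓞 K) K (((-(m * n * j) : ℤ) : 𝓞 K) * E.w) := by
        rw [map_mul (algebraMap (𝓞 K) K), map_natCast, map_intCast, hz, hr]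
        show _ = _ * wK E
        push_cast
        field_simp
      have := congrArg (v.valuation K) e1
      rw [map_mul, v.valuation_of_algebraMap, (intValuation_den hv).1, mul_one] at this
      rw [this]
      exact v.valuation_le_one _
  rw [psiF_apply_of_sub_mem hsub, hz, show (r : K) * wK E = r • wK E by rw [Rat.smul_def],
    map_smul, trace_wK E Φ, smul_eq_mul, ← Poisson.eC_add]
  congr 1
  rw [hr, terms]
  push_cast
  have : (M : ℝ) ≠ 0 := Nat.cast_ne_zero.2 hM
  have : (den M k : ℝ) ≠ 0 := Nat.cast_ne_zero.2 (den_ne_zero hM)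
  field_simp
  ring

include hinv hfix₀ in
theorem testCoeff_eq_sum (hM : M ≠ 0) (b : (ZMod (lev M k))ˣ) (m : ℤ)
    (hq : (((m : ℚ) / den M k : ℚ) : K) ≠ 0) :
    testCoeff E φs (eTest E M e₀) k b ((((m : ℚ) / den M k : ℚ) : K) * deltaK E) =
      (∑ j ∈ Finset.range (terms M k), Poisson.eC ((j : ℝ) *
        (((den M k : ℤ) - m * (b : ZMod (lev M k)).val : ℤ) : ℝ) / (terms M k : ℕ))) *
      ((‖Φ.emb () ((((m : ℚ) / den M k : ℚ) : K) * deltaK E)‖ : ℂ) *
        (coeffData Φ S a).torusCoeff φs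
          (freqIdele E hM (eTest E M e₀) b ((m : ℚ) / den M k) hq)) := by
  rw [testCoeff, Finset.sum_mul]
  refine Finset.sum_congr rfl fun j _ => ?_
  rw [coeff_lift_eq E φs hinv hfix₀ (isModLift_ratLift _) (isModLift_valIdele hM b) j,
    coeff_diag_hTest E φs hM b _ hq j, ← psiF_twist E (Φ := Φ) hM b m j]
  ring

include hinv hfix₀ he₀ in
/-- The frequencies are integral multiples of `δ`. -/
theorem exists_freq_eq_div (hM : M ≠ 0) (hMU : principalLevel K ((M : ℕ) : 𝓞 K) ≤ U) {G : GfK K} {b : (ZMod (lev M k))ˣ}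
    (hG : IsModLift G (diag2 b 1)) {j : ℕ} {α : K}
    (hne : (coeffData Φ S a).coeff φs (G * hTest E M (eTest E M e₀) j) α ≠ 0)
    (htr : Algebra.trace ℚ K α = 0) :
    ∃ m : ℤ, α = (((m : ℚ) / den M k : ℚ) : K) * deltaK E := by
  obtain ⟨q, rfl⟩ := eq_ratCast_mul_delta_of_trace_eq_zero E Φ htr
  have hq : (q : K) ≠ 0 := fun h => hne (by rw [h, zero_mul, CoeffData.coeff_zero])
  obtain ⟨m₀, hm₀⟩ := exists_trace_int E φs hinv hfix₀ hG hne E.w
  have hm : (lev M k : ℚ) * q = m₀ := by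
    rw [← hm₀, show (lev M k : K) * ((q : K) * deltaK E * algebraMap (𝓞 K) K E.w) =
      deltaK E * wK E * ((((lev M k : ℚ) * q : ℚ) : K) + ((0 : ℚ) : K) * wK E) by
        push_cast; rw [wK]; ring, (trace_delta_mul E Φ _ _).2, sub_zero]
  have hd : (den M k : ℚ) ≠ 0 := Nat.cast_ne_zero.2 (den_ne_zero hM)
  suffices ∃ m : ℤ, (den M k : ℚ) * q = m by
    obtain ⟨m, hm⟩ := this
    exact ⟨m, by rw [← hm, mul_div_cancel_left₀ _ hd]⟩
  rw [lev] at hm
  push_cast at hm
  rw [den]
  push_cast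
  by_cases h3 : 3 ∣ M
  · obtain ⟨c, hc⟩ := h3
    refine ⟨m₀ * c, ?_⟩
    push_cast
    rw [← hm, show (M : ℚ) = 3 * c by exact_mod_cast hc]
    ring
  obtain ⟨v, hv3, hvM⟩ : ∃ v : HeightOneSpectrum (𝓞 K),
      ((3 : ℕ) : 𝓞 K) ∈ v.asIdeal ∧ v ∉ placesOf K M := by
    cases splitting E Nat.prime_three with
    | inert v h => norm_num at h
    | split v v' h => norm_num at h
    | ramified v h hm' =>
      exact ⟨v, (hm' v).2 rfl, not_mem_of_coprime
        (Nat.prime_three.coprime_iff_not_dvd.2 h3) v ((hm' v).2 rfl)⟩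
  have hval : v.valuation K (q : K) ≤ 1 := by
    rw [← valued_freqIdele E hM he₀ b q hq Φ hvM]
    by_contra hlt
    refine hne ?_
    rw [coeff_lift_eq E φs hinv hfix₀ hG (isModLift_valIdele hM b) j,
      coeff_diag_hTest E φs hM b q hq j,
      torusCoeff_eq_zero_of_level φs hinv hMU hvM (not_le.1 hlt), mul_zero, mul_zero]
  have h3m : (3 : ℤ) ∣ m₀ := by
    have e : algebraMap (𝓞 K) K (m₀ : 𝓞 K) =
        algebraMap (𝓞 K) K ((lev M k : ℕ) : 𝓞 K) * (q : K) := by
      rw [map_intCast, map_natCast]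
      have : (((lev M k : ℕ) : ℚ) * q : ℚ) = m₀ := by rw [lev]; push_cast; exact hm
      have := congrArg (fun x : ℚ => (x : K)) this
      push_cast at this
      exact this.symm
    have h1 : v.intValuation (m₀ : 𝓞 K) < 1 := by
      rw [← v.valuation_of_algebraMap (K := K)]
      show v.valuation K (algebraMap (𝓞 K) K (m₀ : 𝓞 K)) < 1
      rw [e, map_mul, v.valuation_of_algebraMap]
      refine mul_lt_one_of_lt_of_le ?_ hval
      rw [v.intValuation_lt_one_iff_mem, lev, Nat.cast_mul]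
      exact v.asIdeal.mul_mem_right _ hv3
    by_contra hnd
    exact notMem_of_isCoprime (L := 3)
      (isCoprime_comm.1 ((Int.prime_three).coprime_iff_not_dvd.2 hnd)) hv3
      ((v.intValuation_lt_one_iff_mem _).1 h1)
  obtain ⟨c, hc⟩ := h3m
  refine ⟨c * M, ?_⟩
  rw [hc] at hm
  push_cast at hm ⊢
  linear_combination (M / 3 : ℚ) * hm

include hinv hfix₀ he₀ in
/-- The value at the integral frequencies. -/
theorem testCoeff_int (hM : M ≠ 0) (hMU : principalLevel K ((M : ℕ) : 𝓞 K) ≤ U)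
    (hterms : ∀ i : ℤ, ∑ j ∈ Finset.range (terms M k), Poisson.eC ((j : ℝ) * i / (terms M k : ℕ)) =
      if ((terms M k : ℕ) : ℤ) ∣ i then ((terms M k : ℕ) : ℂ) else 0)
    (b : (ZMod (lev M k))ˣ) {q : ℤ} (hq : q ≠ 0) :
    testCoeff E φs (eTest E M e₀) k b ((q : K) * deltaK E) =
      if (M : ℤ) ∣ 1 - q * (b : ZMod (lev M k)).val then
        ((terms M k : ℕ) : ℂ) * (‖Φ.emb () (deltaK E)‖ : ℂ) *
          natCoeff M φs e₀ q.natAbs
      else 0 := by
  set D := coeffData Φ S a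
  set n := (b : ZMod (lev M k)).val
  have hd : (den M k : ℚ) ≠ 0 := Nat.cast_ne_zero.2 (den_ne_zero hM)
  have hqq : ((((q * den M k : ℤ) : ℚ) / den M k : ℚ) : K) = (q : K) := by
    rw [Int.cast_mul, Int.cast_natCast, mul_div_cancel_right₀ _ hd, Rat.cast_intCast]
  have hq0 : ((((q * den M k : ℤ) : ℚ) / den M k : ℚ) : K) ≠ 0 := by
    rw [hqq]; exact Int.cast_ne_zero.2 hq
  have h := testCoeff_eq_sum E φs hinv hfix₀ hM b (q * den M k) hq0
  rw [hqq, hterms, show (den M k : ℤ) - q * den M k * n = (den M k : ℤ) * (1 - q * n) by ring,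
    terms, Nat.cast_mul (den M k) M] at h
  simp only [Int.mul_dvd_mul_iff_left (Int.natCast_ne_zero.2 (den_ne_zero hM))] at h
  rw [h]
  split_ifs with hdvd
  swap
  · rw [zero_mul]
  have hnorm : (‖Φ.emb () ((q : K) * deltaK E)‖ : ℂ) =
      (q.natAbs : ℂ) * (‖Φ.emb () (deltaK E)‖ : ℂ) := by
    rw [map_mul, norm_mul, map_intCast, Complex.norm_intCast, ← Int.cast_abs,
      ← Int.natCast_natAbs, Int.cast_natCast, Complex.ofReal_mul, Complex.ofReal_natCast]
  have hcop : q.natAbs.Coprime M := by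
    obtain ⟨c, hc⟩ := hdvd
    have : IsCoprime q (M : ℤ) := ⟨n, c, by linarith⟩
    exact Int.isCoprime_iff_gcd_eq_one.1 this
  set w := freqIdele E hM (eTest E M e₀) b (((q * den M k : ℤ) : ℚ) / den M k) hq0 with hw
  set y := w * e₀⁻¹ with hy
  have hyv : ∀ v ∈ placesOf K M, (y : FiniteAdeleRing (𝓞 K) K) v =
      ((q * n : ℤ) : v.adicCompletion K) := by
    intro v hv
    have hv' : v ∈ placesOf K (lev M k) := by
      obtain ⟨c, hc⟩ := (dvd_lev (M := M) (k := k))
      show ((lev M k : ℕ) : 𝓞 K) ∈ v.asIdeal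
      rw [hc, Nat.cast_mul]
      exact v.asIdeal.mul_mem_right _ hv
    have he : (y : FiniteAdeleRing (𝓞 K) K) v =
        (globalIdele (Units.mk0 _ hq0) : FiniteAdeleRing (𝓞 K) K) v *
          ((valIdele hM b : (FiniteAdeleRing (𝓞 K) K)ˣ) : FiniteAdeleRing (𝓞 K) K) v := by
      rw [hy, hw, freqIdele, eTest]
      simp only [Units.val_mul, coe_apply_mul, inv_idele_apply, ideleOn_apply, if_pos hv]
      have h1 := idele_ne_zero e₀ v
      have h2 := idele_ne_zero (deltaUnit E) v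
      field_simp
    rw [he, valIdele, natIdele_apply_of_mem _ _ hv']
    show algebraMap K (FiniteAdeleRing (𝓞 K) K)
      (((((q * den M k : ℤ) : ℚ) / den M k : ℚ) : K)) v * _ = _
    rw [hqq, map_intCast, intCast_apply]
    push_cast
    rfl
  have hxy : w = e₀ * ideleOn (placesOf K M) y * ideleOn (placesOf K M)ᶜ y := by
    rw [mul_assoc, ideleOn_mul_compl, hy, mul_comm e₀, inv_mul_cancel_right]
  have hunit : ∀ v ∈ placesOf K M, Valued.v ((y : FiniteAdeleRing (𝓞 K) K) v) = 1 := fun v hv => by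
    rw [hyv v hv, valued_intCast]
    refine v.intValuation_eq_one_iff.2 (notMem_of_isCoprime (L := M) ?_ hv)
    obtain ⟨c, hc⟩ := hdvd
    exact ⟨1, c, by linarith⟩
  have hmem : diag2 (ideleOn (placesOf K M) y) 1 ∈ principalLevel K ((M : ℕ) : 𝓞 K) := by
    refine diag2_mem_principalLevel_natCast (fun v => ?_) fun v hv => ?_
    · rw [ideleOn_apply]
      split_ifs with hv
      · exact hunit v hv
      · rw [map_one]
    · rw [ideleOn_apply, if_pos hv, hyv v hv, ← Int.cast_one, ← Int.cast_sub, valued_intCast]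
      obtain ⟨c, hc⟩ := hdvd
      rw [show q * n - 1 = (M : ℤ) * (-c) by linarith, Int.cast_mul, Int.cast_natCast, map_mul]
      exact mul_le_of_le_one_right' (v.intValuation_le_one _)
  have hq' : (q.natAbs : K) ≠ 0 := Nat.cast_ne_zero.2 (Int.natAbs_ne_zero.2 hq)
  set g := globalIdele (Units.mk0 (q.natAbs : K) hq') with hg
  set u := ideleOn (placesOf K M)ᶜ y * (ideleOn (placesOf K M)ᶜ g)⁻¹ with hu
  have humem : diag2 u 1 ∈ principalLevel K ((M : ℕ) : 𝓞 K) := by
    refine diag2_mem_principalLevel_natCast (fun v => ?_) fun v hv => ?_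
    · rw [hu, Units.val_mul, coe_apply_mul, inv_idele_apply, ideleOn_apply, ideleOn_apply]
      by_cases hv : v ∈ placesOf K M
      · rw [if_neg (fun h' => h' hv), if_neg (fun h' => h' hv), inv_one, mul_one, map_one]
      rw [if_pos (Set.mem_compl hv), if_pos (Set.mem_compl hv), hy, hg, Units.val_mul,
        coe_apply_mul, inv_idele_apply, map_mul, map_mul, map_inv₀, map_inv₀, globalIdele_apply,
        he₀ v hv, map_one, inv_one, mul_one, hw, valued_freqIdele E hM he₀ b _ hq0 Φ hv, hqq,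
        Units.val_mk0]
      have e : v.valuation K (q : K) = v.valuation K (q.natAbs : K) := by
        rcases Int.natAbs_eq q with e | e
        · conv_lhs => rw [e, Int.cast_natCast]
        · conv_lhs => rw [e, Int.cast_neg, Int.cast_natCast, Valuation.map_neg]
      rw [e, mul_inv_cancel₀ ((Valuation.ne_zero_iff _).2 hq')]
    · rw [hu, Units.val_mul, coe_apply_mul, inv_idele_apply, ideleOn_apply, ideleOn_apply,
        if_neg (fun h' => h' hv), if_neg (fun h' => h' hv), inv_one, mul_one, sub_self, map_zero]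
      exact zero_le
  have hdrop : D.torusCoeff φs w = D.torusCoeff φs (e₀ * ideleOn (placesOf K M)ᶜ g) := by
    rw [hxy, mul_right_comm, torusCoeff_mul_of_level φs hinv hMU _ hmem,
      show e₀ * ideleOn (placesOf K M)ᶜ y = e₀ * ideleOn (placesOf K M)ᶜ g * u by
        rw [hu, mul_assoc, mul_comm (ideleOn (placesOf K M)ᶜ y), mul_inv_cancel_left],
      torusCoeff_mul_of_level φs hinv hMU _ humem]
  rw [hdrop, hnorm, natCoeff, dif_pos ⟨Int.natAbs_ne_zero.2 hq, hcop⟩, terms]
  push_cast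
  ring

end Eval

end Fermat.Agent.LT.Asai
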